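/-
T2-C (helper9): the one-valuation base at a DVR level, for a level `N` prime to the residue
characteristic (good reduction), assembled from the T1-A package (`Lib/T1/GoodRed/Core.lean`).

`(L, O, π, k)`: `L` a field of characteristic zero, `O ⊆ L` a discrete valuation ring with surjective
residue map `π : O → k`, `k` algebraically closed, `N` invertible in `k`.  Then

* `t2iBase O π hπ N hN : T2Base L (TaF L N) k (modularFunctionFieldFullC k N)`: the Gauss valuation
  ring `taOv` of `F_{N,L} ⊆ L((q))` with its residue map `taResN` (values in `k(j̄(q^d) : d ∣ N)`);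
* `t2iBase_res_surjective`: the residue map is surjective.
-/
import Fermat.Agent.Lib.T2.Core.Base
import Fermat.Agent.Lib.T1.GoodRed.Core

set_option autoImplicit false
set_option linter.unusedSectionVars false
set_option linter.unusedVariables false
set_option linter.style.haveILetI false
set_option synthInstance.maxHeartbeats 400000

open HahnSeries ModularCurve Fermat.Agent.T1

noncomputable section

namespace Fermat.Agent.T2

/-- a discrete valuation ring is archimedean -/
theorem t2i_arch {R : Type*} [CommRing R] [IsDomain R] [IsDiscreteValuationRing R]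
    (a : R) (ha : a ∈ IsLocalRing.maximalIdeal R) (c : R) (hc : c ≠ 0) : ∃ n : ℕ, c ∣ a ^ n := by
  obtain ⟨ϖ, hϖ⟩ := IsDiscreteValuationRing.exists_irreducible R
  obtain ⟨n, hn⟩ := IsDiscreteValuationRing.associated_pow_irreducible hc hϖ
  refine ⟨n, ?_⟩
  rw [hϖ.maximalIdeal_eq, Ideal.mem_span_singleton] at ha
  exact hn.dvd.trans (pow_dvd_pow_of_dvd ha n)

variable {L : Type*} [Field L] [Algebra ℚ L] (O : ValuationSubring L)
  {k : Type*} [Field k] (π : ↥O →+* k)
  [IsDiscreteValuationRing ↥O] (hπ : Function.Surjective π) (N : ℕ) [NeZero N] [IsAlgClosed k]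

/-- the residue map of the Gauss valuation with values in `k(j̄(q^d) : d ∣ N)` -/
def t2iRes (hN : (N : k) ≠ 0) : ↥(taOv O π hπ N) →+* ↥(modularFunctionFieldFullC k N) :=
  (taResN O π hπ N).codRestrict (modularFunctionFieldFullC k N).toSubring
    (taResN_mem_full O π hπ N hN)

theorem coe_t2iRes (hN : (N : k) ≠ 0) (f : ↥(taOv O π hπ N)) :
    ((t2iRes O π hπ N hN f : ↥(modularFunctionFieldFullC k N)) : LaurentSeries k) =
      taResN O π hπ N f := rfl

theorem t2iRes_surjective (hN : (N : k) ≠ 0) : Function.Surjective (t2iRes O π hπ N hN) := by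
  intro t
  obtain ⟨f, hf⟩ := exists_taResN_eq_of_mem_full O π hπ N t.2
  exact ⟨f, Subtype.ext hf⟩

/-- **the one-valuation base at a DVR level** -/
def t2iBase (hN : (N : k) ≠ 0) : T2Base L ↥(TaF L N) k ↥(modularFunctionFieldFullC k N) where
  A := O
  resA := π
  resA_surj := hπ
  Ov := (taOv O π hπ N).toSubring
  res := t2iRes O π hπ N hN
  algebraMap_mem := algebraMap_mem_taOv O π hπ N
  res_algebraMap := fun a => by
    apply Subtype.ext
    show taResN O π hπ N ⟨_, algebraMap_mem_taOv O π hπ N a⟩ = _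
    rw [taResN_algebraMap]
    show _ = algebraMap k (LaurentSeries k) (π a)
    rw [ta_algebraMap_eq_C]
  normalize := fun f hf0 => by
    obtain ⟨ϖ, hϖ⟩ := IsDiscreteValuationRing.exists_irreducible ↥O
    have hϖ0 : ((ϖ : ↥O) : L) ≠ 0 := ta_coe_unif_ne_zero hϖ
    obtain ⟨n, u, hu, hui, hfu⟩ := ta_exists_zpow_mul_unitN O π hπ N hϖ f hf0
    have hcu : (((ϖ : ↥O) : L) ^ (-n)) • f = u := by
      rw [Algebra.smul_def, hfu, ← mul_assoc, map_zpow₀, ← zpow_add₀, neg_add_cancel, zpow_zero,
        one_mul]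
      intro h0
      rw [map_eq_zero] at h0
      exact hϖ0 h0
    refine ⟨((ϖ : ↥O) : L) ^ (-n), zpow_ne_zero _ hϖ0, hcu ▸ hu, fun h0 => ?_⟩
    have h1 : t2iRes O π hπ N hN ⟨u, hu⟩ = 0 := by
      rw [← h0]
      congr 1
      exact Subtype.ext hcu.symm
    have hu0 : u ≠ 0 := by
      rintro rfl
      rw [mul_zero] at hfu
      exact hf0 hfu
    have h2 : (⟨u, hu⟩ : ↥(taOv O π hπ N)) * ⟨u⁻¹, hui⟩ = 1 :=
      Subtype.ext (mul_inv_cancel₀ hu0)
    have h3 := congrArg (t2iRes O π hπ N hN) h2
    rw [map_mul, h1, zero_mul, map_one] at h3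
    exact zero_ne_one h3
  arch := t2i_arch
  cart := fun W hW => by
    classical
    haveI := hW
    obtain ⟨m, w, hw, hwW, hind, hspan, horth, -⟩ := ta_cart O π hπ N hN W
    refine ⟨Finset.univ.image w, fun s hs => ?_, fun f hfW hfO => ?_⟩
    · obtain ⟨i, -, rfl⟩ := Finset.mem_image.mp hs
      exact ⟨hwW i, hw i⟩
    · have hf : f ∈ Submodule.span L (Set.range w) := hspan ▸ hfW
      obtain ⟨c, hc⟩ := (Submodule.mem_span_range_iff_exists_fun L).mp hf
      have hcO : ∀ i, c i ∈ O := (horth c).mp (hc ▸ hfO)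
      have hinj : Function.Injective w := hind.injective
      refine ⟨fun s => if h : ∃ i, w i = s then ⟨c h.choose, hcO _⟩ else 0, ?_⟩
      rw [Finset.sum_image (fun i _ j _ h => hinj h), ← hc]
      refine Finset.sum_congr rfl fun i _ => ?_
      have hex : ∃ i', w i' = w i := ⟨i, rfl⟩
      dsimp only
      rw [dif_pos hex]
      have : hex.choose = i := hinj hex.choose_spec
      rw [this]

theorem t2iBase_A (hN : (N : k) ≠ 0) : (t2iBase O π hπ N hN).A = O := rfl

theorem t2iBase_resA (hN : (N : k) ≠ 0) : (t2iBase O π hπ N hN).resA = π := rfl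

theorem mem_t2iBase_Ov (hN : (N : k) ≠ 0) (f : ↥(TaF L N)) :
    f ∈ (t2iBase O π hπ N hN).Ov ↔ f ∈ taOv O π hπ N := Iff.rfl

theorem t2iBase_res (hN : (N : k) ≠ 0) (f : ↥(t2iBase O π hπ N hN).Ov) :
    (((t2iBase O π hπ N hN).res f : ↥(modularFunctionFieldFullC k N)) : LaurentSeries k) =
      taResN O π hπ N ⟨(f : ↥(TaF L N)), f.2⟩ := rfl

theorem t2iBase_res_surjective (hN : (N : k) ≠ 0) :
    Function.Surjective (t2iBase O π hπ N hN).res := t2iRes_surjective O π hπ N hN

end Fermat.Agent.T2
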