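/-
T2-C (helper9), leaf (C-a): the generic two-valuation base ("Kronecker decomposition").

Input (`T2kInput`): a one-valuation base `d'` of `F'` (residue field `E ⊆ Ω`), an extension `F / F'`
of degree `≤ q + 1` (hence spanned by `1, Y, …, Y^q`), a subring `G ⊆ F` with a residue map `ρ : G → Ω` (the Gauss ring of `F`),
an `L`-automorphism `w` of `F` with `ρ (w (α b)) = Φ (res' b)`, and the Kronecker independence
`∑ b_l y₁^l = 0 ∧ ∑ Φ(b_l) y₂^l = 0 ⟹ b = 0` (`y₁ = ρ Y`, `y₂ = ρ (w Y)`).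

Output: `𝒪 := G ∩ w⁻¹ G = ⊕ 𝒪' Y^l` (`T2kInput.decomp`), the `Y^l` are an `F'`-basis of `F`, and
`T2kInput.base : T2Base L F k (E × E)` with `res f = (ρ f, ρ (w f))`.
-/
import Fermat.Agent.Lib.T2.Core.Base

set_option autoImplicit false
set_option linter.unusedSectionVars false
set_option linter.unusedVariables false
set_option linter.style.haveILetI false

noncomputable section

namespace Fermat.Agent.T2

namespace T2Base

variable {K F k Fb : Type*} [Field K] [Field F] [Algebra K F] [Field k] [CommRing Fb] [Algebra k Fb]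
variable (d : T2Base K F k Fb)

/-- a finite family of functions, not all zero, can be scaled into the Gauss ring so that one of
the residues is non-zero -/
theorem exists_scale_vec {ι : Type*} [Fintype ι] (a : ι → F) (ha : ∃ i, a i ≠ 0) :
    ∃ c : K, c ≠ 0 ∧ ∃ h : ∀ i, c • a i ∈ d.Ov, ∃ i, d.res ⟨c • a i, h i⟩ ≠ 0 := by
  classical
  -- a normalising scalar for each non-zero entry
  have hex : ∀ i, ∃ c : K, c ≠ 0 ∧ (a i ≠ 0 → ∃ h : c • a i ∈ d.Ov, d.res ⟨c • a i, h⟩ ≠ 0) := by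
    intro i
    by_cases hi : a i = 0
    · exact ⟨1, one_ne_zero, fun h => absurd hi h⟩
    · obtain ⟨c, hc0, hc, hres⟩ := d.normalize (a i) hi
      exact ⟨c, hc0, fun _ => ⟨hc, hres⟩⟩
  choose c hc0 hc using hex
  obtain ⟨j, hj⟩ := ha
  -- choose `i₀` with `a i₀ ≠ 0` and `c i₀ / c i ∈ A` for all `i` with `a i ≠ 0`
  set t : Finset ι := Finset.univ.filter (fun i => a i ≠ 0) with ht
  have hjt : j ∈ t := by rw [ht, Finset.mem_filter]; exact ⟨Finset.mem_univ j, hj⟩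
  obtain ⟨i₀, hi₀t, -, hall⟩ := d.exists_scale t (fun i => (c i)⁻¹)
    ⟨j, hjt, inv_ne_zero (hc0 j)⟩
  have hi₀ : a i₀ ≠ 0 := (Finset.mem_filter.mp hi₀t).2
  have hmem : ∀ i, c i₀ • a i ∈ d.Ov := by
    intro i
    by_cases hi : a i = 0
    · rw [hi, smul_zero]; exact d.Ov.zero_mem
    · have hit : i ∈ t := by rw [ht, Finset.mem_filter]; exact ⟨Finset.mem_univ i, hi⟩
      obtain ⟨h1, -⟩ := hc i hi
      have h2 := d.smul_mem ⟨(c i)⁻¹ / (c i₀)⁻¹, hall i hit⟩ h1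
      have h3 : ((c i)⁻¹ / (c i₀)⁻¹) • c i • a i = c i₀ • a i := by
        rw [smul_smul]
        congr 1
        field_simp [hc0 i, hc0 i₀]
      rwa [h3] at h2
  refine ⟨c i₀, hc0 i₀, hmem, i₀, ?_⟩
  obtain ⟨h1, h2⟩ := hc i₀ hi₀
  exact h2

end T2Base

/-- the input of the generic two-valuation base -/
structure T2kInput (L F' F k Ω : Type*) [Field L] [Field F'] [Field F] [Algebra L F']
    [Algebra L F] [Algebra F' F] [IsScalarTower L F' F] [Field k] [Field Ω] [Algebra k Ω]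
    (E : IntermediateField k Ω) where
  /-- the base of the lower level -/
  d' : T2Base L F' k ↥E
  /-- the Gauss ring of the upper level -/
  G : Subring F
  /-- its residue map -/
  ρ : ↥G →+* Ω
  /-- the involution -/
  w : F ≃ₐ[L] F
  /-- the Frobenius-type endomorphism of the residue field -/
  Φ : ↥E →+* ↥E
  α_mem : ∀ b : ↥d'.Ov, algebraMap F' F (b : F') ∈ G
  ρ_α : ∀ b : ↥d'.Ov, ρ ⟨algebraMap F' F (b : F'), α_mem b⟩ = ((d'.res b : ↥E) : Ω)
  β_mem : ∀ b : ↥d'.Ov, w (algebraMap F' F (b : F')) ∈ G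
  ρ_β : ∀ b : ↥d'.Ov, ρ ⟨w (algebraMap F' F (b : F')), β_mem b⟩ = ((Φ (d'.res b) : ↥E) : Ω)
  /-- the degree minus one -/
  q : ℕ
  /-- the generator -/
  Y : F
  Y_mem : Y ∈ G
  wY_mem : w Y ∈ G
  y₁ : ↥E
  y₂ : ↥E
  ρ_Y : ρ ⟨Y, Y_mem⟩ = (y₁ : Ω)
  ρ_wY : ρ ⟨w Y, wY_mem⟩ = (y₂ : Ω)
  fin : Module.Finite F' F
  deg_le : Module.finrank F' F ≤ q + 1
  kron : ∀ b : Fin (q + 1) → ↥E, ∑ l, b l * y₁ ^ (l : ℕ) = 0 →
    ∑ l, Φ (b l) * y₂ ^ (l : ℕ) = 0 → ∀ l, b l = 0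

namespace T2kInput

variable {L F' F k Ω : Type*} [Field L] [Field F'] [Field F] [Algebra L F'] [Algebra L F]
  [Algebra F' F] [IsScalarTower L F' F] [Field k] [Field Ω] [Algebra k Ω]
  {E : IntermediateField k Ω} (I : T2kInput L F' F k Ω E)

/-- `𝒪 = G ∩ w⁻¹ G` -/
def Ov : Subring F := I.G ⊓ I.G.comap (I.w : F →+* F)

theorem mem_Ov {f : F} : f ∈ I.Ov ↔ f ∈ I.G ∧ I.w f ∈ I.G := Iff.rfl

/-- the first residue map `𝒪 → Ω` -/
def ρ₁ : ↥I.Ov →+* Ω := I.ρ.comp (Subring.inclusion inf_le_left)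

/-- the second residue map `𝒪 → Ω`, `f ↦ ρ (w f)` -/
def ρ₂ : ↥I.Ov →+* Ω :=
  I.ρ.comp (((I.w : F →+* F).comp I.Ov.subtype).codRestrict I.G (fun f => f.2.2))

theorem ρ₁_apply (f : ↥I.Ov) : I.ρ₁ f = I.ρ ⟨(f : F), f.2.1⟩ := rfl

theorem ρ₂_apply (f : ↥I.Ov) : I.ρ₂ f = I.ρ ⟨I.w (f : F), f.2.2⟩ := rfl

theorem α_mem_Ov (b : ↥I.d'.Ov) : algebraMap F' F (b : F') ∈ I.Ov := ⟨I.α_mem b, I.β_mem b⟩

theorem Y_mem_Ov : I.Y ∈ I.Ov := ⟨I.Y_mem, I.wY_mem⟩

theorem ρ₁_α (b : ↥I.d'.Ov) : I.ρ₁ ⟨algebraMap F' F (b : F'), I.α_mem_Ov b⟩ =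
    ((I.d'.res b : ↥E) : Ω) := I.ρ_α b

theorem ρ₂_α (b : ↥I.d'.Ov) : I.ρ₂ ⟨algebraMap F' F (b : F'), I.α_mem_Ov b⟩ =
    ((I.Φ (I.d'.res b) : ↥E) : Ω) := I.ρ_β b

theorem ρ₁_Y : I.ρ₁ ⟨I.Y, I.Y_mem_Ov⟩ = (I.y₁ : Ω) := I.ρ_Y

theorem ρ₂_Y : I.ρ₂ ⟨I.Y, I.Y_mem_Ov⟩ = (I.y₂ : Ω) := I.ρ_wY

/-- `∑ α(b_l) Y^l` as an element of `𝒪` -/
def comb (b : Fin (I.q + 1) → ↥I.d'.Ov) : ↥I.Ov :=
  ∑ l, (⟨algebraMap F' F (b l : F'), I.α_mem_Ov (b l)⟩ : ↥I.Ov) *
    (⟨I.Y, I.Y_mem_Ov⟩ : ↥I.Ov) ^ (l : ℕ)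

theorem coe_comb (b : Fin (I.q + 1) → ↥I.d'.Ov) :
    ((I.comb b : ↥I.Ov) : F) = ∑ l, algebraMap F' F (b l : F') * I.Y ^ (l : ℕ) := by
  rw [comb, AddSubmonoidClass.coe_finsetSum]
  rfl

theorem ρ₁_comb (b : Fin (I.q + 1) → ↥I.d'.Ov) :
    I.ρ₁ (I.comb b) = ((∑ l, I.d'.res (b l) * I.y₁ ^ (l : ℕ) : ↥E) : Ω) := by
  rw [comb, map_sum]
  push_cast
  refine Finset.sum_congr rfl fun l _ => ?_
  rw [map_mul, map_pow, I.ρ₁_α, I.ρ₁_Y]

theorem ρ₂_comb (b : Fin (I.q + 1) → ↥I.d'.Ov) :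
    I.ρ₂ (I.comb b) = ((∑ l, I.Φ (I.d'.res (b l)) * I.y₂ ^ (l : ℕ) : ↥E) : Ω) := by
  rw [comb, map_sum]
  push_cast
  refine Finset.sum_congr rfl fun l _ => ?_
  rw [map_mul, map_pow, I.ρ₂_α, I.ρ₂_Y]

/-- **the key step**: a non-zero coefficient vector can be scaled so that the combination lies in
`𝒪` with non-zero residue -/
theorem exists_scale_comb (a : Fin (I.q + 1) → F') (ha : ∃ l, a l ≠ 0) :
    ∃ c : L, c ≠ 0 ∧ ∃ b : Fin (I.q + 1) → ↥I.d'.Ov, (∀ l, (b l : F') = c • a l) ∧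
      ¬ (I.ρ₁ (I.comb b) = 0 ∧ I.ρ₂ (I.comb b) = 0) := by
  obtain ⟨c, hc0, hmem, l₀, hl₀⟩ := I.d'.exists_scale_vec a ha
  refine ⟨c, hc0, fun l => ⟨c • a l, hmem l⟩, fun _ => rfl, ?_⟩
  rintro ⟨h1, h2⟩
  rw [I.ρ₁_comb] at h1
  rw [I.ρ₂_comb] at h2
  have h1' : (∑ l, I.d'.res ⟨c • a l, hmem l⟩ * I.y₁ ^ (l : ℕ) : ↥E) = 0 := by
    apply Subtype.ext
    rw [h1]; rfl
  have h2' : (∑ l, I.Φ (I.d'.res ⟨c • a l, hmem l⟩) * I.y₂ ^ (l : ℕ) : ↥E) = 0 := by
    apply Subtype.ext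
    rw [h2]; rfl
  exact hl₀ (I.kron _ h1' h2' l₀)

theorem coe_comb_smul {a : Fin (I.q + 1) → F'} {c : L} {b : Fin (I.q + 1) → ↥I.d'.Ov}
    (hb : ∀ l, (b l : F') = c • a l) :
    ((I.comb b : ↥I.Ov) : F) = c • ∑ l, algebraMap F' F (a l) * I.Y ^ (l : ℕ) := by
  rw [I.coe_comb, Finset.smul_sum]
  refine Finset.sum_congr rfl fun l _ => ?_
  rw [hb l, Algebra.smul_def, Algebra.smul_def, map_mul, ← IsScalarTower.algebraMap_apply,
    mul_assoc]

/-- the powers `1, Y, …, Y^q` are linearly independent over `F'` -/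
theorem eq_zero_of_sum_eq_zero (a : Fin (I.q + 1) → F')
    (h : ∑ l, algebraMap F' F (a l) * I.Y ^ (l : ℕ) = 0) : ∀ l, a l = 0 := by
  by_contra hne
  push Not at hne
  obtain ⟨c, hc0, b, hb, hres⟩ := I.exists_scale_comb a hne
  apply hres
  have h0 : I.comb b = 0 := by
    apply Subtype.ext
    rw [I.coe_comb_smul hb, h, smul_zero]
    rfl
  rw [h0, map_zero, map_zero]
  exact ⟨rfl, rfl⟩

/-- `1, Y, …, Y^q` span `F` over `F'` (degree count) -/
theorem span (f : F) : ∃ a : Fin (I.q + 1) → F', f = ∑ l, algebraMap F' F (a l) * I.Y ^ (l : ℕ) := by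
  haveI := I.fin
  have hli : LinearIndependent F' (fun l : Fin (I.q + 1) => I.Y ^ (l : ℕ)) := by
    rw [Fintype.linearIndependent_iff]
    intro g hg
    refine I.eq_zero_of_sum_eq_zero g ?_
    rw [← hg]
    refine Finset.sum_congr rfl fun l _ => ?_
    rw [Algebra.smul_def]
  have hcard : Fintype.card (Fin (I.q + 1)) = Module.finrank F' F := by
    have h1 := hli.fintype_card_le_finrank
    have h2 := I.deg_le
    rw [Fintype.card_fin] at h1 ⊢
    omega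
  have htop := hli.span_eq_top_of_card_eq_finrank' hcard
  have hf : f ∈ Submodule.span F' (Set.range fun l : Fin (I.q + 1) => I.Y ^ (l : ℕ)) := by
    rw [htop]; exact Submodule.mem_top
  obtain ⟨c, hc⟩ := (Submodule.mem_span_range_iff_exists_fun F').mp hf
  refine ⟨c, ?_⟩
  rw [← hc]
  refine Finset.sum_congr rfl fun l _ => ?_
  rw [Algebra.smul_def]

/-- residues of scalars -/
theorem ρ_algebraMap (a : ↥I.d'.A) (h : algebraMap L F (a : L) ∈ I.G) :
    I.ρ ⟨algebraMap L F (a : L), h⟩ = algebraMap k Ω (I.d'.resA a) := by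
  have h1 := I.ρ_α (I.d'.toOv a)
  rw [I.d'.res_toOv] at h1
  have h2 : algebraMap F' F ((I.d'.toOv a : ↥I.d'.Ov) : F') = algebraMap L F (a : L) := by
    rw [T2Base.coe_toOv, ← IsScalarTower.algebraMap_apply]
  have h3 : (((algebraMap k ↥E) (I.d'.resA a) : ↥E) : Ω) = algebraMap k Ω (I.d'.resA a) := rfl
  rw [← h3, ← h1]
  congr 1
  exact Subtype.ext h2.symm

theorem algebraMap_mem_Ov (a : ↥I.d'.A) : algebraMap L F (a : L) ∈ I.Ov := by
  have h2 : algebraMap F' F ((I.d'.toOv a : ↥I.d'.Ov) : F') = algebraMap L F (a : L) := by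
    rw [T2Base.coe_toOv, ← IsScalarTower.algebraMap_apply]
  refine ⟨h2 ▸ I.α_mem _, ?_⟩
  show I.w (algebraMap L F (a : L)) ∈ I.G
  rw [AlgEquiv.commutes]
  exact h2 ▸ I.α_mem _

theorem ρ₁_algebraMap (a : ↥I.d'.A) :
    I.ρ₁ ⟨algebraMap L F (a : L), I.algebraMap_mem_Ov a⟩ = algebraMap k Ω (I.d'.resA a) :=
  I.ρ_algebraMap a _

theorem ρ₂_algebraMap (a : ↥I.d'.A) :
    I.ρ₂ ⟨algebraMap L F (a : L), I.algebraMap_mem_Ov a⟩ = algebraMap k Ω (I.d'.resA a) := by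
  rw [ρ₂_apply]
  have h1 : I.w (algebraMap L F (a : L)) = algebraMap L F (a : L) := AlgEquiv.commutes _ _
  rw [← I.ρ_algebraMap a (I.algebraMap_mem_Ov a).1]
  congr 1
  exact Subtype.ext h1

/-- **the Kronecker decomposition**: `𝒪 = ⊕ 𝒪' Y^l` -/
theorem decomp (f : ↥I.Ov) : ∃ b : Fin (I.q + 1) → ↥I.d'.Ov, f = I.comb b := by
  obtain ⟨a, ha⟩ := I.span (f : F)
  by_cases hzero : ∀ l, a l = 0
  · refine ⟨fun _ => 0, Subtype.ext ?_⟩
    rw [ha, I.coe_comb]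
    refine Finset.sum_congr rfl fun l _ => ?_
    rw [hzero l]
    rfl
  push Not at hzero
  obtain ⟨c, hc0, b, hb, hres⟩ := I.exists_scale_comb a hzero
  have hcf : ((I.comb b : ↥I.Ov) : F) = c • (f : F) := by rw [I.coe_comb_smul hb, ← ha]
  by_cases hcA : c⁻¹ ∈ I.d'.A
  · -- the coefficients are integral
    have hmem : ∀ l, a l ∈ I.d'.Ov := by
      intro l
      have h1 := I.d'.smul_mem ⟨c⁻¹, hcA⟩ (b l).2
      have h2 : (c⁻¹ : L) • ((b l : ↥I.d'.Ov) : F') = a l := by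
        rw [hb l, smul_smul, inv_mul_cancel₀ hc0, one_smul]
      rwa [h2] at h1
    refine ⟨fun l => ⟨a l, hmem l⟩, Subtype.ext ?_⟩
    rw [ha, I.coe_comb]
  · exfalso
    have hcA' : c ∈ I.d'.A := (I.d'.A.mem_or_inv_mem c).resolve_right hcA
    have hcm : (⟨c, hcA'⟩ : ↥I.d'.A) ∈ IsLocalRing.maximalIdeal ↥I.d'.A := by
      rw [IsLocalRing.mem_maximalIdeal, mem_nonunits_iff]
      intro hu
      apply hcA
      obtain ⟨u, hu⟩ := isUnit_iff_exists_inv.mp hu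
      have h1 : c * (u : L) = 1 := by
        have := congrArg Subtype.val hu
        simpa using this
      have h2 : (u : L) = c⁻¹ := by
        have := congrArg (fun t => c⁻¹ * t) h1
        simpa [← mul_assoc, inv_mul_cancel₀ hc0] using this
      rw [← h2]
      exact u.2
    have hcres : I.d'.resA ⟨c, hcA'⟩ = 0 := (I.d'.resA_eq_zero_iff _).mpr hcm
    have hprod : I.comb b = ⟨algebraMap L F c, I.algebraMap_mem_Ov ⟨c, hcA'⟩⟩ * f := by
      apply Subtype.ext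
      rw [hcf, Algebra.smul_def]
      rfl
    apply hres
    rw [hprod, map_mul, map_mul, I.ρ₁_algebraMap ⟨c, hcA'⟩, I.ρ₂_algebraMap ⟨c, hcA'⟩, hcres,
      map_zero, zero_mul, zero_mul]
    exact ⟨rfl, rfl⟩

theorem ρ₁_mem (f : ↥I.Ov) : I.ρ₁ f ∈ E := by
  obtain ⟨b, rfl⟩ := I.decomp f
  rw [I.ρ₁_comb]
  exact SetLike.coe_mem _

theorem ρ₂_mem (f : ↥I.Ov) : I.ρ₂ f ∈ E := by
  obtain ⟨b, rfl⟩ := I.decomp f
  rw [I.ρ₂_comb]
  exact SetLike.coe_mem _

/-- the residue map `𝒪 → E × E` -/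
def res : ↥I.Ov →+* ↥E × ↥E :=
  (I.ρ₁.codRestrict E.toSubring I.ρ₁_mem).prod (I.ρ₂.codRestrict E.toSubring I.ρ₂_mem)

theorem res_fst (f : ↥I.Ov) : (((I.res f).1 : ↥E) : Ω) = I.ρ₁ f := rfl

theorem res_snd (f : ↥I.Ov) : (((I.res f).2 : ↥E) : Ω) = I.ρ₂ f := rfl

theorem res_comb (b : Fin (I.q + 1) → ↥I.d'.Ov) :
    I.res (I.comb b) = (∑ l, I.d'.res (b l) * I.y₁ ^ (l : ℕ),
      ∑ l, I.Φ (I.d'.res (b l)) * I.y₂ ^ (l : ℕ)) := by
  apply Prod.ext
  · apply Subtype.ext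
    rw [I.res_fst, I.ρ₁_comb]
  · apply Subtype.ext
    rw [I.res_snd, I.ρ₂_comb]

theorem res_α (b : ↥I.d'.Ov) :
    I.res ⟨algebraMap F' F (b : F'), I.α_mem_Ov b⟩ = (I.d'.res b, I.Φ (I.d'.res b)) := by
  apply Prod.ext
  · apply Subtype.ext
    rw [I.res_fst, I.ρ₁_α]
  · apply Subtype.ext
    rw [I.res_snd, I.ρ₂_α]

theorem res_Y : I.res ⟨I.Y, I.Y_mem_Ov⟩ = (I.y₁, I.y₂) := by
  apply Prod.ext
  · apply Subtype.ext
    rw [I.res_fst, I.ρ₁_Y]
  · apply Subtype.ext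
    rw [I.res_snd, I.ρ₂_Y]

theorem res_eq_zero_iff (f : ↥I.Ov) : I.res f = 0 ↔ I.ρ₁ f = 0 ∧ I.ρ₂ f = 0 := by
  constructor
  · intro h
    refine ⟨?_, ?_⟩
    · rw [← I.res_fst, h]; rfl
    · rw [← I.res_snd, h]; rfl
  · rintro ⟨h1, h2⟩
    apply Prod.ext
    · apply Subtype.ext
      rw [I.res_fst, h1]; rfl
    · apply Subtype.ext
      rw [I.res_snd, h2]; rfl

/-- the `L`-linear map `(a_l) ↦ ∑ α(a_l) Y^l` -/
def combLin : (Fin (I.q + 1) → F') →ₗ[L] F where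
  toFun a := ∑ l, algebraMap F' F (a l) * I.Y ^ (l : ℕ)
  map_add' a a' := by
    rw [← Finset.sum_add_distrib]
    refine Finset.sum_congr rfl fun l _ => ?_
    rw [Pi.add_apply, map_add, add_mul]
  map_smul' c a := by
    rw [RingHom.id_apply, Finset.smul_sum]
    refine Finset.sum_congr rfl fun l _ => ?_
    rw [Pi.smul_apply, Algebra.smul_def, Algebra.smul_def, map_mul,
      ← IsScalarTower.algebraMap_apply, mul_assoc]

theorem combLin_apply (a : Fin (I.q + 1) → F') :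
    I.combLin a = ∑ l, algebraMap F' F (a l) * I.Y ^ (l : ℕ) := rfl

theorem combLin_injective : Function.Injective I.combLin := by
  rw [← LinearMap.ker_eq_bot, LinearMap.ker_eq_bot']
  intro a ha
  funext l
  exact I.eq_zero_of_sum_eq_zero a ha l

theorem combLin_surjective : Function.Surjective I.combLin := fun f => by
  obtain ⟨a, ha⟩ := I.span f
  exact ⟨a, ha.symm⟩

/-- **the two-valuation base** -/
def base [IsNoetherianRing ↥I.d'.A] : T2Base L F k (↥E × ↥E) where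
  A := I.d'.A
  resA := I.d'.resA
  resA_surj := I.d'.resA_surj
  Ov := I.Ov
  res := I.res
  algebraMap_mem := I.algebraMap_mem_Ov
  res_algebraMap := fun a => by
    apply Prod.ext
    · apply Subtype.ext
      rw [I.res_fst, I.ρ₁_algebraMap]
      rfl
    · apply Subtype.ext
      rw [I.res_snd, I.ρ₂_algebraMap]
      rfl
  normalize := fun f hf0 => by
    obtain ⟨a, ha⟩ := I.span f
    have hne : ∃ l, a l ≠ 0 := by
      by_contra hall
      push Not at hall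
      apply hf0
      rw [ha]
      refine Finset.sum_eq_zero fun l _ => ?_
      rw [hall l, map_zero, zero_mul]
    obtain ⟨c, hc0, b, hb, hres⟩ := I.exists_scale_comb a hne
    have hcf : ((I.comb b : ↥I.Ov) : F) = c • f := by rw [I.coe_comb_smul hb, ← ha]
    refine ⟨c, hc0, hcf ▸ (I.comb b).2, fun h0 => hres ?_⟩
    rw [← I.res_eq_zero_iff, ← h0]
    congr 1
    exact Subtype.ext hcf
  arch := I.d'.arch
  cart := fun W hW => by
    classical
    haveI := hW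
    -- the coordinates of `W`
    set W' : Submodule L F' := ⨆ l : Fin (I.q + 1),
      (W.comap I.combLin).map (LinearMap.proj l) with hW'
    haveI hWc : FiniteDimensional L ↥(W.comap I.combLin) := by
      have hinj : Function.Injective
          (I.combLin.restrict (p := W.comap I.combLin) (q := W) (fun a ha => ha)) := by
        intro a a' h
        apply Subtype.ext
        apply I.combLin_injective
        have h1 := congrArg Subtype.val h
        exact h1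
      exact FiniteDimensional.of_injective _ hinj
    haveI : FiniteDimensional L ↥W' := by
      rw [hW']
      exact Submodule.finiteDimensional_iSup _
    have hfg := I.d'.ball_fg W'
    -- the big lattice
    set T : (Fin (I.q + 1) → F') →ₗ[↥I.d'.A] F := I.combLin.restrictScalars ↥I.d'.A with hT
    set N : Submodule ↥I.d'.A F :=
      (Submodule.pi Set.univ (fun _ : Fin (I.q + 1) => I.d'.ball W')).map T with hN
    have hNfg : N.FG := (Submodule.fg_pi (fun _ => hfg)).map T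
    -- the unit ball of `W` lies in it
    set B : Submodule ↥I.d'.A F :=
      { carrier := {f | f ∈ W ∧ f ∈ I.Ov}
        zero_mem' := ⟨W.zero_mem, I.Ov.zero_mem⟩
        add_mem' := fun h1 h2 => ⟨W.add_mem h1.1 h2.1, I.Ov.add_mem h1.2 h2.2⟩
        smul_mem' := fun a f hf => ⟨W.smul_mem (a : L) hf.1, by
          show ((a : ↥I.d'.A) : L) • f ∈ I.Ov
          rw [Algebra.smul_def]
          exact I.Ov.mul_mem (I.algebraMap_mem_Ov a) hf.2⟩ } with hB
    have hBN : B ≤ N := by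
      rintro f ⟨hfW, hfO⟩
      obtain ⟨b, hb⟩ := I.decomp ⟨f, hfO⟩
      have hfb : f = I.combLin (fun l => ((b l : ↥I.d'.Ov) : F')) := by
        have := congrArg Subtype.val hb
        rw [I.coe_comb] at this
        exact this
      refine ⟨fun l => ((b l : ↥I.d'.Ov) : F'), ?_, hfb.symm⟩
      intro l _
      refine ⟨?_, (b l).2⟩
      rw [hW']
      refine Submodule.mem_iSup_of_mem l ?_
      refine ⟨fun l => ((b l : ↥I.d'.Ov) : F'), ?_, rfl⟩
      show I.combLin _ ∈ W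
      rw [← hfb]
      exact hfW
    haveI : IsNoetherian ↥I.d'.A ↥N := isNoetherian_of_fg_of_noetherian N hNfg
    have hBfg : B.FG := by
      have h1 : IsNoetherian ↥I.d'.A ↥B := isNoetherian_of_le hBN
      exact (Submodule.fg_top B).mp (IsNoetherian.noetherian ⊤)
    obtain ⟨S, hS⟩ := hBfg
    refine ⟨S, fun s hs => ?_, fun f hfW hfO => ?_⟩
    · have : s ∈ B := hS ▸ Submodule.subset_span hs
      exact this
    · have hfB : f ∈ Submodule.span ↥I.d'.A (S : Set F) := hS ▸ (⟨hfW, hfO⟩ : f ∈ B)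
      obtain ⟨c, -, hc⟩ := (Submodule.mem_span_finset (R := ↥I.d'.A)).mp hfB
      exact ⟨c, hc.symm⟩

end T2kInput

end Fermat.Agent.T2
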