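/-
T2-C (helper9): the two-valuation base of `F = F_{qN',L}` at a DVR level.

`(L, O, π, k)` as in `BaseH.lean`, `k` of characteristic `q`, `N'` invertible in `k`.
`F' = TaF L N' ⊆ F = TaF L (N' * q)`.  Given the Atkin–Lehner data `T2iAL` (an `L`-automorphism `w`
of `F` with `w ∘ α = β` (`β = qExpand q`) and `w ∘ w = 1`; supplied by T2-W), the Frobenius
endomorphism `Φ = qExpand k q` of `E = k(j̄(q^d) : d ∣ N')` and the Kronecker independence in `k((q))`,
we instantiate `T2kInput` (`Kron.lean`): `t2iInput`, and get the base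
`t2iBase2 : T2Base L F k (E × E)`, `res f = (ρ f, ρ (w f))`.
-/
import Fermat.Agent.Lib.T2.Inst.BaseH
import Fermat.Agent.Lib.T2.Inst.Kron
import Fermat.Agent.Lib.T1.GoodRed.BarUpper
import Fermat.Agent.Lib.T1.Inst.FullC
import Fermat.Prelude.Def_ModularCurve_HeckeOperator
import Fermat.Agent.Lib.T1.Kron.Twist
import Fermat.Agent.Lib.Igusa.PsiStep
import Fermat.Agent.Lib.S24.ProjLineCard

set_option autoImplicit false
set_option linter.unusedSectionVars false
set_option linter.unusedVariables false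
set_option linter.style.haveILetI false
set_option synthInstance.maxHeartbeats 400000

open HahnSeries ModularCurve Fermat.Agent.T1 IntermediateField

noncomputable section

namespace Fermat.Agent.T2

/-! ### The tower `F' ⊆ F` -/

section Tower

variable (L : Type*) [Field L] [Algebra ℚ L] (N' q : ℕ) [NeZero N'] [NeZero q]

/-- the algebra structure of `F = F_{N'q}` over `F' = F_{N'}` given by the Prelude's degeneracy map
`heckeAlphaBar` (a local instance in the files which use it) -/
@[reducible] def t2iAlgebra : Algebra ↥(TaF L N') ↥(TaF L (N' * q)) :=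
  (heckeAlphaBar L N' q).toRingHom.toAlgebra

attribute [local instance] t2iAlgebra

theorem t2i_algebraMap_apply (f : ↥(TaF L N')) :
    algebraMap ↥(TaF L N') ↥(TaF L (N' * q)) f = heckeAlphaBar L N' q f := rfl

@[simp] theorem coe_t2i_algebraMap (f : ↥(TaF L N')) :
    ((algebraMap ↥(TaF L N') ↥(TaF L (N' * q)) f : ↥(TaF L (N' * q))) : LaurentSeries L) =
      (f : LaurentSeries L) := coe_heckeAlphaBar N' q f

theorem t2i_isScalarTower : IsScalarTower L ↥(TaF L N') ↥(TaF L (N' * q)) :=
  IsScalarTower.of_algebraMap_eq (fun a => ((heckeAlphaBar L N' q).commutes a).symm)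

/-- the Atkin–Lehner data (supplied by T2-W) -/
structure T2iAL where
  /-- the involution -/
  w : ↥(TaF L (N' * q)) ≃ₐ[L] ↥(TaF L (N' * q))
  w_alpha : ∀ f : ↥(TaF L N'), w (heckeAlphaBar L N' q f) = heckeBetaBar L N' q f
  w_w : ∀ f : ↥(TaF L (N' * q)), w (w f) = f

variable {L N' q}

theorem T2iAL.w_beta (W : T2iAL L N' q) (f : ↥(TaF L N')) :
    W.w (heckeBetaBar L N' q f) = heckeAlphaBar L N' q f := by
  rw [← W.w_alpha, W.w_w]

end Tower

/-! ### The Gauss valuation and `qExpand` -/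

section Gauss

variable {L : Type*} [Field L] [Algebra ℚ L] (O : ValuationSubring L) {k : Type*} [Field k]
  (π : ↥O →+* k) (q : ℕ) [NeZero q]

theorem t2i_taGauss_qExpand {f : LaurentSeries L} (hf : TaGauss O π f) :
    TaGauss O π (qExpand L q f) := by
  obtain ⟨g, h, hh, e⟩ := hf
  refine ⟨qExpand ↥O q g, qExpand ↥O q h, ?_, ?_⟩
  · rw [taRed_qExpand]
    intro h0
    apply hh
    apply qExpand_injective (R := k) (N := q)
    rw [h0, map_zero]
  · rw [taInc_qExpand, taInc_qExpand, ← map_mul, e]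

theorem t2i_taRhoFun_qExpand {f : LaurentSeries L} (hf : TaGauss O π f) :
    taRhoFun O π (qExpand L q f) = qExpand k q (taRhoFun O π f) := by
  obtain ⟨g, h, hh, e⟩ := hf
  have hh' : taRed π (qExpand ↥O q h) ≠ 0 := by
    rw [taRed_qExpand]
    intro h0
    apply hh
    apply qExpand_injective (R := k) (N := q)
    rw [h0, map_zero]
  have e' : qExpand L q f * taInc O (qExpand ↥O q h) = taInc O (qExpand ↥O q g) := by
    rw [taInc_qExpand, taInc_qExpand, ← map_mul, e]
  rw [taRhoFun_eq O π hh' e', taRhoFun_eq O π hh e, taRed_qExpand, taRed_qExpand, map_div₀]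

end Gauss

/-! ### Frobenius on `j̄` -/

section Frob

variable (k : Type*) [Field k] (q : ℕ) [hq : Fact q.Prime] [CharP k q]

/-- `j̄^q = j̄(q^q)` in characteristic `q` -/
theorem t2i_jq_pow : jqModC k ^ q = qExpand k q (jqModC k) := by
  rw [tkr_pow_char q (jqModC k), coeffMap_jqModC]

end Frob

/-! ### The degree `[F : F'] ≤ q + 1` -/

section Degree

variable {L : Type*} [Field L] [Algebra ℚ L] (O : ValuationSubring L) {k : Type*} [Field k]
  (π : ↥O →+* k) [IsDiscreteValuationRing ↥O] (hπ : Function.Surjective π) [IsAlgClosed k]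
  (N' q : ℕ) [NeZero N'] [hq : Fact q.Prime] [CharP k q]

attribute [local instance] t2iAlgebra

theorem t2i_coprime (hN' : (N' : k) ≠ 0) : Nat.Coprime N' q := by
  rw [Nat.coprime_comm, Nat.Prime.coprime_iff_not_dvd hq.out]
  intro h
  exact hN' ((CharP.cast_eq_zero_iff k q N').mpr h)

theorem t2i_dedekindPsi (hN' : (N' : k) ≠ 0) : dedekindPsi (N' * q) = dedekindPsi N' * (q + 1) := by
  rw [Fermat.Agent.S24Lib.dedekindPsi_mul (t2i_coprime (k := k) N' q hN'),
    Fermat.Agent.Igusa.igPsi_prime hq.out]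

theorem t2i_alpha_taJ : heckeAlphaBar L N' q (taJ N') = taJ (N' * q) := by
  apply Subtype.ext
  rw [coe_heckeAlphaBar]
  rfl

include O π hπ in
/-- `[F : F'] ≤ q + 1` and `F / F'` is finite -/
theorem t2i_finrank_le (hN' : (N' : k) ≠ 0) :
    Module.Finite ↥(TaF L N') ↥(TaF L (N' * q)) ∧
      Module.finrank ↥(TaF L N') ↥(TaF L (N' * q)) ≤ q + 1 := by
  have h1 := ta_finrank_tower (heckeAlphaBar L N' q) (taJ (L := L) N')
  rw [t2i_alpha_taJ] at h1
  have h2 := ta_finrank_le L (N' * q)
  have h3 := ta_finrank O π hπ N' hN'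
  have h4 : 0 < dedekindPsi N' := by
    rw [← h3]
    haveI := ta_finiteDimensional L N'
    exact Module.finrank_pos
  have h5 : 0 < Module.finrank ↥(L⟮taJ (L := L) (N' * q)⟯) ↥(TaF L (N' * q)) := by
    haveI := ta_finiteDimensional L (N' * q)
    exact Module.finrank_pos
  rw [h3] at h1
  rw [h1, t2i_dedekindPsi (k := k) N' q hN'] at h2
  rw [h1] at h5
  have h6 : 0 < Module.finrank ↥(TaF L N') ↥(TaF L (N' * q)) := Nat.pos_of_mul_pos_left h5
  refine ⟨Module.finite_of_finrank_pos h6, ?_⟩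
  exact Nat.le_of_mul_le_mul_left h2 h4

end Degree

/-! ### The Kronecker input -/

section Input

variable {L : Type*} [Field L] [Algebra ℚ L] (O : ValuationSubring L) {k : Type*} [Field k]
  (π : ↥O →+* k) [IsDiscreteValuationRing ↥O] (hπ : Function.Surjective π) [IsAlgClosed k]
  (N' q : ℕ) [NeZero N'] [hq : Fact q.Prime] [CharP k q] (hN' : (N' : k) ≠ 0)

attribute [local instance] t2iAlgebra t2i_isScalarTower

/-- the hypotheses on the residue side: the Frobenius endomorphism `Φ = qExpand k q` of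
`E = k(j̄(q^d) : d ∣ N')` and the Kronecker independence in `k((q))` -/
structure T2iFrob (k : Type*) [Field k] (N' q : ℕ) [NeZero N'] [NeZero q] where
  /-- the endomorphism `q ↦ q^q` of `E` -/
  Φ : ↥(modularFunctionFieldFullC k N') →+* ↥(modularFunctionFieldFullC k N')
  coe_Φ : ∀ f : ↥(modularFunctionFieldFullC k N'),
    ((Φ f : ↥(modularFunctionFieldFullC k N')) : LaurentSeries k) =
      qExpand k q (f : LaurentSeries k)
  kron : ∀ b : Fin (q + 1) → LaurentSeries k,
    ∑ l, b l * (jqModC k ^ q) ^ (l : ℕ) = 0 →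
    ∑ l, qExpand k q (b l) * jqModC k ^ (l : ℕ) = 0 → ∀ l, b l = 0

variable {N' q} (W : T2iAL L N' q) (Fr : T2iFrob k N' q)

theorem taResN_eq_taRhoFun (N : ℕ) [NeZero N] (f : ↥(taOv O π hπ N)) :
    taResN O π hπ N f = taRhoFun O π (((f : ↥(TaF L N)) : LaurentSeries L)) := rfl

/-- `Y = j(q^q)` -/
def t2iY (L : Type*) [Field L] [Algebra ℚ L] (N' q : ℕ) [NeZero N'] [NeZero q] :
    ↥(TaF L (N' * q)) := taGen (L := L) (N' * q) (dvd_mul_left q N')

theorem coe_t2iY : ((t2iY L N' q : ↥(TaF L (N' * q))) : LaurentSeries L) = qExpand L q (jqModC L) :=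
  rfl

theorem t2iY_eq_beta : t2iY L N' q = heckeBetaBar L N' q (taJ N') := by
  apply Subtype.ext
  rw [coe_heckeBetaBar]
  rfl

theorem T2iAL.w_Y : W.w (t2iY L N' q) = taJ (N' * q) := by
  rw [t2iY_eq_beta, W.w_beta, t2i_alpha_taJ]

/-- `j̄(q^q)` as an element of `E` -/
def t2iYb (k : Type*) [Field k] (N' q : ℕ) [NeZero N'] [hq : Fact q.Prime] [CharP k q] :
    ↥(modularFunctionFieldFullC k N') :=
  ⟨qExpand k q (jqModC k), by
    rw [← t2i_jq_pow]
    exact pow_mem (jqModC_mem_full k N') q⟩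

/-- `j̄` as an element of `E` -/
def t2iJb (k : Type*) [Field k] (N' : ℕ) [NeZero N'] : ↥(modularFunctionFieldFullC k N') :=
  ⟨jqModC k, jqModC_mem_full k N'⟩

/-- **the Kronecker input at a DVR level** -/
def t2iInput : T2kInput L ↥(TaF L N') ↥(TaF L (N' * q)) k (LaurentSeries k)
    (modularFunctionFieldFullC k N') where
  d' := t2iBase O π hπ N' hN'
  G := (taOv O π hπ (N' * q)).toSubring
  ρ := taResN O π hπ (N' * q)
  w := W.w
  Φ := Fr.Φ
  α_mem := fun b => by
    show TaGauss O π ((algebraMap ↥(TaF L N') ↥(TaF L (N' * q)) (b : ↥(TaF L N')) :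
      ↥(TaF L (N' * q))) : LaurentSeries L)
    rw [coe_t2i_algebraMap]
    exact b.2
  ρ_α := fun b => by
    rw [taResN_eq_taRhoFun]
    show taRhoFun O π ((algebraMap ↥(TaF L N') ↥(TaF L (N' * q)) (b : ↥(TaF L N')) :
      ↥(TaF L (N' * q))) : LaurentSeries L) = _
    rw [coe_t2i_algebraMap]
    rfl
  β_mem := fun b => by
    show TaGauss O π ((W.w (heckeAlphaBar L N' q (b : ↥(TaF L N'))) : ↥(TaF L (N' * q))) :
      LaurentSeries L)
    rw [W.w_alpha, coe_heckeBetaBar]
    exact t2i_taGauss_qExpand O π q b.2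
  ρ_β := fun b => by
    rw [taResN_eq_taRhoFun]
    show taRhoFun O π ((W.w (heckeAlphaBar L N' q (b : ↥(TaF L N'))) : ↥(TaF L (N' * q))) :
      LaurentSeries L) = _
    rw [W.w_alpha, coe_heckeBetaBar, t2i_taRhoFun_qExpand O π q b.2, Fr.coe_Φ]
    rfl
  q := q
  Y := t2iY L N' q
  Y_mem := taGen_mem_taOv O π hπ (N' * q) (dvd_mul_left q N')
  wY_mem := by
    rw [W.w_Y]
    exact taJ_mem_taOv O π hπ (N' * q)
  y₁ := t2iYb k N' q
  y₂ := t2iJb k N'
  ρ_Y := taResN_taGen O π hπ (N' * q) (dvd_mul_left q N')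
  ρ_wY := by
    have h := taResN_taJ O π hπ (N' * q)
    show _ = jqModC k
    rw [← h]
    congr 1
    exact Subtype.ext W.w_Y
  fin := (t2i_finrank_le O π hπ N' q hN').1
  deg_le := (t2i_finrank_le O π hπ N' q hN').2
  kron := fun b h1 h2 l => by
    have h1' := congrArg (Subtype.val : ↥(modularFunctionFieldFullC k N') → LaurentSeries k) h1
    have h2' := congrArg (Subtype.val : ↥(modularFunctionFieldFullC k N') → LaurentSeries k) h2
    rw [AddSubmonoidClass.coe_finsetSum, ZeroMemClass.coe_zero] at h1' h2'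
    have key := Fr.kron (fun l => ((b l : ↥(modularFunctionFieldFullC k N')) : LaurentSeries k))
      (by
        rw [← h1']
        refine Finset.sum_congr rfl fun l _ => ?_
        rw [MulMemClass.coe_mul, SubmonoidClass.coe_pow, t2i_jq_pow]
        rfl)
      (by
        rw [← h2']
        refine Finset.sum_congr rfl fun l _ => ?_
        rw [MulMemClass.coe_mul, SubmonoidClass.coe_pow, Fr.coe_Φ]
        rfl)
    exact Subtype.ext (key l)

/-- **the two-valuation base of `F_{qN',L}`** -/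
def t2iBase2 : T2Base L ↥(TaF L (N' * q)) k
    (↥(modularFunctionFieldFullC k N') × ↥(modularFunctionFieldFullC k N')) :=
  haveI : IsNoetherianRing ↥(t2iInput O π hπ hN' W Fr).d'.A :=
    (inferInstance : IsNoetherianRing ↥O)
  (t2iInput O π hπ hN' W Fr).base

end Input

end Fermat.Agent.T2
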