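/-
T2-C, LEAF KR (helper2): **Kronecker independence in `k((q))`**, `char k = q`.

With `j̄ = jqModC k` and `Φ = qExpand k q` (so `Φ j̄ = j̄^q`): the powers `1, j̄, …, j̄^{q-1}` are
linearly independent over the image of `Φ` (orders are pairwise distinct modulo `q`), and
`∑_{l ≤ q} b_l (j̄^q)^l = 0 ∧ ∑_{l ≤ q} Φ(b_l) j̄^l = 0 ⟹ b = 0`.
-/
import Mathlib
import Fermat.Agent.Lib.T1.Kron.Twist
import Fermat.Prelude.Thm_ModularCurve_coeff_jqModC_neg_one
import Fermat.Prelude.Thm_ModularCurve_coeff_jqModC_pow_of_lt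
import Fermat.Prelude.Thm_ModularCurve_coeff_jqModC_pow_self

set_option autoImplicit false
set_option linter.style.haveILetI false

namespace Fermat.Agent.T2

open ModularCurve HahnSeries Finset Fermat.Agent.T1

variable {k : Type*} [Field k]

/-- a Laurent series with a non-zero coefficient in degree `n` and none below has order `n` -/
theorem t2kr_order_eq_of_coeff {f : LaurentSeries k} {n : ℤ} (h1 : f.coeff n ≠ 0)
    (h2 : ∀ m < n, f.coeff m = 0) : f.order = n := by
  have hf : f ≠ 0 := by
    rintro rfl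
    exact h1 rfl
  apply le_antisymm (HahnSeries.order_le_of_coeff_ne_zero h1)
  by_contra hlt
  exact hf (HahnSeries.coeff_order_eq_zero.mp (h2 _ (not_le.mp hlt)))

theorem t2kr_jqModC_pow_ne_zero (n : ℕ) : jqModC k ^ n ≠ 0 := by
  intro h
  have h1 := coeff_jqModC_pow_self k n
  rw [h] at h1
  exact zero_ne_one h1

theorem t2kr_order_jqModC_pow (n : ℕ) : (jqModC k ^ n).order = -(n : ℤ) := by
  apply t2kr_order_eq_of_coeff
  · rw [coeff_jqModC_pow_self]
    exact one_ne_zero
  · intro m hm
    exact coeff_jqModC_pow_of_lt k hm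

theorem t2kr_order_qExpand (N : ℕ) [NeZero N] {f : LaurentSeries k} (hf : f ≠ 0) :
    (qExpand k N f).order = N * f.order := by
  have hN : (0 : ℤ) < N := by exact_mod_cast Nat.pos_of_ne_zero (NeZero.ne N)
  apply t2kr_order_eq_of_coeff
  · rw [qExpand_coeff_mul]
    exact fun h => hf (HahnSeries.coeff_order_eq_zero.mp h)
  · intro m hm
    by_cases hdvd : (N : ℤ) ∣ m
    · obtain ⟨m', rfl⟩ := hdvd
      rw [qExpand_coeff_mul]
      apply HahnSeries.coeff_eq_zero_of_lt_order
      exact lt_of_mul_lt_mul_left hm hN.le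
    · exact qExpand_coeff_of_not_dvd N f hdvd

/-- the order of `Φ(c) j̄^l` -/
theorem t2kr_order_term (N : ℕ) [NeZero N] {c : LaurentSeries k} (hc : c ≠ 0) (l : ℕ) :
    (qExpand k N c * jqModC k ^ l).order = N * c.order - l := by
  have h1 : qExpand k N c ≠ 0 := fun h => hc (qExpand_injective N (h.trans (map_zero _).symm))
  rw [HahnSeries.order_mul h1 (t2kr_jqModC_pow_ne_zero l), t2kr_order_qExpand N hc,
    t2kr_order_jqModC_pow]
  ring

/-- **`1, j̄, …, j̄^{N-1}` are linearly independent over the image of `qExpand k N`** -/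
theorem t2kr_indep (N : ℕ) [NeZero N] (c : ℕ → LaurentSeries k)
    (h : ∑ l ∈ range N, qExpand k N (c l) * jqModC k ^ l = 0) : ∀ l ∈ range N, c l = 0 := by
  classical
  by_contra hne
  push Not at hne
  set s := (range N).filter (fun l => c l ≠ 0) with hs
  have hsne : s.Nonempty := by
    obtain ⟨l, hl, hcl⟩ := hne
    exact ⟨l, mem_filter.mpr ⟨hl, hcl⟩⟩
  obtain ⟨l₀, hl₀, hmin⟩ := exists_min_image s (fun l => (N : ℤ) * (c l).order - l) hsne
  have hl₀' := mem_filter.mp hl₀
  set n₀ : ℤ := (N : ℤ) * (c l₀).order - l₀ with hn₀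
  have hcoeff := congrArg (fun f : LaurentSeries k => f.coeff n₀) h
  simp only [HahnSeries.coeff_zero] at hcoeff
  rw [← HahnSeries.coeff.addMonoidHom_apply, map_sum] at hcoeff
  simp only [HahnSeries.coeff.addMonoidHom_apply] at hcoeff
  rw [sum_eq_single_of_mem l₀ hl₀'.1] at hcoeff
  · have h1 := t2kr_order_term N hl₀'.2 l₀
    have h2 : qExpand k N (c l₀) * jqModC k ^ l₀ ≠ 0 := by
      refine mul_ne_zero (fun h => hl₀'.2 (qExpand_injective N (h.trans (map_zero _).symm))) ?_
      exact t2kr_jqModC_pow_ne_zero l₀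
    have h3 : (qExpand k N (c l₀) * jqModC k ^ l₀).coeff
        (qExpand k N (c l₀) * jqModC k ^ l₀).order ≠ 0 :=
      fun h' => h2 (HahnSeries.coeff_order_eq_zero.mp h')
    rw [h1] at h3
    exact h3 hcoeff
  · intro l hl hll₀
    by_cases hcl : c l = 0
    · rw [hcl, map_zero, zero_mul, HahnSeries.coeff_zero]
    · apply HahnSeries.coeff_eq_zero_of_lt_order
      rw [t2kr_order_term N hcl l]
      have hls : l ∈ s := mem_filter.mpr ⟨hl, hcl⟩
      have hle := hmin l hls
      refine lt_of_le_of_ne hle ?_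
      intro heq
      apply hll₀
      have hlN : l < N := mem_range.mp hl
      have hl₀N : l₀ < N := mem_range.mp hl₀'.1
      have hdvd : (N : ℤ) ∣ (l : ℤ) - l₀ := by
        refine ⟨(c l).order - (c l₀).order, ?_⟩
        linear_combination heq - hn₀
      have habs : |(l : ℤ) - l₀| < N := by
        rw [abs_lt]
        constructor <;> omega
      have := Int.eq_zero_of_abs_lt_dvd hdvd habs
      omega

variable (q : ℕ) [hq : Fact q.Prime] [CharP k q]

/-- `j̄^q = Φ j̄` in characteristic `q` -/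
theorem t2kr_jqModC_pow_char : jqModC k ^ q = qExpand k q (jqModC k) := by
  rw [tkr_pow_char q (jqModC k), coeffMap_jqModC]

omit [CharP k q] in
theorem t2kr_xbar_ne_zero : jqModC k ^ (q ^ 2) - jqModC k ≠ 0 := by
  intro h
  have h1 := congrArg (fun f : LaurentSeries k => f.coeff (-((q ^ 2 : ℕ) : ℤ))) h
  simp only [HahnSeries.coeff_sub, HahnSeries.coeff_zero] at h1
  rw [coeff_jqModC_pow_self, coeff_jqModC_of_lt] at h1
  · simp at h1
  · have := hq.out.two_le
    have h2 : (2 : ℤ) ≤ q := by exact_mod_cast this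
    push_cast
    nlinarith

/-- **Kronecker independence** -/
theorem t2kr_kron (b : Fin (q + 1) → LaurentSeries k)
    (h1 : ∑ l, b l * (jqModC k ^ q) ^ (l : ℕ) = 0)
    (h2 : ∑ l, qExpand k q (b l) * jqModC k ^ (l : ℕ) = 0) : ∀ l, b l = 0 := by
  classical
  have hq2 : 2 ≤ q := hq.out.two_le
  set J := jqModC k with hJ
  -- pass to functions on `ℕ`
  set B : ℕ → LaurentSeries k := fun l => if h : l < q + 1 then b ⟨l, h⟩ else 0 with hB
  have hBb : ∀ l : Fin (q + 1), B l = b l := fun l => by
    rw [hB]; simp only [l.2, dite_true, Fin.eta]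
  have h1' : ∑ l ∈ range (q + 1), B l * (J ^ q) ^ l = 0 := by
    rw [← Fin.sum_univ_eq_sum_range (fun l => B l * (J ^ q) ^ l) (q + 1), ← h1]
    exact Finset.sum_congr rfl fun l _ => by rw [hBb]
  have h2' : ∑ l ∈ range (q + 1), qExpand k q (B l) * J ^ l = 0 := by
    rw [← Fin.sum_univ_eq_sum_range (fun l => qExpand k q (B l) * J ^ l) (q + 1), ← h2]
    exact Finset.sum_congr rfl fun l _ => by rw [hBb]
  -- the relation over the image of `Φ`
  set c : ℕ → LaurentSeries k := fun l => if l = 0 then B 0 + B q * J else B l with hc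
  have h0 : 0 ∈ range q := mem_range.mpr (by omega)
  have hcsum : ∑ l ∈ range q, qExpand k q (c l) * J ^ l = 0 := by
    rw [sum_range_succ] at h2'
    rw [← add_sum_erase _ _ h0] at h2' ⊢
    have e1 : ∑ l ∈ (range q).erase 0, qExpand k q (c l) * J ^ l
        = ∑ l ∈ (range q).erase 0, qExpand k q (B l) * J ^ l := by
      refine sum_congr rfl fun l hl => ?_
      rw [hc]
      simp only [(mem_erase.mp hl).1, if_false]
    have e2 : qExpand k q (c 0) * J ^ 0 = qExpand k q (B 0) * J ^ 0 + qExpand k q (B q) * J ^ q := by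
      rw [hc]
      simp only [if_true, pow_zero, mul_one, map_add, map_mul]
      rw [← t2kr_jqModC_pow_char q]
    rw [e1, e2]
    linear_combination h2'
  have hc0 := t2kr_indep q c hcsum
  have hBmid : ∀ l, 0 < l → l < q → B l = 0 := by
    intro l hl0 hlq
    have := hc0 l (mem_range.mpr hlq)
    rw [hc] at this
    simpa only [hl0.ne', if_false] using this
  have hB0 : B 0 + B q * J = 0 := by
    have := hc0 0 h0
    rw [hc] at this
    simpa only [if_true] using this
  -- the first relation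
  have h3 : B 0 + B q * (J ^ q) ^ q = 0 := by
    rw [sum_range_succ, ← add_sum_erase _ _ h0] at h1'
    have e1 : ∑ l ∈ (range q).erase 0, B l * (J ^ q) ^ l = 0 := by
      refine sum_eq_zero fun l hl => ?_
      have hl' := mem_erase.mp hl
      rw [hBmid l (Nat.pos_of_ne_zero hl'.1) (mem_range.mp hl'.2), zero_mul]
    rw [e1, add_zero, pow_zero, mul_one] at h1'
    exact h1'
  have h4 : B q * (J ^ (q ^ 2) - J) = 0 := by
    have : (J ^ q) ^ q = J ^ (q ^ 2) := by rw [← pow_mul, sq]
    rw [this] at h3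
    linear_combination h3 - hB0
  have hBq : B q = 0 := by
    rcases mul_eq_zero.mp h4 with h | h
    · exact h
    · exact absurd h (t2kr_xbar_ne_zero q)
  have hB00 : B 0 = 0 := by
    rw [hBq, zero_mul, add_zero] at hB0
    exact hB0
  intro l
  rw [← hBb l]
  rcases Nat.eq_zero_or_pos (l : ℕ) with hl | hl
  · rw [hl]; exact hB00
  · rcases Nat.lt_or_ge (l : ℕ) q with hlq | hlq
    · exact hBmid l hl hlq
    · have : (l : ℕ) = q := by have := l.2; omega
      rw [this]; exact hBq

end Fermat.Agent.T2
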