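/-
T2-C (C-d) (helper5): finiteness of `R ⧸ I` and transitivity of integrality over `k[x]`.

* `t2c_finiteDimensional_quot`: if `R` is spanned over `k[y]` by finitely many elements and the
  ideal `I` contains `p(y)` for some `p ≠ 0`, then `R ⧸ I` is finite-dimensional over `k`;
* `t2c_isIntegral_trans`: `y` integral over `k[x]`, `t` integral over `k[y]` ⟹ `t` integral over
  `k[x]`;
* `t2c_t2R_eq`: `IntCl(k[x]) = IntCl(k[y])` if `x ∈ k[y]` and `y` is integral over `k[x]`.
-/
import Fermat.Agent.Lib.T2.Inst.NodeProd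

set_option autoImplicit false
set_option linter.unusedSectionVars false
set_option linter.style.haveILetI false

namespace Fermat.Agent.T2

open Polynomial

section Fin

variable {k R : Type*} [Field k] [CommRing R] [Algebra k R]

/-- a ring spanned over `k[y]` by finitely many elements is finite-dimensional modulo any ideal
containing a non-zero polynomial in `y` -/
theorem t2c_finiteDimensional_quot {ι : Type*} [Fintype ι] (y : R) (g : ι → R)
    (hg : ∀ r : R, ∃ c : ι → k[X], r = ∑ i, aeval y (c i) * g i)
    (I : Ideal R) (p : k[X]) (hp : p ≠ 0) (hpI : aeval y p ∈ I) :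
    FiniteDimensional k (R ⧸ I) := by
  classical
  obtain ⟨p', hp'I, hdeg⟩ : ∃ p' : k[X], aeval y p' ∈ I ∧ p'.natDegree ≠ 0 := by
    refine ⟨p * X, ?_, ?_⟩
    · rw [map_mul]
      exact I.mul_mem_right _ hpI
    · rw [natDegree_mul hp X_ne_zero, natDegree_X]
      omega
  set n := p'.natDegree with hn
  let T : Finset (R ⧸ I) :=
    (Finset.univ : Finset (Fin n × ι)).image
      (fun ai => Ideal.Quotient.mk I (y ^ (ai.1 : ℕ) * g ai.2))
  have hspan : Submodule.span k (T : Set (R ⧸ I)) = ⊤ := by
    rw [eq_top_iff]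
    rintro z -
    obtain ⟨r, rfl⟩ := Ideal.Quotient.mk_surjective z
    obtain ⟨c, hc⟩ := hg r
    rw [hc, map_sum]
    refine Submodule.sum_mem _ fun i _ => ?_
    have h1 : Ideal.Quotient.mk I (aeval y (c i) * g i) =
        Ideal.Quotient.mk I (aeval y (c i % p') * g i) := by
      rw [Ideal.Quotient.eq, ← sub_mul, ← map_sub]
      have h2 : c i - c i % p' = p' * (c i / p') :=
        sub_eq_of_eq_add (EuclideanDomain.div_add_mod (c i) p').symm
      rw [h2, map_mul, mul_assoc]
      exact I.mul_mem_right _ hp'I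
    rw [h1, aeval_eq_sum_range' (natDegree_mod_lt _ hdeg), Finset.sum_mul, map_sum]
    refine Submodule.sum_mem _ fun a ha => ?_
    have ha' : a < n := Finset.mem_range.mp ha
    have h3 : Ideal.Quotient.mk I (((c i % p').coeff a • y ^ a) * g i) =
        (c i % p').coeff a • Ideal.Quotient.mk I (y ^ a * g i) := by
      rw [smul_mul_assoc]
      rfl
    rw [h3]
    refine Submodule.smul_mem _ _ (Submodule.subset_span ?_)
    rw [Finset.mem_coe, Finset.mem_image]
    exact ⟨(⟨a, ha'⟩, i), Finset.mem_univ _, rfl⟩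
  exact ⟨⟨T, hspan⟩⟩

end Fin

section Trans

variable {k E : Type*} [CommRing k] [CommRing E] [Algebra k E]

/-- transitivity of integrality over `k[x]` -/
theorem t2c_isIntegral_trans {x y t : E} (hy : IsIntegral ↥(Algebra.adjoin k {x}) y)
    (h : IsIntegral ↥(Algebra.adjoin k {y}) t) : IsIntegral ↥(Algebra.adjoin k {x}) t := by
  set A := Algebra.adjoin k {x} with hA
  have hle : Algebra.adjoin k {y} ≤ (integralClosure ↥A E).restrictScalars k := by
    rw [Algebra.adjoin_le_iff]
    rintro _ rfl
    exact hy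
  let φ : ↥(Algebra.adjoin k {y}) →+* ↥(integralClosure ↥A E) :=
    (Subalgebra.inclusion hle).toRingHom
  obtain ⟨P, hmonic, hP⟩ := h
  have h' : IsIntegral ↥(integralClosure ↥A E) t := by
    refine ⟨P.map φ, hmonic.map φ, ?_⟩
    rw [Polynomial.eval₂_map]
    exact hP
  exact isIntegral_trans t h'

end Trans

section TransField

variable {k E : Type*} [Field k] [CommRing E] [Algebra k E]

/-- `IntCl(k[x]) = IntCl(k[y])` if `x ∈ k[y]` and `y` is integral over `k[x]` -/
theorem t2c_t2R_eq {x y : E} (hx : x ∈ Algebra.adjoin k {y})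
    (hy : IsIntegral ↥(Algebra.adjoin k {x}) y) : t2R (k := k) x = t2R (k := k) y := by
  apply le_antisymm
  · intro t ht
    exact t2c_isIntegral_of_mem_adjoin hx ht
  · intro t ht
    exact t2c_isIntegral_trans hy ht

end TransField

end Fermat.Agent.T2
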