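/-
T2-C leaf (ND) (helper5): the node ideal, PURE ALGEBRA (specification: helper9, T2-C plan v2).

`k` algebraically closed, `E / k` a function field with separating transcendental generator `jb`,
`ψ : E →+* E` with `ψ k ⊆ k`, `ψ jb = jb`, `Θ : E →ₐ[k] E` with `Θ f = (ψ f) ^ Q`, `2 ≤ Q`
(application: `Θ = Φ²`, `ψ` = coefficientwise `Frob⁻²`, `Q = q²`).  `R' := t2R jb = IntCl_E(k[jb])`.
* `t2ni_map_mem : f ∈ R' → Θ f ∈ R'`;
* **`t2ni_exists`**: there are `n` and `ev' : R' →ₐ[k] (Fin n → k)` (surjective) such that every ideal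
  `T` of `R'` containing all `f - Θ f` contains `ker ev'`;
* **`t2ni_exists_prod`**: the product version for `t2R (a, b)`, `a b ∈ k[jb]`, and subalgebras
  `S₁ ⊆ E × E` whose two projections contain `R'` and which contain `(f - Θ f, 0)`, `(0, f - Θ f)`.
-/
import Fermat.Agent.Lib.T2.Inst.NodeFin
import Fermat.Agent.Lib.CurveP.Global

set_option autoImplicit false
set_option linter.unusedSectionVars false
set_option linter.style.haveILetI false

noncomputable section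

namespace Fermat.Agent.T2

open Polynomial IntermediateField

section ND

universe u

variable {k : Type*} {E : Type u} [Field k] [Field E] [Algebra k E] (jb : E)
  (Q : ℕ) (ψ : E →+* E) (hψk : ∀ c : k, ∃ c' : k, ψ (algebraMap k E c) = algebraMap k E c')
  (hψj : ψ jb = jb) (Θ : E →ₐ[k] E) (hΘ : ∀ f, Θ f = ψ f ^ Q)

/-- the endomorphism of `k` induced by `ψ` -/
def t2niTau : k →+* k where
  toFun c := Classical.choose (hψk c)
  map_one' := by
    apply (algebraMap k E).injective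
    rw [← Classical.choose_spec (hψk 1)]
    simp only [map_one]
  map_mul' a b := by
    apply (algebraMap k E).injective
    rw [← Classical.choose_spec (hψk (a * b)), map_mul, map_mul, map_mul,
      ← Classical.choose_spec (hψk a), ← Classical.choose_spec (hψk b)]
  map_zero' := by
    apply (algebraMap k E).injective
    rw [← Classical.choose_spec (hψk 0)]
    simp only [map_zero]
  map_add' a b := by
    apply (algebraMap k E).injective
    rw [← Classical.choose_spec (hψk (a + b)), map_add, map_add, map_add,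
      ← Classical.choose_spec (hψk a), ← Classical.choose_spec (hψk b)]

theorem t2niTau_spec (c : k) : ψ (algebraMap k E c) = algebraMap k E (t2niTau ψ hψk c) :=
  Classical.choose_spec (hψk c)

include hψk hψj in
theorem t2ni_psi_mem {f : E} (hf : f ∈ t2R (k := k) jb) : ψ f ∈ t2R (k := k) jb :=
  t2c_psi_mem_t2R ψ (t2niTau ψ hψk) jb (t2niTau_spec ψ hψk) hψj hf

include hψk hψj hΘ in
/-- `Θ` preserves `R'` -/
theorem t2ni_map_mem {f : E} (hf : f ∈ t2R (k := k) jb) : Θ f ∈ t2R (k := k) jb := by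
  rw [hΘ]
  exact Subalgebra.pow_mem _ (t2ni_psi_mem jb ψ hψk hψj hf) Q

/-- `ψ` on `R'` -/
def t2niPsiR : ↥(t2R (k := k) jb) →+* ↥(t2R (k := k) jb) :=
  t2cPsiR ψ (t2niTau ψ hψk) jb (t2niTau_spec ψ hψk) hψj

/-- `Θ` on `R'` -/
def t2niThetaR : ↥(t2R (k := k) jb) →ₐ[k] ↥(t2R (k := k) jb) :=
  (Θ.comp (t2R (k := k) jb).val).codRestrict (t2R (k := k) jb)
    (fun f => t2ni_map_mem jb Q ψ hψk hψj Θ hΘ f.2)

theorem coe_t2niPsiR (f : ↥(t2R (k := k) jb)) :
    ((t2niPsiR jb ψ hψk hψj f : ↥(t2R (k := k) jb)) : E) = ψ (f : E) := rfl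

theorem coe_t2niThetaR (f : ↥(t2R (k := k) jb)) :
    ((t2niThetaR jb Q ψ hψk hψj Θ hΘ f : ↥(t2R (k := k) jb)) : E) = Θ (f : E) := rfl

theorem t2niThetaR_eq (f : ↥(t2R (k := k) jb)) :
    t2niThetaR jb Q ψ hψk hψj Θ hΘ f = t2niPsiR jb ψ hψk hψj f ^ Q := by
  apply Subtype.ext
  rw [coe_t2niThetaR, SubmonoidClass.coe_pow, coe_t2niPsiR, hΘ]

/-- the ideal generated by the `f - Θ f` -/
def t2niI : Ideal ↥(t2R (k := k) jb) :=
  Ideal.span (Set.range fun f : ↥(t2R (k := k) jb) => f - t2niThetaR jb Q ψ hψk hψj Θ hΘ f)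

theorem t2ni_sub_mem (f : ↥(t2R (k := k) jb)) :
    f - t2niThetaR jb Q ψ hψk hψj Θ hΘ f ∈ t2niI jb Q ψ hψk hψj Θ hΘ :=
  Ideal.subset_span ⟨f, rfl⟩

theorem t2niI_le {T : Ideal ↥(t2R (k := k) jb)}
    (hT : ∀ f : ↥(t2R (k := k) jb), f - t2niThetaR jb Q ψ hψk hψj Θ hΘ f ∈ T) :
    t2niI jb Q ψ hψk hψj Θ hΘ ≤ T := by
  rw [t2niI, Ideal.span_le]
  rintro _ ⟨f, rfl⟩
  exact hT f

theorem t2ni_psi_mem_I {f : ↥(t2R (k := k) jb)} (hf : f ∈ t2niI jb Q ψ hψk hψj Θ hΘ) :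
    t2niPsiR jb ψ hψk hψj f ∈ t2niI jb Q ψ hψk hψj Θ hΘ := by
  have hle : t2niI jb Q ψ hψk hψj Θ hΘ ≤
      (t2niI jb Q ψ hψk hψj Θ hΘ).comap (t2niPsiR jb ψ hψk hψj) := by
    apply t2niI_le
    intro g
    rw [Ideal.mem_comap, map_sub, t2niThetaR_eq, map_pow, ← t2niThetaR_eq]
    exact t2ni_sub_mem jb Q ψ hψk hψj Θ hΘ _
  exact hle hf

/-- `jb` as an element of `R'` -/
def t2niJ : ↥(t2R (k := k) jb) := ⟨jb, t2_isIntegral_self jb⟩

theorem t2ni_X_mem_I :
    t2niJ (k := k) jb ^ Q - t2niJ (k := k) jb ∈ t2niI jb Q ψ hψk hψj Θ hΘ := by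
  have h1 := t2ni_sub_mem jb Q ψ hψk hψj Θ hΘ (t2niJ (k := k) jb)
  have h2 : t2niThetaR jb Q ψ hψk hψj Θ hΘ (t2niJ (k := k) jb) = t2niJ (k := k) jb ^ Q := by
    rw [t2niThetaR_eq]
    congr 1
    apply Subtype.ext
    rw [coe_t2niPsiR]
    exact hψj
  rw [h2] at h1
  have := neg_mem h1
  rwa [neg_sub] at this

variable (hjb : Transcendental k jb) [hfd : FiniteDimensional ↥k⟮jb⟯ E]
  [hsep : Algebra.IsSeparable ↥k⟮jb⟯ E]

include hjb hfd hsep in
/-- `R'` is spanned over `k[jb]` by finitely many elements -/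
theorem t2ni_exists_gens :
    ∃ (n : ℕ) (g : Fin n → ↥(t2R (k := k) jb)),
      ∀ r : ↥(t2R (k := k) jb), ∃ c : Fin n → k[X],
        r = ∑ i, aeval (t2niJ (k := k) jb) (c i) * g i := by
  haveI : Fact (Fermat.Agent.Curve.IsFunctionFieldGen k E jb) := ⟨⟨hjb, hfd⟩⟩
  haveI hfin : Module.Finite ↥(CurveP.Ax k jb) ↥(CurveP.Bx k jb) := CurveP.Bx.moduleFinite
  obtain ⟨n, s, hs⟩ := Module.Finite.exists_fin (R := ↥(CurveP.Ax k jb)) (M := ↥(CurveP.Bx k jb))
  have hmem : ∀ b : ↥(CurveP.Bx k jb), (b : E) ∈ t2R (k := k) jb := fun b => b.2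
  refine ⟨n, fun i => ⟨(s i : E), hmem (s i)⟩, fun r => ?_⟩
  have hr : (r : E) ∈ CurveP.Bx k jb := r.2
  have hspan : (⟨(r : E), hr⟩ : ↥(CurveP.Bx k jb)) ∈
      Submodule.span ↥(CurveP.Ax k jb) (Set.range s) := by
    rw [hs]
    exact Submodule.mem_top
  obtain ⟨c, hc⟩ := (Submodule.mem_span_range_iff_exists_fun _).mp hspan
  have hex : ∀ i, ∃ p : k[X], aeval jb p = ((c i : ↥(CurveP.Ax k jb)) : E) := by
    intro i
    have h : ((c i : ↥(CurveP.Ax k jb)) : E) ∈ Algebra.adjoin k {jb} := (c i).2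
    rw [Algebra.adjoin_singleton_eq_range_aeval] at h
    exact h
  choose c' hc' using hex
  refine ⟨c', Subtype.ext ?_⟩
  have h1 := congrArg (fun b : ↥(CurveP.Bx k jb) => (b : E)) hc
  simp only [AddSubmonoidClass.coe_finsetSum] at h1
  rw [AddSubmonoidClass.coe_finsetSum, ← h1]
  refine Finset.sum_congr rfl fun i _ => ?_
  rw [MulMemClass.coe_mul, ← Subalgebra.aeval_coe]
  show _ = aeval jb (c' i) * (s i : E)
  rw [hc']
  rfl

include hjb hfd hsep in
/-- `R' ⧸ I₁` is finite-dimensional -/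
theorem t2ni_finiteDimensional (hQ : 2 ≤ Q) :
    FiniteDimensional k (↥(t2R (k := k) jb) ⧸ t2niI jb Q ψ hψk hψj Θ hΘ) := by
  obtain ⟨n, g, hg⟩ := t2ni_exists_gens (k := k) jb hjb
  refine t2c_finiteDimensional_quot _ g hg _ (X ^ Q - X)
    (FiniteField.X_pow_card_sub_X_ne_zero k (by omega)) ?_
  rw [map_sub, map_pow, aeval_X]
  exact t2ni_X_mem_I jb Q ψ hψk hψj Θ hΘ

variable [IsAlgClosed k]

include hjb hfd hsep in
/-- **the node ideal** (`Fin n`-indexed form): an evaluation map on `R'` whose kernel lies in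
every ideal containing all `f - Θ f` -/
theorem t2ni_exists_fin (hQ : 2 ≤ Q) :
    ∃ (n : ℕ) (ev' : ↥(t2R (k := k) jb) →ₐ[k] (Fin n → k)), Function.Surjective ev' ∧
      (∀ r, ev' r = 0 ↔ r ∈ t2niI jb Q ψ hψk hψj Θ hΘ) ∧
      ∀ T : Ideal ↥(t2R (k := k) jb),
        (∀ f : ↥(t2R (k := k) jb),
          f - ⟨Θ (f : E), t2ni_map_mem jb Q ψ hψk hψj Θ hΘ f.2⟩ ∈ T) →
        ∀ r, ev' r = 0 → r ∈ T := by
  classical
  haveI := t2ni_finiteDimensional (k := k) jb Q ψ hψk hψj Θ hΘ hjb hQ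
  obtain ⟨σ, hσ, ev, hsurj, hker⟩ :=
    t2c_exists_ev_of_root (k := k) (t2niI jb Q ψ hψk hψj Θ hΘ) (t2niPsiR jb ψ hψk hψj)
      (fun f hf => t2ni_psi_mem_I jb Q ψ hψk hψj Θ hΘ hf) Q hQ (fun f => by
        rw [← t2niThetaR_eq jb Q ψ hψk hψj Θ hΘ]
        exact t2ni_sub_mem jb Q ψ hψk hψj Θ hΘ f)
  let e : σ ≃ Fin (Fintype.card σ) := Fintype.equivFin σ
  let ev' : ↥(t2R (k := k) jb) →ₐ[k] (Fin (Fintype.card σ) → k) :=
    AlgHom.pi (R := k) (A := fun _ : Fin (Fintype.card σ) => k)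
      (fun i => (Pi.evalAlgHom k (fun _ : σ => k) (e.symm i)).comp ev)
  have hev' : ∀ r i, ev' r i = ev r (e.symm i) := fun _ _ => rfl
  have hzero : ∀ r, ev' r = 0 ↔ ev r = 0 := by
    intro r
    constructor
    · intro h
      funext s
      have := congrFun h (e s)
      rw [hev', Equiv.symm_apply_apply] at this
      exact this
    · intro h
      funext i
      rw [hev', h]
      rfl
  refine ⟨Fintype.card σ, ev', ?_, ?_, ?_⟩
  · intro g
    obtain ⟨r, hr⟩ := hsurj (fun s => g (e s))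
    refine ⟨r, ?_⟩
    funext i
    rw [hev', hr]
    show g (e (e.symm i)) = g i
    rw [Equiv.apply_symm_apply]
  · intro r
    rw [hzero, hker]
  · intro T hT r hr
    rw [hzero, hker] at hr
    exact t2niI_le jb Q ψ hψk hψj Θ hΘ hT hr

include hjb hfd hsep in
/-- **the node ideal** in the shape of the T2-C plan -/
theorem t2ni_exists (hQ : 2 ≤ Q) :
    ∃ (σ' : Type) (_ : Fintype σ') (ev' : ↥(t2R (k := k) jb) →ₐ[k] (σ' → k)),
      ∀ T : Ideal ↥(t2R (k := k) jb),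
        (∀ f : ↥(t2R (k := k) jb),
          f - ⟨Θ (f : E), t2ni_map_mem jb Q ψ hψk hψj Θ hΘ f.2⟩ ∈ T) →
        ∀ r, ev' r = 0 → r ∈ T := by
  obtain ⟨n, ev', -, -, h⟩ := t2ni_exists_fin (k := k) jb Q ψ hψk hψj Θ hΘ hjb hQ
  exact ⟨Fin n, inferInstance, ev', h⟩

include hψk hψj hΘ hjb hfd hsep in
/-- **the node data on the product**: for `a b ∈ k[jb]`, an evaluation map on `t2R (a, b)` whose
kernel lies in every subalgebra `S₁ ⊆ E × E` whose projections contain `R'` and which contains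
the `(f - Θ f, 0)`, `(0, f - Θ f)`, `f ∈ R'` -/
theorem t2ni_exists_prod (hQ : 2 ≤ Q) (a b : E) (ha : a ∈ Algebra.adjoin k {jb})
    (hb : b ∈ Algebra.adjoin k {jb}) :
    ∃ (n : ℕ) (ev : ↥(t2R (k := k) ((a, b) : E × E)) →ₐ[k] (Fin n → k)),
      ∀ S₁ : Subalgebra k (E × E),
        (∀ f ∈ t2R (k := k) jb, ∃ f' : E, (f, f') ∈ S₁) →
        (∀ f ∈ t2R (k := k) jb, ∃ f' : E, (f', f) ∈ S₁) →
        (∀ f ∈ t2R (k := k) jb, (f - Θ f, (0 : E)) ∈ S₁) →
        (∀ f ∈ t2R (k := k) jb, ((0 : E), f - Θ f) ∈ S₁) →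
        ∀ r, ev r = 0 → (r : E × E) ∈ S₁ := by
  obtain ⟨n, ev', -, hker, -⟩ := t2ni_exists_fin (k := k) jb Q ψ hψk hψj Θ hΘ hjb hQ
  -- the two projections
  let p₁ : ↥(t2R (k := k) ((a, b) : E × E)) →ₐ[k] ↥(t2R (k := k) jb) :=
    ((AlgHom.fst k E E).comp (t2R (k := k) ((a, b) : E × E)).val).codRestrict (t2R (k := k) jb)
      (fun r => by
        have h : IsIntegral ↥(Algebra.adjoin k {((a, b) : E × E).1}) (r : E × E).1 :=
          t2c_isIntegral_fst r.2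
        have h' : IsIntegral ↥(Algebra.adjoin k {jb}) (r : E × E).1 :=
          t2c_isIntegral_of_mem_adjoin ha h
        exact h')
  let p₂ : ↥(t2R (k := k) ((a, b) : E × E)) →ₐ[k] ↥(t2R (k := k) jb) :=
    ((AlgHom.snd k E E).comp (t2R (k := k) ((a, b) : E × E)).val).codRestrict (t2R (k := k) jb)
      (fun r => by
        have h : IsIntegral ↥(Algebra.adjoin k {((a, b) : E × E).2}) (r : E × E).2 :=
          t2c_isIntegral_snd r.2
        have h' : IsIntegral ↥(Algebra.adjoin k {jb}) (r : E × E).2 :=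
          t2c_isIntegral_of_mem_adjoin hb h
        exact h')
  have hp₁ : ∀ r, ((p₁ r : ↥(t2R (k := k) jb)) : E) = (r : E × E).1 := fun _ => rfl
  have hp₂ : ∀ r, ((p₂ r : ↥(t2R (k := k) jb)) : E) = (r : E × E).2 := fun _ => rfl
  let e : Fin n ⊕ Fin n ≃ Fin (n + n) := finSumFinEquiv
  let ev : ↥(t2R (k := k) ((a, b) : E × E)) →ₐ[k] (Fin (n + n) → k) :=
    AlgHom.pi (R := k) (A := fun _ : Fin (n + n) => k) (fun i => Sum.rec
      (fun s => (Pi.evalAlgHom k (fun _ : Fin n => k) s).comp (ev'.comp p₁))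
      (fun s => (Pi.evalAlgHom k (fun _ : Fin n => k) s).comp (ev'.comp p₂)) (e.symm i))
  have hev₁ : ∀ r s, ev r (e (Sum.inl s)) = ev' (p₁ r) s := by
    intro r s
    show (Sum.rec (motive := fun _ => ↥(t2R (k := k) ((a, b) : E × E)) →ₐ[k] k) _ _
      (e.symm (e (Sum.inl s)))) r = _
    rw [Equiv.symm_apply_apply]
    rfl
  have hev₂ : ∀ r s, ev r (e (Sum.inr s)) = ev' (p₂ r) s := by
    intro r s
    show (Sum.rec (motive := fun _ => ↥(t2R (k := k) ((a, b) : E × E)) →ₐ[k] k) _ _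
      (e.symm (e (Sum.inr s)))) r = _
    rw [Equiv.symm_apply_apply]
    rfl
  refine ⟨n + n, ev, ?_⟩
  intro S₁ hpr₁ hpr₂ hl hr r hzero
  have h1 : ev' (p₁ r) = 0 := by
    funext s
    rw [← hev₁, hzero]
    rfl
  have h2 : ev' (p₂ r) = 0 := by
    funext s
    rw [← hev₂, hzero]
    rfl
  rw [hker] at h1 h2
  -- `(t, 0) ∈ S₁` and `(0, t) ∈ S₁` for `t ∈ I₁`
  have hleft : ∀ t : ↥(t2R (k := k) jb), t ∈ t2niI jb Q ψ hψk hψj Θ hΘ →
      ((t : E), (0 : E)) ∈ S₁ := by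
    intro t ht
    have ht' : t ∈ Submodule.span ↥(t2R (k := k) jb)
      (Set.range fun f : ↥(t2R (k := k) jb) => f - t2niThetaR jb Q ψ hψk hψj Θ hΘ f) := ht
    refine Submodule.span_induction
      (p := fun (t : ↥(t2R (k := k) jb)) _ => ((t : E), (0 : E)) ∈ S₁) ?_ ?_ ?_ ?_ ht'
    · rintro _ ⟨f, rfl⟩
      exact hl f f.2
    · exact S₁.zero_mem
    · intro x y _ _ hx hy
      have := S₁.add_mem hx hy
      simpa using this
    · intro c x _ hx
      obtain ⟨c', hc'⟩ := hpr₁ c c.2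
      have := S₁.mul_mem hc' hx
      simpa using this
  have hright : ∀ t : ↥(t2R (k := k) jb), t ∈ t2niI jb Q ψ hψk hψj Θ hΘ →
      ((0 : E), (t : E)) ∈ S₁ := by
    intro t ht
    have ht' : t ∈ Submodule.span ↥(t2R (k := k) jb)
      (Set.range fun f : ↥(t2R (k := k) jb) => f - t2niThetaR jb Q ψ hψk hψj Θ hΘ f) := ht
    refine Submodule.span_induction
      (p := fun (t : ↥(t2R (k := k) jb)) _ => ((0 : E), (t : E)) ∈ S₁) ?_ ?_ ?_ ?_ ht'
    · rintro _ ⟨f, rfl⟩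
      exact hr f f.2
    · exact S₁.zero_mem
    · intro x y _ _ hx hy
      have := S₁.add_mem hx hy
      simpa using this
    · intro c x _ hx
      obtain ⟨c', hc'⟩ := hpr₂ c c.2
      have := S₁.mul_mem hc' hx
      simpa using this
  have := S₁.add_mem (hleft _ h1) (hright _ h2)
  rw [hp₁, hp₂] at this
  simpa using this

end ND

end Fermat.Agent.T2
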