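/-
T2-C (C-d) (helper5): the node data for `Fb = F̄' × F̄'`, `F̄' = modularFunctionFieldFullC k N`
(`k` algebraically closed of characteristic `l`, `N ≠ 0` in `k`).

* `t2cFrobInv k l : k →+* k`, the inverse Frobenius; `t2cPsi k l N : F̄' →+* F̄'` the coefficientwise
  inverse Frobenius; `t2cPhi k l N : F̄' →+* F̄'` the relative Frobenius `f(q) ↦ f(q^l)`;
* `t2cPhi_eq_pow : Φ f = (ψ f) ^ l`, `t2cPhi_J : Φ j̄ = j̄ ^ l`;
* the chart `t2cX k l N = j̄ ^ (l * l) - j̄`, `t2cPhi_X : Φ x̄ = x̄ ^ l`;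
* `t2c_finiteDimensional_frob`: `R'₁ ⧸ I₁` is finite-dimensional;
* **`t2c_node_frob`**: the node data `ev`, `hJ` of `T2Setup` for `x̄ = (x̄', Φ x̄')`.
-/
import Fermat.Agent.Lib.T2.Inst.NodeFin
import Fermat.Agent.Lib.T1.GoodRed.BarField
import Fermat.Agent.Lib.T1.Kron.Twist
import Fermat.Agent.Lib.T1.Inst.FullC
import Fermat.Agent.Lib.CurveP.Global

set_option autoImplicit false
set_option linter.unusedSectionVars false
set_option linter.style.haveILetI false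

noncomputable section

namespace Fermat.Agent.T2

open ModularCurve HahnSeries Polynomial Fermat.Agent.T1

universe u

section Defs

variable (k : Type u) [Field k] (l : ℕ) [hl : Fact l.Prime] [CharP k l] [PerfectRing k l]
  (N : ℕ) [NeZero N]

/-- the inverse Frobenius of `k` -/
def t2cFrobInv : k →+* k := ((frobeniusEquiv k l).symm : k ≃+* k).toRingHom

theorem t2cFrobInv_pow (c : k) : t2cFrobInv k l c ^ l = c :=
  frobeniusEquiv_symm_pow_p k l c

theorem t2c_frobenius_comp_frobInv : (frobenius k l).comp (t2cFrobInv k l) = RingHom.id k := by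
  ext c
  exact t2cFrobInv_pow k l c

/-- `(∑ aₙ^{1/l} qⁿ)^l = ∑ aₙ q^{ln}` -/
theorem t2c_coeffMap_frobInv_pow (f : LaurentSeries k) :
    coeffMap (t2cFrobInv k l) f ^ l = qExpand k l f := by
  rw [tkr_pow_char l, coeffMap_coeffMap, t2c_frobenius_comp_frobInv, coeffMap_id]

/-- the coefficientwise inverse Frobenius of `F̄'` -/
def t2cPsi : TaBar k N →+* TaBar k N :=
  ((coeffMap (t2cFrobInv k l)).comp (algebraMap (TaBar k N) (LaurentSeries k))).codRestrict
    (modularFunctionFieldFullC k N) (fun f => tbi_coeffMap_mem_fullC (t2cFrobInv k l) N f.2)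

theorem coe_t2cPsi (f : TaBar k N) :
    ((t2cPsi k l N f : TaBar k N) : LaurentSeries k) = coeffMap (t2cFrobInv k l) (f : LaurentSeries k) :=
  rfl

theorem t2c_qExpand_mem (f : TaBar k N) :
    qExpand k l (f : LaurentSeries k) ∈ modularFunctionFieldFullC k N := by
  rw [← t2c_coeffMap_frobInv_pow]
  exact pow_mem (tbi_coeffMap_mem_fullC (t2cFrobInv k l) N f.2) l

/-- the relative Frobenius `f(q) ↦ f(q^l)` of `F̄'` -/
def t2cPhi : TaBar k N →+* TaBar k N :=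
  ((qExpand k l).comp (algebraMap (TaBar k N) (LaurentSeries k))).codRestrict
    (modularFunctionFieldFullC k N) (fun f => t2c_qExpand_mem k l N f)

theorem coe_t2cPhi (f : TaBar k N) :
    ((t2cPhi k l N f : TaBar k N) : LaurentSeries k) = qExpand k l (f : LaurentSeries k) := rfl

theorem t2cPhi_eq_pow (f : TaBar k N) : t2cPhi k l N f = t2cPsi k l N f ^ l := by
  apply Subtype.ext
  rw [coe_t2cPhi, SubmonoidClass.coe_pow, coe_t2cPsi, t2c_coeffMap_frobInv_pow]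

theorem t2cPhi_algebraMap (c : k) :
    t2cPhi k l N (algebraMap k (TaBar k N) c) = algebraMap k (TaBar k N) c := by
  apply Subtype.ext
  rw [coe_t2cPhi]
  show qExpand k l (algebraMap k (LaurentSeries k) c) = algebraMap k (LaurentSeries k) c
  rw [algebraMap_laurentSeries_eq_single, qExpand_single, mul_zero]

theorem t2cPsi_algebraMap (c : k) :
    t2cPsi k l N (algebraMap k (TaBar k N) c) = algebraMap k (TaBar k N) (t2cFrobInv k l c) := by
  apply Subtype.ext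
  rw [coe_t2cPsi]
  exact tbi_coeffMap_algebraMap (t2cFrobInv k l) c

theorem t2cPsi_J : t2cPsi k l N (taBarJ k N) = taBarJ k N := by
  apply Subtype.ext
  rw [coe_t2cPsi]
  exact coeffMap_jqModC (t2cFrobInv k l)

theorem t2cPhi_J : t2cPhi k l N (taBarJ k N) = taBarJ k N ^ l := by
  rw [t2cPhi_eq_pow, t2cPsi_J]

theorem t2cPsi_Phi (f : TaBar k N) :
    t2cPsi k l N (t2cPhi k l N f) = t2cPhi k l N (t2cPsi k l N f) := by
  apply Subtype.ext
  rw [coe_t2cPsi, coe_t2cPhi, coe_t2cPhi, coe_t2cPsi, coeffMap_qExpand]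

instance t2c_charP_taBar : CharP (TaBar k N) l :=
  charP_of_injective_algebraMap (algebraMap k (TaBar k N)).injective l

/-- the chart `x̄' = j̄ ^ (l²) - j̄` -/
def t2cX : TaBar k N := taBarJ k N ^ (l * l) - taBarJ k N

theorem t2cPsi_X : t2cPsi k l N (t2cX k l N) = t2cX k l N := by
  rw [t2cX, map_sub, map_pow, t2cPsi_J]

theorem t2cPhi_X : t2cPhi k l N (t2cX k l N) = t2cX k l N ^ l := by
  rw [t2cX, map_sub, map_pow, t2cPhi_J, sub_pow_char, ← pow_mul, ← pow_mul, mul_comm l (l * l)]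

theorem t2cPhi_X_mem : t2cPhi k l N (t2cX k l N) ∈ Algebra.adjoin k {t2cX k l N} := by
  rw [t2cPhi_X]
  exact Subalgebra.pow_mem _ (Algebra.self_mem_adjoin_singleton k _) l

/-- `Φ² f = (ψ² f) ^ (l²)` -/
theorem t2cPhi_Phi (f : TaBar k N) :
    t2cPhi k l N (t2cPhi k l N f) = ((t2cPsi k l N).comp (t2cPsi k l N)) f ^ (l * l) := by
  rw [t2cPhi_eq_pow k l N f, map_pow, t2cPhi_eq_pow, ← pow_mul]
  rfl

theorem t2c_two_le_sq : 2 ≤ l * l := by
  have := hl.out.two_le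
  nlinarith

/-- `j̄` is integral over `k[x̄']` -/
theorem t2c_J_isIntegral : IsIntegral ↥(Algebra.adjoin k {t2cX k l N}) (taBarJ k N) := by
  set a : ↥(Algebra.adjoin k {t2cX k l N}) :=
    ⟨t2cX k l N, Algebra.self_mem_adjoin_singleton k _⟩ with ha
  refine ⟨X ^ (l * l) - (X + Polynomial.C a), Polynomial.monic_X_pow_sub ?_, ?_⟩
  · rw [Polynomial.degree_X_add_C]
    have := t2c_two_le_sq l
    exact_mod_cast (by omega : 1 < l * l)
  · rw [Polynomial.eval₂_sub, Polynomial.eval₂_pow, Polynomial.eval₂_X, Polynomial.eval₂_add,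
      Polynomial.eval₂_X, Polynomial.eval₂_C]
    show taBarJ k N ^ (l * l) - (taBarJ k N + t2cX k l N) = 0
    rw [t2cX]
    ring

theorem t2cX_mem_adjoin : t2cX k l N ∈ Algebra.adjoin k {taBarJ k N} := by
  rw [t2cX]
  exact Subalgebra.sub_mem _ (Subalgebra.pow_mem _ (Algebra.self_mem_adjoin_singleton k _) _)
    (Algebra.self_mem_adjoin_singleton k _)

/-- `IntCl(k[x̄']) = IntCl(k[j̄])` -/
theorem t2c_t2R_X : t2R (k := k) (t2cX k l N) = t2R (k := k) (taBarJ k N) :=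
  t2c_t2R_eq (t2cX_mem_adjoin k l N) (t2c_J_isIntegral k l N)

theorem t2c_J_mem_t2R : taBarJ k N ∈ t2R (k := k) (t2cX k l N) := t2c_J_isIntegral k l N

theorem t2cPhi_mem_t2R {r : TaBar k N} (hr : r ∈ t2R (k := k) (t2cX k l N)) :
    t2cPhi k l N r ∈ t2R (k := k) (t2cX k l N) :=
  t2c_Phi_mem_t2R (t2cPhi k l N) (t2cX k l N) (t2cPhi_algebraMap k l N) (t2cPhi_X_mem k l N) hr

/-- `x̄' ∈ I₁` -/
theorem t2c_X_mem_I :
    (⟨taBarJ k N, t2c_J_mem_t2R k l N⟩ : ↥(t2R (k := k) (t2cX k l N))) ^ (l * l) -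
      ⟨taBarJ k N, t2c_J_mem_t2R k l N⟩ ∈
      t2cI (t2cPhi k l N) (t2R (k := k) (t2cX k l N)) (fun _ hr => t2cPhi_mem_t2R k l N hr) := by
  set y : ↥(t2R (k := k) (t2cX k l N)) := ⟨taBarJ k N, t2c_J_mem_t2R k l N⟩ with hy
  have h1 := t2c_sub_theta_mem (t2cPhi k l N) (t2R (k := k) (t2cX k l N))
    (fun _ hr => t2cPhi_mem_t2R k l N hr) y
  have h2 : t2cTheta (t2cPhi k l N) (t2R (k := k) (t2cX k l N))
      (fun _ hr => t2cPhi_mem_t2R k l N hr) y = y ^ (l * l) := by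
    apply Subtype.ext
    rw [coe_t2cTheta, SubmonoidClass.coe_pow]
    show t2cPhi k l N (t2cPhi k l N (taBarJ k N)) = taBarJ k N ^ (l * l)
    rw [t2cPhi_J, map_pow, t2cPhi_J, ← pow_mul]
  rw [h2] at h1
  have := neg_mem h1
  rwa [neg_sub] at this

end Defs

section Main

variable (k : Type u) [Field k] [IsAlgClosed k] (l : ℕ) [hl : Fact l.Prime] [CharP k l]
  (N : ℕ) [NeZero N] (hN : (N : k) ≠ 0)

include hN

set_option synthInstance.maxHeartbeats 400000 in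
set_option maxHeartbeats 1000000 in
/-- `R'₁` is spanned over `k[j̄]` by finitely many elements -/
theorem t2c_exists_gens :
    ∃ (n : ℕ) (g : Fin n → ↥(t2R (k := k) (t2cX k l N))),
      ∀ r : ↥(t2R (k := k) (t2cX k l N)), ∃ c : Fin n → k[X],
        r = ∑ i, aeval (⟨taBarJ k N, t2c_J_mem_t2R k l N⟩ : ↥(t2R (k := k) (t2cX k l N))) (c i) *
          g i := by
  haveI : Fact (Fermat.Agent.Curve.IsFunctionFieldGen k (TaBar k N) (taBarJ k N)) :=
    ⟨ta_bar_isFunctionFieldGen k N⟩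
  haveI := ta_bar_isSeparable k N hN
  haveI hfin : Module.Finite ↥(CurveP.Ax k (taBarJ k N)) ↥(CurveP.Bx k (taBarJ k N)) :=
    CurveP.Bx.moduleFinite
  obtain ⟨n, s, hs⟩ := Module.Finite.exists_fin (R := ↥(CurveP.Ax k (taBarJ k N)))
    (M := ↥(CurveP.Bx k (taBarJ k N)))
  have hmem : ∀ b : ↥(CurveP.Bx k (taBarJ k N)), (b : TaBar k N) ∈ t2R (k := k) (t2cX k l N) := by
    intro b
    rw [t2c_t2R_X]
    exact b.2
  refine ⟨n, fun i => ⟨(s i : TaBar k N), hmem (s i)⟩, fun r => ?_⟩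
  have hr : (r : TaBar k N) ∈ CurveP.Bx k (taBarJ k N) := by
    have h0 : (r : TaBar k N) ∈ t2R (k := k) (t2cX k l N) := r.2
    have h1 : (r : TaBar k N) ∈ t2R (k := k) (taBarJ k N) := (t2c_t2R_X k l N) ▸ h0
    exact h1
  have hspan : (⟨(r : TaBar k N), hr⟩ : ↥(CurveP.Bx k (taBarJ k N))) ∈
      Submodule.span ↥(CurveP.Ax k (taBarJ k N)) (Set.range s) := by
    rw [hs]
    exact Submodule.mem_top
  obtain ⟨c, hc⟩ := (Submodule.mem_span_range_iff_exists_fun _).mp hspan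
  have hex : ∀ i, ∃ p : k[X], aeval (taBarJ k N) p = ((c i : ↥(CurveP.Ax k (taBarJ k N))) : TaBar k N) := by
    intro i
    have h : ((c i : ↥(CurveP.Ax k (taBarJ k N))) : TaBar k N) ∈
        Algebra.adjoin k {taBarJ k N} := (c i).2
    rw [Algebra.adjoin_singleton_eq_range_aeval] at h
    exact h
  choose c' hc' using hex
  refine ⟨c', Subtype.ext ?_⟩
  have h1 := congrArg (fun b : ↥(CurveP.Bx k (taBarJ k N)) => (b : TaBar k N)) hc
  simp only [AddSubmonoidClass.coe_finsetSum] at h1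
  rw [AddSubmonoidClass.coe_finsetSum, ← h1]
  refine Finset.sum_congr rfl fun i _ => ?_
  rw [MulMemClass.coe_mul, ← Subalgebra.aeval_coe, hc']
  rfl

/-- `R'₁ ⧸ I₁` is finite-dimensional -/
theorem t2c_finiteDimensional_frob :
    FiniteDimensional k (↥(t2R (k := k) (t2cX k l N)) ⧸
      t2cI (t2cPhi k l N) (t2R (k := k) (t2cX k l N))
        (fun _ hr => t2c_Phi_mem_t2R (t2cPhi k l N) (t2cX k l N) (t2cPhi_algebraMap k l N)
          (t2cPhi_X_mem k l N) hr)) := by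
  obtain ⟨n, g, hg⟩ := t2c_exists_gens k l N hN
  refine t2c_finiteDimensional_quot _ g hg _ (X ^ (l * l) - X)
    (FiniteField.X_pow_card_sub_X_ne_zero k (by have := t2c_two_le_sq l; omega)) ?_
  rw [map_sub, map_pow, aeval_X]
  exact t2c_X_mem_I k l N

/-- **the node data of `T2Setup`** for `Fb = F̄' × F̄'`, `x̄ = (x̄', Φ x̄')`, `x̄' = j̄^{l²} - j̄` -/
theorem t2c_node_frob (S₁ : Subalgebra k (TaBar k N × TaBar k N))
    (hα : ∀ f ∈ t2R (k := k) (t2cX k l N), (f, t2cPhi k l N f) ∈ S₁)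
    (hβ : ∀ f ∈ t2R (k := k) (t2cX k l N), (t2cPhi k l N f, f) ∈ S₁) :
    ∃ (σ : Type u) (_ : Fintype σ)
      (ev : ↥(t2R (k := k)
        ((t2cX k l N, t2cPhi k l N (t2cX k l N)) : TaBar k N × TaBar k N)) →ₐ[k] (σ → k)),
      ∀ r, ev r = 0 → (r : TaBar k N × TaBar k N) ∈ S₁ :=
  t2c_node_setup (t2cPhi k l N) ((t2cPsi k l N).comp (t2cPsi k l N))
    ((t2cFrobInv k l).comp (t2cFrobInv k l)) (t2cX k l N) (t2cPhi_algebraMap k l N)
    (fun c => by
      rw [RingHom.comp_apply, t2cPsi_algebraMap, t2cPsi_algebraMap]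
      rfl)
    (t2cPhi_X_mem k l N)
    (by rw [RingHom.comp_apply, t2cPsi_X, t2cPsi_X])
    (l * l) (t2c_two_le_sq l) (t2cPhi_Phi k l N)
    (fun f => by
      rw [RingHom.comp_apply, t2cPsi_Phi, t2cPsi_Phi]
      rfl)
    (t2c_finiteDimensional_frob k l N hN) S₁ hα hβ

/-- the same, for any `x̄` which is equal to `(x̄', Φ x̄')` -/
theorem t2c_node_frob_of_eq (S₁ : Subalgebra k (TaBar k N × TaBar k N))
    (hα : ∀ f ∈ t2R (k := k) (t2cX k l N), (f, t2cPhi k l N f) ∈ S₁)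
    (hβ : ∀ f ∈ t2R (k := k) (t2cX k l N), (t2cPhi k l N f, f) ∈ S₁)
    (xb : TaBar k N × TaBar k N) (hxb : xb = (t2cX k l N, t2cPhi k l N (t2cX k l N))) :
    ∃ (σ : Type u) (_ : Fintype σ) (ev : ↥(t2R (k := k) xb) →ₐ[k] (σ → k)),
      ∀ r, ev r = 0 → (r : TaBar k N × TaBar k N) ∈ S₁ := by
  subst hxb
  exact t2c_node_frob k l N hN S₁ hα hβ

end Main

end Fermat.Agent.T2
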