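/-
T2-C leaf (FE) (helper5; specification: helper9, T2-C plan v2): the relative Frobenius `Φ` and the
coefficientwise inverse Frobenius `ψ` of `E = modularFunctionFieldFullC k N'` (`k` perfect of
characteristic `q`), and the node data (leaf (ND), `Lib/T2/Inst/NodeAlg.lean`) for `E`.

* `t2fe_qExpand_eq`, `t2fe_coeffMap_mem`, `t2fe_qExpand_mem`;
* `t2fePhi : E →ₐ[k] E` (`= qExpand k q`), `t2fePsi : E →+* E` (`= coeffMap Frob⁻¹`),
  `t2fePhi_eq_pow : Φ f = (ψ f) ^ q`, `t2fePsi_J`, `t2fePsi_algebraMap`, `t2fePhi_J`;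
* `t2feTheta = Φ²`, `t2feTheta_eq : Φ² f = (ψ² f) ^ (q ^ 2)`;
* **`t2fe_node_exists`** (`ev'` on `R' = IntCl(k[j̄])`), **`t2fe_node_prod`** (`ev`, `hJ` on
  `t2R (a, b)`, `a b ∈ k[j̄]`, for subalgebras `S₁ ∋ (f, Φ f), (Φ f, f)`, `f ∈ R'`).
-/
import Fermat.Agent.Lib.T2.Inst.NodeFrob
import Fermat.Agent.Lib.T2.Inst.NodeAlg

set_option autoImplicit false
set_option linter.unusedSectionVars false
set_option linter.style.haveILetI false

noncomputable section

namespace Fermat.Agent.T2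

open ModularCurve HahnSeries Polynomial Fermat.Agent.T1

universe u

section FE

variable (k : Type u) [Field k] (q : ℕ) [hq : Fact q.Prime] [CharP k q] [PerfectRing k q]
  (N' : ℕ) [NeZero N']

theorem t2fe_qExpand_eq (f : LaurentSeries k) :
    qExpand k q f = (coeffMap ((frobeniusEquiv k q).symm : k →+* k) f) ^ q :=
  (t2c_coeffMap_frobInv_pow k q f).symm

theorem t2fe_coeffMap_mem (τ : k →+* k) {f : LaurentSeries k}
    (hf : f ∈ modularFunctionFieldFullC k N') : coeffMap τ f ∈ modularFunctionFieldFullC k N' :=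
  tbi_coeffMap_mem_fullC τ N' hf

theorem t2fe_qExpand_mem {f : LaurentSeries k} (hf : f ∈ modularFunctionFieldFullC k N') :
    qExpand k q f ∈ modularFunctionFieldFullC k N' :=
  t2c_qExpand_mem k q N' ⟨f, hf⟩

/-- the coefficientwise inverse Frobenius of `E` -/
def t2fePsi : ↥(modularFunctionFieldFullC k N') →+* ↥(modularFunctionFieldFullC k N') :=
  t2cPsi k q N'

/-- the relative Frobenius `f(q) ↦ f(q^q)` of `E`, as a `k`-algebra endomorphism -/
def t2fePhi : ↥(modularFunctionFieldFullC k N') →ₐ[k] ↥(modularFunctionFieldFullC k N') :=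
  { t2cPhi k q N' with commutes' := t2cPhi_algebraMap k q N' }

theorem t2fePhi_apply (f : ↥(modularFunctionFieldFullC k N')) :
    t2fePhi k q N' f = t2cPhi k q N' f := rfl

theorem coe_t2fePhi (f : ↥(modularFunctionFieldFullC k N')) :
    ((t2fePhi k q N' f : ↥(modularFunctionFieldFullC k N')) : LaurentSeries k) =
      qExpand k q (f : LaurentSeries k) := rfl

theorem coe_t2fePsi (f : ↥(modularFunctionFieldFullC k N')) :
    ((t2fePsi k q N' f : ↥(modularFunctionFieldFullC k N')) : LaurentSeries k) =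
      coeffMap ((frobeniusEquiv k q).symm : k →+* k) (f : LaurentSeries k) := rfl

theorem t2fePhi_eq_pow (f : ↥(modularFunctionFieldFullC k N')) :
    t2fePhi k q N' f = t2fePsi k q N' f ^ q := t2cPhi_eq_pow k q N' f

theorem t2fePsi_J : t2fePsi k q N' (taBarJ k N') = taBarJ k N' := t2cPsi_J k q N'

theorem t2fePsi_algebraMap (c : k) :
    t2fePsi k q N' (algebraMap k ↥(modularFunctionFieldFullC k N') c) =
      algebraMap k ↥(modularFunctionFieldFullC k N') ((frobeniusEquiv k q).symm c) :=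
  t2cPsi_algebraMap k q N' c

theorem t2fePhi_J : t2fePhi k q N' (taBarJ k N') = taBarJ k N' ^ q := t2cPhi_J k q N'

theorem t2fePsi_Phi (f : ↥(modularFunctionFieldFullC k N')) :
    t2fePsi k q N' (t2fePhi k q N' f) = t2fePhi k q N' (t2fePsi k q N' f) :=
  t2cPsi_Phi k q N' f

/-- `Θ = Φ²` -/
def t2feTheta : ↥(modularFunctionFieldFullC k N') →ₐ[k] ↥(modularFunctionFieldFullC k N') :=
  (t2fePhi k q N').comp (t2fePhi k q N')

theorem t2feTheta_apply (f : ↥(modularFunctionFieldFullC k N')) :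
    t2feTheta k q N' f = t2fePhi k q N' (t2fePhi k q N' f) := rfl

theorem t2feTheta_eq (f : ↥(modularFunctionFieldFullC k N')) :
    t2feTheta k q N' f = ((t2fePsi k q N').comp (t2fePsi k q N')) f ^ (q ^ 2) := by
  rw [t2feTheta_apply, t2fePhi_eq_pow k q N' f, map_pow, t2fePhi_eq_pow, ← pow_mul, sq]
  rfl

theorem t2fe_psi_sq_algebraMap (c : k) :
    ∃ c' : k, ((t2fePsi k q N').comp (t2fePsi k q N'))
      (algebraMap k ↥(modularFunctionFieldFullC k N') c) =
        algebraMap k ↥(modularFunctionFieldFullC k N') c' :=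
  ⟨_, by rw [RingHom.comp_apply, t2fePsi_algebraMap, t2fePsi_algebraMap]⟩

theorem t2fe_psi_sq_J :
    ((t2fePsi k q N').comp (t2fePsi k q N')) (taBarJ k N') = taBarJ k N' := by
  rw [RingHom.comp_apply, t2fePsi_J, t2fePsi_J]

theorem t2fe_two_le : 2 ≤ q ^ 2 := by
  have := hq.out.two_le
  nlinarith

/-- `Φ` preserves `R' = IntCl(k[j̄])` -/
theorem t2fePhi_mem_t2R {f : ↥(modularFunctionFieldFullC k N')}
    (hf : f ∈ t2R (k := k) (taBarJ k N')) : t2fePhi k q N' f ∈ t2R (k := k) (taBarJ k N') := by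
  refine t2c_Phi_mem_t2R (t2cPhi k q N') (taBarJ k N') (t2cPhi_algebraMap k q N') ?_ hf
  rw [t2cPhi_J]
  exact Subalgebra.pow_mem _ (Algebra.self_mem_adjoin_singleton k _) q

variable [IsAlgClosed k] (hN : (N' : k) ≠ 0)

include hN

/-- **(ND) for the modular function field**: an evaluation map on `R' = IntCl(k[j̄])` whose kernel
lies in every ideal containing all `f - Φ² f` -/
theorem t2fe_node_exists :
    ∃ (n : ℕ) (ev' : ↥(t2R (k := k) (taBarJ k N')) →ₐ[k] (Fin n → k)), Function.Surjective ev' ∧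
      ∀ T : Ideal ↥(t2R (k := k) (taBarJ k N')),
        (∀ f : ↥(t2R (k := k) (taBarJ k N')),
          f - ⟨t2fePhi k q N' (t2fePhi k q N' (f : ↥(modularFunctionFieldFullC k N'))),
            t2fePhi_mem_t2R k q N' (t2fePhi_mem_t2R k q N' f.2)⟩ ∈ T) →
        ∀ r, ev' r = 0 → r ∈ T := by
  haveI := ta_bar_finiteDimensional k N'
  haveI := ta_bar_isSeparable k N' hN
  obtain ⟨n, ev', hsurj, -, h⟩ := t2ni_exists_fin (k := k) (taBarJ k N') (q ^ 2)
    ((t2fePsi k q N').comp (t2fePsi k q N')) (t2fe_psi_sq_algebraMap k q N')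
    (t2fe_psi_sq_J k q N') (t2feTheta k q N') (t2feTheta_eq k q N')
    (ta_bar_transcendental k N') (t2fe_two_le q)
  exact ⟨n, ev', hsurj, fun T hT r hr => h T hT r hr⟩

/-- **the node data `ev`, `hJ` of `T2Setup`** for `Fb = E × E` and a chart `x̄ = (a, b)` with
`a b ∈ k[j̄]`: the kernel of `ev` lies in every subalgebra `S₁` containing `(f, Φ f)` and
`(Φ f, f)`, `f ∈ R'` -/
theorem t2fe_node_prod
    (a b : ↥(modularFunctionFieldFullC k N')) (ha : a ∈ Algebra.adjoin k {taBarJ k N'})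
    (hb : b ∈ Algebra.adjoin k {taBarJ k N'}) :
    ∃ (n : ℕ) (ev : ↥(t2R (k := k) ((a, b) :
        ↥(modularFunctionFieldFullC k N') × ↥(modularFunctionFieldFullC k N'))) →ₐ[k] (Fin n → k)),
      ∀ S₁ : Subalgebra k
          (↥(modularFunctionFieldFullC k N') × ↥(modularFunctionFieldFullC k N')),
        (∀ f ∈ t2R (k := k) (taBarJ k N'), (f, t2fePhi k q N' f) ∈ S₁) →
        (∀ f ∈ t2R (k := k) (taBarJ k N'), (t2fePhi k q N' f, f) ∈ S₁) →
        ∀ r, ev r = 0 →
          (r : ↥(modularFunctionFieldFullC k N') × ↥(modularFunctionFieldFullC k N')) ∈ S₁ := by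
  haveI := ta_bar_finiteDimensional k N'
  haveI := ta_bar_isSeparable k N' hN
  obtain ⟨n, ev, h⟩ := t2ni_exists_prod (k := k) (taBarJ k N') (q ^ 2)
    ((t2fePsi k q N').comp (t2fePsi k q N')) (t2fe_psi_sq_algebraMap k q N')
    (t2fe_psi_sq_J k q N') (t2feTheta k q N') (t2feTheta_eq k q N')
    (ta_bar_transcendental k N') (t2fe_two_le q) a b ha hb
  refine ⟨n, ev, fun S₁ hα hβ r hr => h S₁ (fun f hf => ⟨_, hα f hf⟩) (fun f hf => ⟨_, hβ f hf⟩)
    ?_ ?_ r hr⟩
  · intro f hf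
    have h1 := hα f hf
    have h2 := hβ (t2fePhi k q N' f) (t2fePhi_mem_t2R k q N' hf)
    have := S₁.sub_mem h1 h2
    simpa [t2feTheta_apply] using this
  · intro f hf
    have h1 := hβ f hf
    have h2 := hα (t2fePhi k q N' f) (t2fePhi_mem_t2R k q N' hf)
    have := S₁.sub_mem h1 h2
    simpa [t2feTheta_apply] using this

end FE

end Fermat.Agent.T2
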