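/-
T2-C leaf DG (helper8), generic part: **degrees of charts**.

Pure field theory (`K` any field, `F / K` any field extension):
* `t2dg_finrank_algEquiv` : `[F' : K(w x)] = [F : K(x)]` for an isomorphism `w : F ≃ₐ[K] F'`;
* `t2dg_relfinrank_aeval`, `t2dg_finrank_aeval` : `[F : K(P(j))] = deg P · [F : K(j)]` for a
  transcendental `j` and a polynomial `P` (via Mathlib's `RatFunc.finrank_eq_max_natDegree`);
* `t2dg_finrank_pow_sub` : `[F : K(j^Q - j)] = Q · [F : K(j)]` (`2 ≤ Q`);
* `t2dg_isFunctionFieldGen_aeval`, `t2dg_isFunctionFieldGen_pow_sub`.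
Function fields over an algebraically closed field (`Lib/CurveP` pole divisors):
* `t2dg_finrank_mul_le` : `[F : K(xy)] ≤ [F : K(x)] + [F : K(y)]` (separable generators);
  `t2dg_finrank_mul_le'` in characteristic zero.
-/
import Fermat.Agent.Lib.CurveP.Riemann

set_option autoImplicit false
set_option linter.unusedSectionVars false
set_option linter.style.haveILetI false

namespace Fermat.Agent.T2

open Fermat.Agent.Curve Fermat.Agent.CurveP Fermat.Agent.CurveP.RRAux AlgebraicCurve
  IntermediateField Module Polynomial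

section Alg

variable {K F : Type*} [Field K] [Field F] [Algebra K F]

/-- degrees are transported by isomorphisms -/
theorem t2dg_finrank_algEquiv {F' : Type*} [Field F'] [Algebra K F'] (w : F ≃ₐ[K] F') (x : F) :
    finrank K⟮w x⟯ F' = finrank K⟮x⟯ F := by
  have hmap : (K⟮x⟯).map (w : F →ₐ[K] F') = K⟮w x⟯ := by
    rw [IntermediateField.adjoin_map, Set.image_singleton]
    rfl
  let i : K⟮x⟯ ≃ₐ[K] K⟮w x⟯ :=
    ((K⟮x⟯).equivMap (w : F →ₐ[K] F')).trans (IntermediateField.equivOfEq hmap)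
  refine (Algebra.finrank_eq_of_equiv_equiv i.toRingEquiv w.toRingEquiv ?_).symm
  ext z
  rfl

/-- the degree of `K(X)` over `K(P)` for a polynomial `P` -/
theorem t2dg_finrank_ratFunc (P : K[X]) :
    finrank K⟮algebraMap K[X] (RatFunc K) P⟯ (RatFunc K) = P.natDegree := by
  rw [RatFunc.finrank_eq_max_natDegree, RatFunc.num_algebraMap, RatFunc.denom_algebraMap,
    natDegree_one, max_eq_left (Nat.zero_le _)]

/-- `[K(j) : K(P(j))] = deg P` for a transcendental `j` -/
theorem t2dg_relfinrank_aeval {j : F} (hj : Transcendental K j) (P : K[X]) :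
    relfinrank K⟮aeval j P⟯ K⟮j⟯ = P.natDegree := by
  have h1 : finrank K⟮aeval (AdjoinSimple.gen K j) P⟯ K⟮j⟯ = P.natDegree := by
    rw [← RatFunc.algEquivOfTranscendental_algebraMap j hj P, t2dg_finrank_algEquiv,
      t2dg_finrank_ratFunc]
  have h2 : (K⟮aeval (AdjoinSimple.gen K j) P⟯).map (K⟮j⟯).val = K⟮aeval j P⟯ := by
    rw [IntermediateField.adjoin_map, Set.image_singleton]
    congr 2
    rw [IntermediateField.coe_val, CurveP.RRAux.coe_aeval_gen]
  have h3 : (⊤ : IntermediateField K K⟮j⟯).map (K⟮j⟯).val = K⟮j⟯ := by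
    rw [← AlgHom.fieldRange_eq_map, IntermediateField.fieldRange_val]
  calc relfinrank K⟮aeval j P⟯ K⟮j⟯
      = relfinrank ((K⟮aeval (AdjoinSimple.gen K j) P⟯).map (K⟮j⟯).val)
          ((⊤ : IntermediateField K K⟮j⟯).map (K⟮j⟯).val) := by rw [h2, h3]
    _ = relfinrank K⟮aeval (AdjoinSimple.gen K j) P⟯ (⊤ : IntermediateField K K⟮j⟯) :=
        relfinrank_map_map _ _ _
    _ = P.natDegree := by rw [relfinrank_top_right, h1]

/-- `[F : K(P(j))] = deg P · [F : K(j)]` -/
theorem t2dg_finrank_aeval {j : F} (hj : Transcendental K j) (P : K[X]) :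
    finrank K⟮aeval j P⟯ F = P.natDegree * finrank K⟮j⟯ F := by
  have hle : K⟮aeval j P⟯ ≤ K⟮j⟯ := by
    rw [adjoin_simple_le_iff]
    exact IntermediateField.algebra_adjoin_le_adjoin K _ (Polynomial.aeval_mem_adjoin_singleton K j)
  rw [← relfinrank_mul_finrank_top hle, t2dg_relfinrank_aeval hj]

/-- a non-constant polynomial in a generator is a generator -/
theorem t2dg_isFunctionFieldGen_aeval {j : F} (hj : IsFunctionFieldGen K F j) {P : K[X]}
    (hP : 0 < P.natDegree) : IsFunctionFieldGen K F (aeval j P) := by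
  refine ⟨?_, ?_⟩
  · rw [transcendental_aeval_iff]
    exact ⟨hj.transcendental, Polynomial.transcendental P (by omega)
      (mem_nonZeroDivisors_of_ne_zero (leadingCoeff_ne_zero.mpr (by rintro rfl; simp at hP)))⟩
  · apply FiniteDimensional.of_finrank_pos
    rw [t2dg_finrank_aeval hj.transcendental]
    haveI := hj.finite
    exact Nat.mul_pos hP Module.finrank_pos

theorem t2dg_aeval_pow_sub (j : F) (Q : ℕ) : aeval j ((X : K[X]) ^ Q - X) = j ^ Q - j := by
  simp

theorem t2dg_natDegree_pow_sub {Q : ℕ} (hQ : 2 ≤ Q) : ((X : K[X]) ^ Q - X).natDegree = Q := by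
  rw [natDegree_sub_eq_left_of_natDegree_lt]
  · simp
  · simp; omega

/-- `[F : K(j^Q - j)] = Q · [F : K(j)]` -/
theorem t2dg_finrank_pow_sub {j : F} (hj : Transcendental K j) {Q : ℕ} (hQ : 2 ≤ Q) :
    finrank K⟮j ^ Q - j⟯ F = Q * finrank K⟮j⟯ F := by
  rw [← t2dg_aeval_pow_sub (K := K) j Q, t2dg_finrank_aeval hj, t2dg_natDegree_pow_sub hQ]

theorem t2dg_isFunctionFieldGen_pow_sub {j : F} (hj : IsFunctionFieldGen K F j) {Q : ℕ}
    (hQ : 2 ≤ Q) : IsFunctionFieldGen K F (j ^ Q - j) := by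
  rw [← t2dg_aeval_pow_sub (K := K) j Q]
  exact t2dg_isFunctionFieldGen_aeval hj (by rw [t2dg_natDegree_pow_sub hQ]; omega)

end Alg

section Places

variable {K F : Type*} [Field K] [Field F] [Algebra K F] [IsAlgClosed K]

/-- **the degree of a product is at most the sum of the degrees** -/
theorem t2dg_finrank_mul_le {x y : F} (hx : IsFunctionFieldGen K F x)
    (hy : IsFunctionFieldGen K F y) (hxy : IsFunctionFieldGen K F (x * y))
    [Algebra.IsSeparable K⟮x⟯ F] [Algebra.IsSeparable K⟮y⟯ F] [Algebra.IsSeparable K⟮x * y⟯ F] :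
    finrank K⟮x * y⟯ F ≤ finrank K⟮x⟯ F + finrank K⟮y⟯ F := by
  have hx0 : x ≠ 0 := fun h => hx.transcendental (h ▸ isAlgebraic_zero)
  have hy0 : y ≠ 0 := fun h => hy.transcendental (h ▸ isAlgebraic_zero)
  have hle : poleDiv hxy (x * y) ≤ poleDiv hx x + poleDiv hy y := by
    intro v
    rw [Finsupp.add_apply, poleDiv_apply, poleDiv_apply, poleDiv_apply, v.ord_mul hx0 hy0]
    rcases le_total 0 (-(v.ord x)) with h1 | h1 <;> rcases le_total 0 (-(v.ord y)) with h2 | h2 <;>
      simp only [max_def] <;> split_ifs <;> omega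
  have h := degree_mono hle
  rw [map_add, degree_poleDiv_gen hxy, degree_poleDiv_gen hx, degree_poleDiv_gen hy] at h
  exact_mod_cast h

/-- characteristic zero version -/
theorem t2dg_finrank_mul_le' [CharZero K] {x y : F} (hx : IsFunctionFieldGen K F x)
    (hy : IsFunctionFieldGen K F y) (hxy : IsFunctionFieldGen K F (x * y)) :
    finrank K⟮x * y⟯ F ≤ finrank K⟮x⟯ F + finrank K⟮y⟯ F := by
  have hsep : ∀ z : F, IsFunctionFieldGen K F z → Algebra.IsSeparable K⟮z⟯ F := by
    intro z hz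
    haveI := hz.finite
    haveI : CharZero ↥K⟮z⟯ := charZero_of_injective_algebraMap (algebraMap K ↥K⟮z⟯).injective
    infer_instance
  haveI := hsep x hx
  haveI := hsep y hy
  haveI := hsep _ hxy
  exact t2dg_finrank_mul_le hx hy hxy

end Places

end Fermat.Agent.T2
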