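/-
T2-C leaf DG (helper8), concrete part: **the degree of the symmetric chart** of
`F_K = modularFunctionFieldBar N` over `ℚ̄`.

With `J = tbJ N` and `x = J^Q - J` (`2 ≤ Q`; in the application `Q = q²`, `N = q N'`):
* `t2dg_isFunctionFieldGen_X`, `t2dg_finrank_X : [F_K : ℚ̄(x)] = Q ψ(N)`;
* `t2dg_finrank_chart_le` : for EVERY automorphism `w` of `F_K / ℚ̄` with `x · w x` non-constant,
  `[F_K : ℚ̄(x · w x)] ≤ 2 Q ψ(N)`;
* `t2dg_notMem_range_of_order_ne_zero` : an element whose `q`-expansion has non-zero order is not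
  constant (to discharge the hypothesis on `w`).
-/
import Fermat.Agent.Lib.T2.Inst.Degree
import Fermat.Agent.Lib.T1.Inst.IntUp
import Fermat.Agent.Lib.S24.Count

set_option autoImplicit false
set_option linter.unusedSectionVars false
set_option linter.style.haveILetI false
set_option synthInstance.maxHeartbeats 400000

namespace Fermat.Agent.T2

open Fermat.Agent.Curve Fermat.Agent.CurveP AlgebraicCurve IntermediateField Module Polynomial
  ModularCurve Fermat.Agent.T1

local notation "Qb" => AlgebraicClosure ℚ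

variable (N : ℕ) [NeZero N]

theorem t2dg_isFunctionFieldGen_J :
    IsFunctionFieldGen Qb ↥(modularFunctionFieldBar N) (tbJ N) :=
  Fermat.Agent.S24Lib.isFunctionFieldGen_jBar N

theorem t2dg_finrank_J :
    finrank ↥Qb⟮tbJ N⟯ ↥(modularFunctionFieldBar N) = dedekindPsi N :=
  Fermat.Agent.S24Lib.finrank_jBar N

variable {Q : ℕ} (hQ : 2 ≤ Q)

include hQ

/-- the chart function `x = J^Q - J` is a generator -/
theorem t2dg_isFunctionFieldGen_X :
    IsFunctionFieldGen Qb ↥(modularFunctionFieldBar N) (tbJ N ^ Q - tbJ N) :=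
  t2dg_isFunctionFieldGen_pow_sub (t2dg_isFunctionFieldGen_J N) hQ

/-- `[F_K : ℚ̄(x)] = Q ψ(N)` -/
theorem t2dg_finrank_X :
    finrank ↥Qb⟮tbJ N ^ Q - tbJ N⟯ ↥(modularFunctionFieldBar N) = Q * dedekindPsi N := by
  rw [t2dg_finrank_pow_sub (t2dg_isFunctionFieldGen_J N).transcendental hQ, t2dg_finrank_J]

/-- **the degree of the symmetric chart** `x · w x` is at most `2 Q ψ(N)` -/
theorem t2dg_finrank_chart_le
    (w : ↥(modularFunctionFieldBar N) ≃ₐ[Qb] ↥(modularFunctionFieldBar N))
    (hw : (tbJ N ^ Q - tbJ N) * w (tbJ N ^ Q - tbJ N) ∉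
      Set.range (algebraMap Qb ↥(modularFunctionFieldBar N))) :
    finrank ↥Qb⟮(tbJ N ^ Q - tbJ N) * w (tbJ N ^ Q - tbJ N)⟯ ↥(modularFunctionFieldBar N) ≤
      2 * Q * dedekindPsi N := by
  have hx := t2dg_isFunctionFieldGen_X N hQ
  have hwx : IsFunctionFieldGen Qb ↥(modularFunctionFieldBar N) (w (tbJ N ^ Q - tbJ N)) := by
    refine ⟨fun h => hx.transcendental ?_, ?_⟩
    · have := h.algHom (w.symm : ↥(modularFunctionFieldBar N) →ₐ[Qb] ↥(modularFunctionFieldBar N))
      simpa using this
    · apply FiniteDimensional.of_finrank_pos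
      rw [t2dg_finrank_algEquiv]
      haveI := hx.finite
      exact Module.finrank_pos
  have hxy := CurveP.isFunctionFieldGen_of_notMem_range hx hw
  have h := t2dg_finrank_mul_le' hx hwx hxy
  rw [t2dg_finrank_algEquiv, t2dg_finrank_X N hQ] at h
  linarith

omit hQ in
/-- an element of `F_K` whose `q`-expansion has non-zero order is not constant -/
theorem t2dg_notMem_range_of_order_ne_zero (f : ↥(modularFunctionFieldBar N))
    (hf : (f : LaurentSeries Qb).order ≠ 0) :
    f ∉ Set.range (algebraMap Qb ↥(modularFunctionFieldBar N)) := by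
  rintro ⟨c, rfl⟩
  apply hf
  have : ((algebraMap Qb ↥(modularFunctionFieldBar N) c : ↥(modularFunctionFieldBar N)) :
      LaurentSeries Qb) = HahnSeries.C c := by
    rw [IntermediateField.coe_algebraMap_apply, algebraMap_laurentSeries_eq_single]
    rfl
  rw [this]
  exact HahnSeries.order_C

end Fermat.Agent.T2
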