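/-
T2-C leaf DG (helper8), level part: **degrees do not increase under descent of the constant field**,
and the degree of the symmetric chart at the DVR level `H`.

* `t2dg_linearIndependent_pow` : powers of a transcendental element are linearly independent;
* `t2dg_finrank_bc_le` : for `Fk ⊆ k((q))`, `FΩ ⊆ Ω((q))`, `bc = coeffMap j : Fk → FΩ` and `z ∈ Fk`
  transcendental: `[Fk : k(z)] ≤ [FΩ : Ω(bc z)]` (independent families stay independent);
* `t2dg_finrank_tbPhiF_le` : the instance `tbLevF 𝔓 N H ⊆ modularFunctionFieldBar N`;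
* `t2dg_finrank_chart_level_le` : `[F_H : L_H(x_H · y)] ≤ 2 Q ψ(N)` for `x_H = j_H^Q - j_H` and any
  `y ∈ F_H` with `tbPhiF y = w (J^Q - J)`, `w` an automorphism of `F_K / ℚ̄` (`x · w x` non-constant).
-/
import Fermat.Agent.Lib.T2.Inst.DegreeMod
import Fermat.Agent.Lib.T2.Desc.LevelMod
import Fermat.Agent.Lib.ES.DictLinIndep

set_option autoImplicit false
set_option linter.unusedSectionVars false
set_option linter.style.haveILetI false
set_option synthInstance.maxHeartbeats 400000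

namespace Fermat.Agent.T2

open Fermat.Agent.Curve Fermat.Agent.CurveP AlgebraicCurve IntermediateField Module Polynomial
  ModularCurve Fermat.Agent.T1 Fermat.Agent.TW

section Desc

variable {k Ω : Type*} [Field k] [Field Ω] (j : k →+* Ω)
  (Fk : IntermediateField k (LaurentSeries k)) (FΩ : IntermediateField Ω (LaurentSeries Ω))
  (hF : ∀ t ∈ Fk, coeffMap j t ∈ FΩ)

/-- powers of a transcendental element are linearly independent -/
theorem t2dg_linearIndependent_pow {K A : Type*} [Field K] [CommRing A] [Algebra K A] {z : A}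
    (hz : Transcendental K z) : LinearIndependent K (fun a : ℕ => z ^ a) := by
  have h1 := (Polynomial.basisMonomials K).linearIndependent
  have h2 := h1.map' (Polynomial.aeval (R := K) z).toLinearMap
    (LinearMap.ker_eq_bot.mpr (transcendental_iff_injective.mp hz))
  have h3 : (fun a : ℕ => z ^ a) =
      ⇑(Polynomial.aeval (R := K) z).toLinearMap ∘ ⇑(Polynomial.basisMonomials K) := by
    funext a
    simp [Polynomial.coe_basisMonomials]
  rw [h3]
  exact h2

open scoped IntermediateField.algebraAdjoinAdjoin in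
/-- **the degree does not increase under descent of the constant field** -/
theorem t2dg_finrank_bc_le (z : ↥Fk) (hz : Transcendental k z)
    [FiniteDimensional ↥Ω⟮t2dBc j Fk FΩ hF z⟯ ↥FΩ] :
    finrank ↥k⟮z⟯ ↥Fk ≤ finrank ↥Ω⟮t2dBc j Fk FΩ hF z⟯ ↥FΩ := by
  classical
  by_contra hlt
  rw [not_le] at hlt
  set bz := t2dBc j Fk FΩ hF z with hbz
  set n := finrank ↥Ω⟮bz⟯ ↥FΩ with hn
  set m := finrank ↥k⟮z⟯ ↥Fk with hm
  haveI : Module.Finite ↥k⟮z⟯ ↥Fk := Module.finite_of_finrank_pos (by omega)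
  let B : Module.Basis (Fin m) ↥k⟮z⟯ ↥Fk := Module.finBasis _ _
  have hnm : n + 1 ≤ m := hlt
  set y : Fin (n + 1) → ↥Fk := fun i => B (Fin.castLE hnm i) with hy
  have hyli : LinearIndependent ↥k⟮z⟯ y :=
    B.linearIndependent.comp _ (Fin.castLE_injective hnm)
  -- the family `z^a y_i` is `k`-linearly independent
  have hgen : Transcendental k (AdjoinSimple.gen k (z : ↥Fk)) := by
    intro h
    apply hz
    have := h.algHom (k⟮z⟯).val
    rwa [IntermediateField.val_mk] at this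
  have hpow : LinearIndependent k (fun a : ℕ => (AdjoinSimple.gen k (z : ↥Fk)) ^ a) :=
    t2dg_linearIndependent_pow hgen
  have hfam : LinearIndependent k
      (fun p : ℕ × Fin (n + 1) => ((AdjoinSimple.gen k (z : ↥Fk)) ^ p.1) • y p.2) :=
    linearIndependent_smul hpow hyli
  have hfamL : LinearIndependent k
      (fun p : ℕ × Fin (n + 1) => ((z ^ p.1 * y p.2 : ↥Fk) : LaurentSeries k)) := by
    let V : ↥Fk →ₗ[k] LaurentSeries k :=
      { toFun := fun h => (h : LaurentSeries k)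
        map_add' := fun _ _ => rfl
        map_smul' := fun c h => by
          rw [RingHom.id_apply, ← HahnSeries.C_mul_eq_smul, Algebra.smul_def,
            MulMemClass.coe_mul]
          congr 1
          show algebraMap k (LaurentSeries k) c = HahnSeries.C c
          rw [algebraMap_laurentSeries_eq_single]
          rfl }
    have h2 := hfam.map' V (LinearMap.ker_eq_bot.mpr Subtype.val_injective)
    have h3 : (fun p : ℕ × Fin (n + 1) => ((z ^ p.1 * y p.2 : ↥Fk) : LaurentSeries k)) =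
        ⇑V ∘ fun p : ℕ × Fin (n + 1) => ((AdjoinSimple.gen k (z : ↥Fk)) ^ p.1) • y p.2 := by
      funext p
      rfl
    rw [h3]
    exact h2
  have hΩ := Fermat.Agent.ES.linearIndependent_coeffMap_ringHom j _ hfamL
  -- the images are dependent over `Ω(bz)`, hence over `Ω[bz]`
  have hnli : ¬ LinearIndependent ↥Ω⟮bz⟯ fun i => t2dBc j Fk FΩ hF (y i) := by
    intro h
    have := h.fintype_card_le_finrank
    rw [Fintype.card_fin] at this
    omega
  rw [← LinearIndependent.iff_fractionRing ↥(Algebra.adjoin Ω {bz}) ↥Ω⟮bz⟯,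
    Fintype.linearIndependent_iff] at hnli
  push Not at hnli
  obtain ⟨g, hg0, i₀, hgi₀⟩ := hnli
  have hpoly : ∀ i, ∃ p : Polynomial Ω,
      Polynomial.aeval bz p = ((g i : ↥(Algebra.adjoin Ω {bz})) : ↥FΩ) := by
    intro i
    have h : ((g i : ↥(Algebra.adjoin Ω {bz})) : ↥FΩ) ∈ (Polynomial.aeval (R := Ω) bz).range := by
      rw [← Algebra.adjoin_singleton_eq_range_aeval]
      exact (g i).2
    exact h
  choose ps hps using hpoly
  -- the relation as an `Ω`-linear relation between the `z^a y_i`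
  set D := (Finset.univ.sup fun i => (ps i).natDegree) + 1 with hD
  have hdeg : ∀ i, (ps i).natDegree < D := fun i =>
    Nat.lt_succ_of_le (Finset.le_sup (f := fun i => (ps i).natDegree) (Finset.mem_univ i))
  have hrel : ∑ p ∈ Finset.range D ×ˢ (Finset.univ : Finset (Fin (n + 1))),
      (ps p.2).coeff p.1 • coeffMap j ((z ^ p.1 * y p.2 : ↥Fk) : LaurentSeries k) = 0 := by
    have h1 : ∀ p : ℕ × Fin (n + 1),
        (ps p.2).coeff p.1 • coeffMap j ((z ^ p.1 * y p.2 : ↥Fk) : LaurentSeries k) =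
          ((algebraMap Ω ↥FΩ ((ps p.2).coeff p.1) * bz ^ p.1 * t2dBc j Fk FΩ hF (y p.2) : ↥FΩ) :
            LaurentSeries Ω) := by
      intro p
      rw [← HahnSeries.C_mul_eq_smul, MulMemClass.coe_mul, MulMemClass.coe_mul, map_mul,
        SubmonoidClass.coe_pow, map_pow, MulMemClass.coe_mul, SubmonoidClass.coe_pow, mul_assoc]
      congr 1
      rw [IntermediateField.coe_algebraMap_apply, algebraMap_laurentSeries_eq_single]
      rfl
    rw [Finset.sum_congr rfl fun p _ => h1 p, ← AddSubmonoidClass.coe_finsetSum,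
      Finset.sum_product_right]
    have h2 : ∀ i : Fin (n + 1), ∑ a ∈ Finset.range D,
        algebraMap Ω ↥FΩ ((ps i).coeff a) * bz ^ a * t2dBc j Fk FΩ hF (y i) =
          g i • t2dBc j Fk FΩ hF (y i) := by
      intro i
      have h3 : g i • t2dBc j Fk FΩ hF (y i) =
          ((g i : ↥(Algebra.adjoin Ω {bz})) : ↥FΩ) * t2dBc j Fk FΩ hF (y i) := rfl
      rw [← Finset.sum_mul, h3, ← hps i, Polynomial.aeval_eq_sum_range' (hdeg i)]
      congr 1
    rw [Finset.sum_congr rfl fun i _ => h2 i, hg0]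
    rfl
  have hc := linearIndependent_iff'.mp hΩ _ _ hrel
  apply hgi₀
  have hp0 : ps i₀ = 0 := by
    ext a
    rw [Polynomial.coeff_zero]
    by_cases ha : a < D
    · exact hc (a, i₀) (Finset.mem_product.mpr ⟨Finset.mem_range.mpr ha, Finset.mem_univ _⟩)
    · exact Polynomial.coeff_eq_zero_of_natDegree_lt (lt_of_lt_of_le (hdeg i₀) (not_lt.mp ha))
  apply Subtype.ext
  rw [← hps i₀, hp0, map_zero]
  rfl

end Desc

section Level

local notation "Qb" => AlgebraicClosure ℚ

variable (𝔓 : FFPlace) (N : ℕ) [NeZero N] (H : Subgroup 𝔓.I)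

/-- transcendence descends along `tbPhiF` -/
theorem t2dg_transcendental_of_tbPhiF (z : ↥(tbLevF 𝔓 N H))
    (hz : Transcendental Qb (tbPhiF 𝔓 N H z)) : Transcendental ↥(tbFix 𝔓 H) z := by
  intro h
  apply hz
  obtain ⟨p, hp0, hp⟩ := h
  refine ⟨p.map (algebraMap ↥(tbFix 𝔓 H) Qb), ?_, ?_⟩
  · exact (Polynomial.map_ne_zero_iff (algebraMap ↥(tbFix 𝔓 H) Qb).injective).mpr hp0
  · rw [← tbPhiF_aeval, hp, map_zero]

/-- **the degree at level `H` is at most the degree over `ℚ̄`** -/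
theorem t2dg_finrank_tbPhiF_le (z : ↥(tbLevF 𝔓 N H))
    (hz : IsFunctionFieldGen Qb ↥(modularFunctionFieldBar N) (tbPhiF 𝔓 N H z)) :
    finrank ↥(↥(tbFix 𝔓 H))⟮z⟯ ↥(tbLevF 𝔓 N H) ≤
      finrank ↥Qb⟮tbPhiF 𝔓 N H z⟯ ↥(modularFunctionFieldBar N) := by
  haveI hfin : FiniteDimensional
      ↥Qb⟮t2dBc (algebraMap ↥(tbFix 𝔓 H) Qb) (tbLevF 𝔓 N H) (modularFunctionFieldBar N)
        (t2dLevel 𝔓 H (modularFunctionFieldFull N)).up z⟯ ↥(modularFunctionFieldBar N) :=
    hz.finite
  exact t2dg_finrank_bc_le (algebraMap ↥(tbFix 𝔓 H) Qb) (tbLevF 𝔓 N H)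
    (modularFunctionFieldBar N) (t2dLevel 𝔓 H (modularFunctionFieldFull N)).up z
    (t2dg_transcendental_of_tbPhiF 𝔓 N H z hz.transcendental)

/-- **the degree of the symmetric chart at level `H`**: `y` is the level-`H` model of `w x` -/
theorem t2dg_finrank_chart_level_le {Q : ℕ} (hQ : 2 ≤ Q)
    (w : ↥(modularFunctionFieldBar N) ≃ₐ[Qb] ↥(modularFunctionFieldBar N))
    (hw : (tbJ N ^ Q - tbJ N) * w (tbJ N ^ Q - tbJ N) ∉
      Set.range (algebraMap Qb ↥(modularFunctionFieldBar N)))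
    (y : ↥(tbLevF 𝔓 N H)) (hy : tbPhiF 𝔓 N H y = w (tbJ N ^ Q - tbJ N)) :
    finrank ↥(↥(tbFix 𝔓 H))⟮(tbLevJ 𝔓 N H ^ Q - tbLevJ 𝔓 N H) * y⟯ ↥(tbLevF 𝔓 N H) ≤
      2 * Q * dedekindPsi N := by
  have h1 : tbPhiF 𝔓 N H ((tbLevJ 𝔓 N H ^ Q - tbLevJ 𝔓 N H) * y) =
      (tbJ N ^ Q - tbJ N) * w (tbJ N ^ Q - tbJ N) := by
    rw [map_mul, map_sub, map_pow, tbPhiF_tbLevJ, hy]
  have hgen : IsFunctionFieldGen Qb ↥(modularFunctionFieldBar N)
      (tbPhiF 𝔓 N H ((tbLevJ 𝔓 N H ^ Q - tbLevJ 𝔓 N H) * y)) := by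
    rw [h1]
    exact CurveP.isFunctionFieldGen_of_notMem_range (t2dg_isFunctionFieldGen_X N hQ) hw
  refine (t2dg_finrank_tbPhiF_le 𝔓 N H _ hgen).trans ?_
  rw [h1]
  exact t2dg_finrank_chart_le N hQ w hw

end Level

end Fermat.Agent.T2
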