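/-
T2-C leaf DG (helper8), Atkin–Lehner instance: **the degree of the symmetric chart
`x_s = x · w_q x`, `x = j^Q - j`** (`Q = q²` in the application), for lead's `t2w` / `t2wLev`.

* `t2dg_order_pow_sub`, `t2dg_order_chart_ne_zero` : orders of `q`-expansions;
* `t2dg_coe_t2w_tbJ`, `t2dg_coe_t2w_X` : the `q`-expansions of `w_q j = j(q^q)` and of `w_q x`;
* `t2dg_chart_notMem_range`, `t2dg_isFunctionFieldGen_chart_al` : `x · w_q x` is a generator of
  `F_K = modularFunctionFieldBar (N' * q)` over `ℚ̄`;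
* `t2dg_finrank_chart_al_le` : `[F_K : ℚ̄(x · w_q x)] ≤ 2 Q ψ(N' q)`;
* `t2dg_tbPhiF_chart`, `t2dg_finrank_chart_al_level_le` : the same at the DVR level `H`
  (`F_H = tbLevF 𝔓 (N' * q) H` over `L_H = tbFix 𝔓 H`, `w = t2wLev`).
-/
import Fermat.Agent.Lib.T2.Inst.DegreeLevel
import Fermat.Agent.Lib.T2.AL.Level
import Fermat.Agent.Lib.T2.Inst.KronSer

set_option autoImplicit false
set_option linter.unusedSectionVars false
set_option linter.style.haveILetI false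
set_option synthInstance.maxHeartbeats 400000

namespace Fermat.Agent.T2

open Fermat.Agent.Curve Fermat.Agent.CurveP AlgebraicCurve IntermediateField Module Polynomial
  ModularCurve Fermat.Agent.T1 Fermat.Agent.TW Fermat.Agent.S24Lib

local notation "Qb" => AlgebraicClosure ℚ

section Order

variable {k : Type*} [Field k]

/-- the order of `j^Q - j` -/
theorem t2dg_order_pow_sub {Q : ℕ} (hQ : 2 ≤ Q) :
    (jqModC k ^ Q - jqModC k).order = -(Q : ℤ) := by
  have hQ' : (2 : ℤ) ≤ Q := by exact_mod_cast hQ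
  apply t2kr_order_eq_of_coeff
  · rw [HahnSeries.coeff_sub, coeff_jqModC_pow_self, coeff_jqModC_of_lt k (by omega), sub_zero]
    exact one_ne_zero
  · intro m hm
    rw [HahnSeries.coeff_sub, coeff_jqModC_pow_of_lt k hm, coeff_jqModC_of_lt k (by omega),
      sub_zero]

theorem t2dg_pow_sub_ne_zero {Q : ℕ} (hQ : 2 ≤ Q) : jqModC k ^ Q - jqModC k ≠ 0 := by
  intro h
  have := t2dg_order_pow_sub (k := k) hQ
  rw [h, HahnSeries.order_zero] at this
  omega

/-- the order of `(j^Q - j) · (j(q^n)^Q - j(q^n))` is not zero -/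
theorem t2dg_order_chart_ne_zero {Q : ℕ} (hQ : 2 ≤ Q) (n : ℕ) [NeZero n] :
    ((jqModC k ^ Q - jqModC k) * qExpand k n (jqModC k ^ Q - jqModC k)).order ≠ 0 := by
  have h0 := t2dg_pow_sub_ne_zero (k := k) hQ
  have h1 : qExpand k n (jqModC k ^ Q - jqModC k) ≠ 0 :=
    fun h => h0 (qExpand_injective n (h.trans (map_zero _).symm))
  rw [HahnSeries.order_mul h0 h1, t2kr_order_qExpand n h0, t2dg_order_pow_sub hQ]
  have hn : (0 : ℤ) ≤ n := Int.natCast_nonneg n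
  have hQ' : (2 : ℤ) ≤ Q := by exact_mod_cast hQ
  nlinarith

end Order

section AL

variable (N' q : ℕ) [NeZero N'] [hq : Fact q.Prime] (h : ¬ q ∣ N')

theorem t2dg_tbJ_eq : tbJ (N' * q) = t2wJd Qb (N' * q) 1 (one_dvd _) := by
  apply Subtype.ext
  rw [coe_tbJ, coe_t2wJd, qExpand_one_apply]

/-- the `q`-expansion of `w_q j` is `j(q^q)` -/
theorem t2dg_coe_t2w_tbJ :
    ((t2w Qb N' q h (tbJ (N' * q)) : ↥(modularFunctionFieldBar (N' * q))) : LaurentSeries Qb) =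
      qExpand Qb q (jqModC Qb) := by
  have h1 := t2w_jd₁ Qb N' q h (one_dvd N')
  rw [t2dg_tbJ_eq]
  have h2 : ((t2wJd Qb (N' * q) (q * 1) (t2w_dvd₂ N' q (one_dvd N')) :
      ↥(laurentBaseChange Qb (modularFunctionFieldFull (N' * q)))) : LaurentSeries Qb) =
      qExpand Qb q (jqModC Qb) := by
    haveI : NeZero (q * 1) := ⟨by rw [mul_one]; exact hq.out.ne_zero⟩
    rw [coe_t2wJd]
    simp only [mul_one]
  rw [← h2]
  exact congrArg Subtype.val h1

variable {Q : ℕ} (hQ : 2 ≤ Q)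

/-- the `q`-expansion of `w_q x`, `x = j^Q - j` -/
theorem t2dg_coe_t2w_X :
    ((t2w Qb N' q h (tbJ (N' * q) ^ Q - tbJ (N' * q)) : ↥(modularFunctionFieldBar (N' * q))) :
      LaurentSeries Qb) = qExpand Qb q (jqModC Qb ^ Q - jqModC Qb) := by
  rw [map_sub, map_pow, AddSubgroupClass.coe_sub, SubmonoidClass.coe_pow, t2dg_coe_t2w_tbJ,
    map_sub, map_pow]

include hQ

/-- `x · w_q x` is not constant -/
theorem t2dg_chart_notMem_range :
    (tbJ (N' * q) ^ Q - tbJ (N' * q)) * t2w Qb N' q h (tbJ (N' * q) ^ Q - tbJ (N' * q)) ∉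
      Set.range (algebraMap Qb ↥(modularFunctionFieldBar (N' * q))) := by
  apply t2dg_notMem_range_of_order_ne_zero
  rw [MulMemClass.coe_mul, t2dg_coe_t2w_X, AddSubgroupClass.coe_sub, SubmonoidClass.coe_pow,
    coe_tbJ]
  exact t2dg_order_chart_ne_zero hQ q

/-- **the degree of the Atkin–Lehner symmetric chart over `ℚ̄`** -/
theorem t2dg_finrank_chart_al_le :
    finrank ↥Qb⟮(tbJ (N' * q) ^ Q - tbJ (N' * q)) *
        t2w Qb N' q h (tbJ (N' * q) ^ Q - tbJ (N' * q))⟯ ↥(modularFunctionFieldBar (N' * q)) ≤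
      2 * Q * dedekindPsi (N' * q) :=
  t2dg_finrank_chart_le (N' * q) hQ (t2w Qb N' q h) (t2dg_chart_notMem_range N' q h hQ)

/-- the symmetric chart over `ℚ̄` is a generator -/
theorem t2dg_isFunctionFieldGen_chart_al :
    IsFunctionFieldGen Qb ↥(modularFunctionFieldBar (N' * q))
      ((tbJ (N' * q) ^ Q - tbJ (N' * q)) * t2w Qb N' q h (tbJ (N' * q) ^ Q - tbJ (N' * q))) :=
  CurveP.isFunctionFieldGen_of_notMem_range (t2dg_isFunctionFieldGen_X (N' * q) hQ)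
    (t2dg_chart_notMem_range N' q h hQ)

variable (𝔓 : FFPlace) (H : Subgroup 𝔓.I)

/-- `tbPhiF` of the symmetric chart at level `H` -/
theorem t2dg_tbPhiF_chart :
    tbPhiF 𝔓 (N' * q) H ((tbLevJ 𝔓 (N' * q) H ^ Q - tbLevJ 𝔓 (N' * q) H) *
        t2wLev 𝔓 H N' q h (tbLevJ 𝔓 (N' * q) H ^ Q - tbLevJ 𝔓 (N' * q) H)) =
      (tbJ (N' * q) ^ Q - tbJ (N' * q)) * t2w Qb N' q h (tbJ (N' * q) ^ Q - tbJ (N' * q)) := by
  rw [map_mul, tbPhiF_t2wLev, map_sub, map_pow, tbPhiF_tbLevJ]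

/-- **the degree of the Atkin–Lehner symmetric chart at the DVR level `H`** -/
theorem t2dg_finrank_chart_al_level_le :
    finrank ↥(↥(tbFix 𝔓 H))⟮(tbLevJ 𝔓 (N' * q) H ^ Q - tbLevJ 𝔓 (N' * q) H) *
        t2wLev 𝔓 H N' q h (tbLevJ 𝔓 (N' * q) H ^ Q - tbLevJ 𝔓 (N' * q) H)⟯
        ↥(tbLevF 𝔓 (N' * q) H) ≤ 2 * Q * dedekindPsi (N' * q) :=
  t2dg_finrank_chart_level_le 𝔓 (N' * q) H hQ (t2w Qb N' q h)
    (t2dg_chart_notMem_range N' q h hQ) _
    (by rw [tbPhiF_t2wLev, map_sub, map_pow, tbPhiF_tbLevJ])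

end AL

end Fermat.Agent.T2
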