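/-
T2-C (helper9): the bases at the DVR levels `L_H = tbFix 𝔓 H` (`H ≤ 𝔓.I` of finite index).

* `t2iBaseFix 𝔓 H N hN : T2Base L_H (tbLevF 𝔓 N H) κ (tbBarF 𝔓 N)` for `𝔓.p ∤ N` (Gauss ring, `tbRhoFun`);
* `t2iALFix`, `t2iFrobFix`: the Atkin–Lehner data (lead's `t2wLev`) and the Frobenius data (helper5's
  `t2fePhi`, helper2's `t2kr_kron`);
* `t2iBase2Fix 𝔓 H N' h : T2Base L_H (tbLevF 𝔓 (N' * 𝔓.p) H) κ (E × E)`, `E = tbBarF 𝔓 N'`: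
  `Ov = G ∩ w⁻¹ G`, `res f = (ρ f, ρ (w f))`, with the API in terms of `TbGauss` / `tbRhoFun`.
-/
import Fermat.Agent.Lib.T2.Inst.KronH
import Fermat.Agent.Lib.T2.Inst.FrobE
import Fermat.Agent.Lib.T2.Inst.KronSer
import Fermat.Agent.Lib.T2.AL.Level
import Fermat.Agent.Lib.T1.Inst.FromTa

set_option autoImplicit false
set_option linter.unusedSectionVars false
set_option linter.unusedVariables false
set_option linter.style.haveILetI false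
set_option synthInstance.maxHeartbeats 400000

open HahnSeries ModularCurve Fermat.Agent.T1 Fermat.Agent.TW Fermat.Agent.S05Lib

noncomputable section

namespace Fermat.Agent.T2

variable (𝔓 : FFPlace) (H : Subgroup 𝔓.I) [H.FiniteIndex]

/-- `O_H` is a discrete valuation ring (local instance) -/
theorem t2i_dvr : IsDiscreteValuationRing ↥(tbFixO 𝔓 H) := tbFixO_dvr 𝔓 H

/-- the residue field is algebraically closed (local instance) -/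
theorem t2i_isAlgClosed : IsAlgClosed (IsLocalRing.ResidueField ↥𝔓.P) :=
  tb_isAlgClosed_residueField 𝔓.P

/-- the residue field has characteristic `𝔓.p` (local instance) -/
theorem t2i_charP : CharP (IsLocalRing.ResidueField ↥𝔓.P) 𝔓.p := tkr_charP_residue 𝔓.hp 𝔓.hP

/-- `𝔓.p` is prime (local instance) -/
theorem t2i_fact : Fact 𝔓.p.Prime := ⟨𝔓.hp⟩

attribute [local instance] t2i_dvr t2i_isAlgClosed t2i_charP t2i_fact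

theorem t2i_natCast_ne_zero {N : ℕ} (hN : ¬ 𝔓.p ∣ N) :
    ((N : ℕ) : IsLocalRing.ResidueField ↥𝔓.P) ≠ 0 := fun h =>
  hN ((CharP.cast_eq_zero_iff (IsLocalRing.ResidueField ↥𝔓.P) 𝔓.p N).mp h)

/-! ### The one-valuation base at level `N`, `𝔓.p ∤ N` -/

section One

variable (N : ℕ) [NeZero N] (hN : ¬ 𝔓.p ∣ N)

/-- **the base of level `N` over `L_H`** -/
def t2iBaseFix : T2Base ↥(tbFix 𝔓 H) ↥(tbLevF 𝔓 N H) (IsLocalRing.ResidueField ↥𝔓.P)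
    ↥(tbBarF 𝔓 N) :=
  t2iBase (tbFixO 𝔓 H) (tbFixRes 𝔓 H) (tbFixRes_surjective 𝔓 H) N (t2i_natCast_ne_zero 𝔓 hN)

theorem t2iBaseFix_A : (t2iBaseFix 𝔓 H N hN).A = tbFixO 𝔓 H := rfl

theorem t2iBaseFix_resA : (t2iBaseFix 𝔓 H N hN).resA = tbFixRes 𝔓 H := rfl

theorem mem_t2iBaseFix_Ov (f : ↥(tbLevF 𝔓 N H)) :
    f ∈ (t2iBaseFix 𝔓 H N hN).Ov ↔
      TbGauss (tbFixO 𝔓 H) (tbFixRes 𝔓 H) (f : LaurentSeries ↥(tbFix 𝔓 H)) := Iff.rfl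

theorem coe_t2iBaseFix_res (f : ↥(tbLevF 𝔓 N H)) (hf : f ∈ (t2iBaseFix 𝔓 H N hN).Ov) :
    (((t2iBaseFix 𝔓 H N hN).res ⟨f, hf⟩ : ↥(tbBarF 𝔓 N)) :
      LaurentSeries (IsLocalRing.ResidueField ↥𝔓.P)) =
      tbRhoFun (tbFixO 𝔓 H) (tbFixRes 𝔓 H) (f : LaurentSeries ↥(tbFix 𝔓 H)) :=
  (tbf_rhoFun_eq (tbFixO 𝔓 H) (tbFixRes 𝔓 H) _).symm

theorem t2iBaseFix_res_surjective : Function.Surjective (t2iBaseFix 𝔓 H N hN).res :=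
  t2iBase_res_surjective (tbFixO 𝔓 H) (tbFixRes 𝔓 H) (tbFixRes_surjective 𝔓 H) N
    (t2i_natCast_ne_zero 𝔓 hN)

end One

/-! ### The two-valuation base at level `N' * 𝔓.p` -/

section Two

variable (N' : ℕ) [NeZero N'] (h : ¬ 𝔓.p ∣ N')

/-- the Atkin–Lehner data at level `H` (lead's `t2wLev`) -/
def t2iALFix : T2iAL ↥(tbFix 𝔓 H) N' 𝔓.p where
  w := t2wLev 𝔓 H N' 𝔓.p h
  w_alpha := t2wLev_alpha 𝔓 H N' 𝔓.p h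
  w_w := t2wLev_t2wLev 𝔓 H N' 𝔓.p h

/-- the Frobenius data on the residue side -/
def t2iFrobFix : T2iFrob (IsLocalRing.ResidueField ↥𝔓.P) N' 𝔓.p where
  Φ := (t2fePhi (IsLocalRing.ResidueField ↥𝔓.P) 𝔓.p N' : _ →+* _)
  coe_Φ := coe_t2fePhi (IsLocalRing.ResidueField ↥𝔓.P) 𝔓.p N'
  kron := t2kr_kron 𝔓.p

/-- **the two-valuation base of level `N' * 𝔓.p` over `L_H`** -/
def t2iBase2Fix : T2Base ↥(tbFix 𝔓 H) ↥(tbLevF 𝔓 (N' * 𝔓.p) H) (IsLocalRing.ResidueField ↥𝔓.P)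
    (↥(tbBarF 𝔓 N') × ↥(tbBarF 𝔓 N')) :=
  t2iBase2 (tbFixO 𝔓 H) (tbFixRes 𝔓 H) (tbFixRes_surjective 𝔓 H) (t2i_natCast_ne_zero 𝔓 h)
    (t2iALFix 𝔓 H N' h) (t2iFrobFix 𝔓 N')

theorem t2iBase2Fix_A : (t2iBase2Fix 𝔓 H N' h).A = tbFixO 𝔓 H := rfl

theorem t2iBase2Fix_resA : (t2iBase2Fix 𝔓 H N' h).resA = tbFixRes 𝔓 H := rfl

theorem mem_t2iBase2Fix_Ov (f : ↥(tbLevF 𝔓 (N' * 𝔓.p) H)) :
    f ∈ (t2iBase2Fix 𝔓 H N' h).Ov ↔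
      TbGauss (tbFixO 𝔓 H) (tbFixRes 𝔓 H) (f : LaurentSeries ↥(tbFix 𝔓 H)) ∧
      TbGauss (tbFixO 𝔓 H) (tbFixRes 𝔓 H)
        ((t2wLev 𝔓 H N' 𝔓.p h f : ↥(tbLevF 𝔓 (N' * 𝔓.p) H)) : LaurentSeries ↥(tbFix 𝔓 H)) :=
  Iff.rfl

theorem coe_t2iBase2Fix_res_fst (f : ↥(tbLevF 𝔓 (N' * 𝔓.p) H))
    (hf : f ∈ (t2iBase2Fix 𝔓 H N' h).Ov) :
    ((((t2iBase2Fix 𝔓 H N' h).res ⟨f, hf⟩).1 : ↥(tbBarF 𝔓 N')) :
      LaurentSeries (IsLocalRing.ResidueField ↥𝔓.P)) =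
      tbRhoFun (tbFixO 𝔓 H) (tbFixRes 𝔓 H) (f : LaurentSeries ↥(tbFix 𝔓 H)) :=
  (tbf_rhoFun_eq (tbFixO 𝔓 H) (tbFixRes 𝔓 H) _).symm

theorem coe_t2iBase2Fix_res_snd (f : ↥(tbLevF 𝔓 (N' * 𝔓.p) H))
    (hf : f ∈ (t2iBase2Fix 𝔓 H N' h).Ov) :
    ((((t2iBase2Fix 𝔓 H N' h).res ⟨f, hf⟩).2 : ↥(tbBarF 𝔓 N')) :
      LaurentSeries (IsLocalRing.ResidueField ↥𝔓.P)) =
      tbRhoFun (tbFixO 𝔓 H) (tbFixRes 𝔓 H)
        ((t2wLev 𝔓 H N' 𝔓.p h f : ↥(tbLevF 𝔓 (N' * 𝔓.p) H)) : LaurentSeries ↥(tbFix 𝔓 H)) :=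
  (tbf_rhoFun_eq (tbFixO 𝔓 H) (tbFixRes 𝔓 H) _).symm

end Two

end Fermat.Agent.T2
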