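/-
T2-C (C-d) (helper5), abstract part: the ideal of the "Frobenius-fixed points".

`R` a commutative algebra over an algebraically closed field `k`, `I` an ideal of finite codimension,
`ψ : R → R` a ring endomorphism with `ψ(I) ⊆ I` and `f ≡ (ψ f)ⁿ mod I` for all `f` (`n ≥ 2`; in the
application `θ = Φ²`, `θ f = (ψ f)^{q²}`, `I = ⟨f - θ f⟩`).  Then `R ⧸ I` is reduced, hence a finite
product of copies of `k`: there are a finite type `σ` and a surjective `ev : R →ₐ[k] (σ → k)` with
kernel exactly `I` (`t2c_exists_ev_of_root`).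
-/
import Mathlib

set_option autoImplicit false
set_option linter.unusedSectionVars false
set_option linter.style.haveILetI false

namespace Fermat.Agent.T2

section Reduced

variable {A : Type*} [CommRing A]

/-- a ring with nilpotent nilradical in which every element is an `n`-th power of its image under
a ring endomorphism (`n ≥ 2`) is reduced -/
theorem t2c_isReduced_of_root (hN : IsNilpotent (nilradical A)) (ψ : A →+* A) (n : ℕ)
    (hn : 2 ≤ n) (h : ∀ a : A, a = ψ a ^ n) : IsReduced A := by
  obtain ⟨s, hs⟩ := hN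
  refine ⟨fun a ha => ?_⟩
  have key : ∀ r : ℕ, ∃ b : A, IsNilpotent b ∧ a = b ^ n ^ r := by
    intro r
    induction r with
    | zero => exact ⟨a, ha, by rw [pow_zero, pow_one]⟩
    | succ r ih =>
      obtain ⟨b, hb, hab⟩ := ih
      refine ⟨ψ b, ?_, ?_⟩
      · have : IsNilpotent (ψ b ^ n) := by rw [← h b]; exact hb
        exact this.of_pow
      · rw [hab, pow_succ', pow_mul, ← h b]
  obtain ⟨b, hb, hab⟩ := key s
  have hle : s ≤ n ^ s := (Nat.lt_pow_self (by omega : 1 < n)).le
  have hmem : b ^ n ^ s ∈ nilradical A ^ s :=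
    Ideal.pow_le_pow_right hle (Ideal.pow_mem_pow (mem_nilradical.mpr hb) _)
  rw [hs] at hmem
  rw [hab]
  exact hmem

end Reduced

section Ev

variable {k A : Type*} [Field k] [IsAlgClosed k] [CommRing A] [Algebra k A]
  [FiniteDimensional k A]

/-- the residue field of a maximal ideal of a finite-dimensional algebra over an algebraically
closed field is the base field -/
noncomputable def t2cResEquiv (m : MaximalSpectrum A) : k ≃ₐ[k] A ⧸ m.asIdeal :=
  letI : Field (A ⧸ m.asIdeal) := Ideal.Quotient.field m.asIdeal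
  AlgEquiv.ofBijective (Algebra.ofId k (A ⧸ m.asIdeal))
    (IsAlgClosed.algebraMap_bijective_of_isIntegral)

/-- the evaluation at the maximal ideals -/
noncomputable def t2cEvA : A →ₐ[k] (MaximalSpectrum A → k) :=
  AlgHom.pi (R := k) (A := fun _ : MaximalSpectrum A => k) (fun m =>
    ((t2cResEquiv (k := k) m).symm.toAlgHom).comp (Ideal.Quotient.mkₐ k m.asIdeal))

theorem t2cEvA_apply (a : A) (m : MaximalSpectrum A) :
    t2cEvA (k := k) a m = (t2cResEquiv m).symm (Ideal.Quotient.mk m.asIdeal a) := rfl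

theorem t2cEvA_bijective [IsReduced A] : Function.Bijective (t2cEvA (k := k) (A := A)) := by
  haveI : IsArtinianRing A := IsArtinianRing.of_finite k A
  constructor
  · rw [injective_iff_map_eq_zero]
    intro a ha
    apply (IsArtinianRing.equivPi A).injective
    rw [map_zero]
    funext m
    rw [IsArtinianRing.equivPi_apply, Pi.zero_apply]
    have := congrFun ha m
    rw [t2cEvA_apply, Pi.zero_apply, map_eq_zero_iff _ (t2cResEquiv m).symm.injective] at this
    exact this
  · intro g
    obtain ⟨a, ha⟩ := (IsArtinianRing.equivPi A).surjective (fun m => t2cResEquiv m (g m))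
    refine ⟨a, ?_⟩
    funext m
    rw [t2cEvA_apply]
    have := congrFun ha m
    rw [IsArtinianRing.equivPi_apply] at this
    rw [this, AlgEquiv.symm_apply_apply]

end Ev

section Main

universe u

variable {k : Type*} {R : Type u} [Field k] [IsAlgClosed k] [CommRing R] [Algebra k R]

/-- **the node ideal**: `R ⧸ I ≅ k^σ` -/
theorem t2c_exists_ev_of_root (I : Ideal R) [FiniteDimensional k (R ⧸ I)] (ψ : R →+* R)
    (hψ : ∀ f ∈ I, ψ f ∈ I) (n : ℕ) (hn : 2 ≤ n) (h : ∀ f : R, f - ψ f ^ n ∈ I) :
    ∃ (σ : Type u) (_ : Fintype σ) (ev : R →ₐ[k] (σ → k)),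
      Function.Surjective ev ∧ ∀ r : R, ev r = 0 ↔ r ∈ I := by
  haveI : IsArtinianRing (R ⧸ I) := IsArtinianRing.of_finite k (R ⧸ I)
  let ψb : (R ⧸ I) →+* (R ⧸ I) := Ideal.quotientMap I ψ (fun f hf => Ideal.mem_comap.mpr (hψ f hf))
  have hroot : ∀ a : R ⧸ I, a = ψb a ^ n := by
    intro a
    obtain ⟨f, rfl⟩ := Ideal.Quotient.mk_surjective a
    show _ = (Ideal.quotientMap I ψ _ (Ideal.Quotient.mk I f)) ^ n
    rw [Ideal.quotientMap_mk, ← map_pow, ← sub_eq_zero, ← map_sub, Ideal.Quotient.eq_zero_iff_mem]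
    exact h f
  haveI : IsReduced (R ⧸ I) :=
    t2c_isReduced_of_root IsArtinianRing.isNilpotent_nilradical ψb n hn hroot
  haveI : Fintype (MaximalSpectrum (R ⧸ I)) := Fintype.ofFinite _
  refine ⟨MaximalSpectrum (R ⧸ I), inferInstance,
    (t2cEvA (k := k) (A := R ⧸ I)).comp (Ideal.Quotient.mkₐ k I), ?_, ?_⟩
  · exact (t2cEvA_bijective (k := k) (A := R ⧸ I)).2.comp (Ideal.Quotient.mkₐ_surjective k I)
  · intro r
    rw [AlgHom.comp_apply, map_eq_zero_iff _ (t2cEvA_bijective (k := k) (A := R ⧸ I)).1,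
      Ideal.Quotient.mkₐ_eq_mk, Ideal.Quotient.eq_zero_iff_mem]

end Main

end Fermat.Agent.T2
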