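/-
T2-C (C-d) (helper5): the node data `ev`, `hJ` of `T2Setup` for a residue ring `Fb = E × E`.

`E` a field over an algebraically closed field `k`, `Φ : E → E` a `k`-linear ring endomorphism
("relative Frobenius", `Φ² f = (ψ f)ⁿ`), `x₁ ∈ E` a chart with `Φ x₁ ∈ k[x₁]`, `x̄ = (x₁, Φ x₁)`.
`R₁ = t2R x₁ = IntCl_E(k[x₁])`, `I₁ = ⟨f - Φ² f : f ∈ R₁⟩`.
* `t2c_isIntegral_fst/snd`: the components of an element of `E₁ × E₂` integral over `k[(x₁, x₂)]`;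
* `t2c_prod_mem`: `I₁ × I₁ ⊆ S₁` for a subalgebra `S₁ ⊆ E × E` containing `(f, Φ f)`, `(Φ f, f)`,
  `f ∈ R₁`;
* `t2c_finiteDimensional_quot`: `R₁ ⧸ I₁` is finite-dimensional if `R₁` is a finite `k[x₁]`-module
  and `x₁ ∈ I₁`;
* **`t2c_node_setup`**: `∃ σ ev, ∀ r ∈ t2R x̄, ev r = 0 → r ∈ S₁`.
-/
import Fermat.Agent.Lib.T2.Inst.NodeIdeal
import Fermat.Agent.Lib.T2.Core.Sing
import Fermat.Agent.Lib.T2.Desc.Int

set_option autoImplicit false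
set_option linter.unusedSectionVars false
set_option linter.style.haveILetI false

namespace Fermat.Agent.T2

open Polynomial

section Prod

variable {k E₁ E₂ : Type*} [CommRing k] [CommRing E₁] [CommRing E₂] [Algebra k E₁] [Algebra k E₂]

theorem t2c_isIntegral_fst {x t : E₁ × E₂} (h : IsIntegral ↥(Algebra.adjoin k {x}) t) :
    IsIntegral ↥(Algebra.adjoin k {x.1}) t.1 := by
  have := t2d_isIntegral_map (RingHom.id k) (RingHom.fst E₁ E₂) (fun _ => rfl) h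
  exact this

theorem t2c_isIntegral_snd {x t : E₁ × E₂} (h : IsIntegral ↥(Algebra.adjoin k {x}) t) :
    IsIntegral ↥(Algebra.adjoin k {x.2}) t.2 := by
  have := t2d_isIntegral_map (RingHom.id k) (RingHom.snd E₁ E₂) (fun _ => rfl) h
  exact this

end Prod

section Change

variable {k E : Type*} [CommRing k] [CommRing E] [Algebra k E]

/-- integrality over `k[y]` implies integrality over `k[x]` if `y ∈ k[x]` -/
theorem t2c_isIntegral_of_mem_adjoin {x y t : E} (hy : y ∈ Algebra.adjoin k {x})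
    (h : IsIntegral ↥(Algebra.adjoin k {y}) t) : IsIntegral ↥(Algebra.adjoin k {x}) t := by
  rw [Algebra.adjoin_singleton_eq_range_aeval] at hy
  obtain ⟨p, rfl⟩ := hy
  rw [t2d_isIntegral_adjoin_iff] at h ⊢
  obtain ⟨d, q, hq⟩ := h
  refine ⟨d, fun i => (q i).comp p, ?_⟩
  simp only [Polynomial.aeval_comp]
  exact hq

end Change

section Mem

variable {k E : Type*} [Field k] [Field E] [Algebra k E] (Φ : E →+* E) (R₁ : Subalgebra k E)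
  (hΦR : ∀ r ∈ R₁, Φ r ∈ R₁)

/-- `Φ²` on `R₁` -/
def t2cTheta : ↥R₁ →+* ↥R₁ :=
  ((Φ.comp Φ).comp R₁.val.toRingHom).codRestrict R₁.toSubring
    (fun r => hΦR _ (hΦR _ r.2))

theorem coe_t2cTheta (r : ↥R₁) : ((t2cTheta Φ R₁ hΦR r : ↥R₁) : E) = Φ (Φ (r : E)) := rfl

/-- the ideal of `R₁` generated by the `f - Φ² f` -/
def t2cI : Ideal ↥R₁ := Ideal.span (Set.range fun f : ↥R₁ => f - t2cTheta Φ R₁ hΦR f)

theorem t2c_sub_theta_mem (f : ↥R₁) : f - t2cTheta Φ R₁ hΦR f ∈ t2cI Φ R₁ hΦR :=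
  Ideal.subset_span ⟨f, rfl⟩

variable (S₁ : Subalgebra k (E × E)) (hα : ∀ f ∈ R₁, (f, Φ f) ∈ S₁) (hβ : ∀ f ∈ R₁, (Φ f, f) ∈ S₁)

include hα hβ

theorem t2c_left_mem {r : ↥R₁} (hr : r ∈ t2cI Φ R₁ hΦR) : ((r : E), (0 : E)) ∈ S₁ := by
  have hr' : r ∈ Submodule.span ↥R₁ (Set.range fun f : ↥R₁ => f - t2cTheta Φ R₁ hΦR f) := hr
  refine Submodule.span_induction (p := fun (r : ↥R₁) _ => ((r : E), (0 : E)) ∈ S₁) ?_ ?_ ?_ ?_ hr'
  · rintro _ ⟨f, rfl⟩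
    have h1 := hα f f.2
    have h2 := hβ (Φ f) (hΦR _ f.2)
    have := S₁.sub_mem h1 h2
    simpa [coe_t2cTheta] using this
  · exact S₁.zero_mem
  · intro a b _ _ ha hb
    have := S₁.add_mem ha hb
    simpa using this
  · intro a r _ hr
    have := S₁.mul_mem (hα a a.2) hr
    simpa using this

theorem t2c_right_mem {r : ↥R₁} (hr : r ∈ t2cI Φ R₁ hΦR) : ((0 : E), (r : E)) ∈ S₁ := by
  have hr' : r ∈ Submodule.span ↥R₁ (Set.range fun f : ↥R₁ => f - t2cTheta Φ R₁ hΦR f) := hr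
  refine Submodule.span_induction (p := fun (r : ↥R₁) _ => ((0 : E), (r : E)) ∈ S₁) ?_ ?_ ?_ ?_ hr'
  · rintro _ ⟨f, rfl⟩
    have h1 := hβ f f.2
    have h2 := hα (Φ f) (hΦR _ f.2)
    have := S₁.sub_mem h1 h2
    simpa [coe_t2cTheta] using this
  · exact S₁.zero_mem
  · intro a b _ _ ha hb
    have := S₁.add_mem ha hb
    simpa using this
  · intro a r _ hr
    have := S₁.mul_mem (hβ a a.2) hr
    simpa using this

/-- **`I₁ × I₁ ⊆ S₁`** -/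
theorem t2c_prod_mem {r₁ r₂ : ↥R₁} (h₁ : r₁ ∈ t2cI Φ R₁ hΦR) (h₂ : r₂ ∈ t2cI Φ R₁ hΦR) :
    ((r₁ : E), (r₂ : E)) ∈ S₁ := by
  have := S₁.add_mem (t2c_left_mem Φ R₁ hΦR S₁ hα hβ h₁) (t2c_right_mem Φ R₁ hΦR S₁ hα hβ h₂)
  simpa using this

end Mem

section Setup

universe u

variable {k : Type*} {E : Type u} [Field k] [Field E] [Algebra k E]
  (Φ ψ : E →+* E) (τ : k →+* k) (x₁ : E)
  (hΦk : ∀ c : k, Φ (algebraMap k E c) = algebraMap k E c)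
  (hψk : ∀ c : k, ψ (algebraMap k E c) = algebraMap k E (τ c))
  (hΦx : Φ x₁ ∈ Algebra.adjoin k {x₁}) (hψx : ψ x₁ = x₁)

include hΦk hΦx in
theorem t2c_Phi_mem_t2R {r : E} (hr : r ∈ t2R (k := k) x₁) : Φ r ∈ t2R (k := k) x₁ := by
  rw [mem_t2R] at hr ⊢
  exact t2c_isIntegral_of_mem_adjoin hΦx (t2d_isIntegral_map (RingHom.id k) Φ hΦk hr)

include hψk hψx in
theorem t2c_psi_mem_t2R {r : E} (hr : r ∈ t2R (k := k) x₁) : ψ r ∈ t2R (k := k) x₁ := by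
  rw [mem_t2R] at hr ⊢
  have := t2d_isIntegral_map τ ψ hψk hr
  rwa [hψx] at this

/-- `ψ` on `R₁` -/
def t2cPsiR : ↥(t2R (k := k) x₁) →+* ↥(t2R (k := k) x₁) :=
  (ψ.comp (t2R (k := k) x₁).val.toRingHom).codRestrict (t2R (k := k) x₁).toSubring
    (fun r => t2c_psi_mem_t2R ψ τ x₁ hψk hψx r.2)

theorem coe_t2cPsiR (r : ↥(t2R (k := k) x₁)) :
    ((t2cPsiR ψ τ x₁ hψk hψx r : ↥(t2R (k := k) x₁)) : E) = ψ (r : E) := rfl

/-- the first projection `t2R (x₁, x₂) → t2R x₁` -/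
def t2cPr₁ (x₂ : E) : ↥(t2R (k := k) ((x₁, x₂) : E × E)) →ₐ[k] ↥(t2R (k := k) x₁) :=
  ((AlgHom.fst k E E).comp (t2R (k := k) ((x₁, x₂) : E × E)).val).codRestrict (t2R (k := k) x₁)
    (fun r => by
      have h : IsIntegral ↥(Algebra.adjoin k {((x₁, x₂) : E × E).1}) (r : E × E).1 :=
        t2c_isIntegral_fst r.2
      exact h)

theorem coe_t2cPr₁ (x₂ : E) (r : ↥(t2R (k := k) ((x₁, x₂) : E × E))) :
    ((t2cPr₁ x₁ x₂ r : ↥(t2R (k := k) x₁)) : E) = (r : E × E).1 := rfl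

/-- the second projection `t2R (x₁, x₂) → t2R x₁`, for `x₂ ∈ k[x₁]` -/
def t2cPr₂ (x₂ : E) (hx₂ : x₂ ∈ Algebra.adjoin k {x₁}) :
    ↥(t2R (k := k) ((x₁, x₂) : E × E)) →ₐ[k] ↥(t2R (k := k) x₁) :=
  ((AlgHom.snd k E E).comp (t2R (k := k) ((x₁, x₂) : E × E)).val).codRestrict (t2R (k := k) x₁)
    (fun r => by
      have h : IsIntegral ↥(Algebra.adjoin k {((x₁, x₂) : E × E).2}) (r : E × E).2 :=
        t2c_isIntegral_snd r.2
      have h' : IsIntegral ↥(Algebra.adjoin k {x₁}) (r : E × E).2 :=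
        t2c_isIntegral_of_mem_adjoin hx₂ h
      exact h')

theorem coe_t2cPr₂ (x₂ : E) (hx₂ : x₂ ∈ Algebra.adjoin k {x₁})
    (r : ↥(t2R (k := k) ((x₁, x₂) : E × E))) :
    ((t2cPr₂ x₁ x₂ hx₂ r : ↥(t2R (k := k) x₁)) : E) = (r : E × E).2 := rfl

variable [IsAlgClosed k] (n : ℕ) (hn : 2 ≤ n) (hθ : ∀ f : E, Φ (Φ f) = ψ f ^ n)
  (hcomm : ∀ f : E, ψ (Φ f) = Φ (ψ f))

include hψk hψx hn hθ hcomm in
/-- **the node data of `T2Setup`** for `Fb = E × E`, `x̄ = (x₁, Φ x₁)`: an evaluation map on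
`t2R x̄` whose kernel lies in any subalgebra `S₁` containing `(f, Φ f)` and `(Φ f, f)`, `f ∈ R₁` -/
theorem t2c_node_setup
    (hfin : FiniteDimensional k (↥(t2R (k := k) x₁) ⧸
      t2cI Φ (t2R (k := k) x₁) (fun _ hr => t2c_Phi_mem_t2R Φ x₁ hΦk hΦx hr)))
    (S₁ : Subalgebra k (E × E)) (hα : ∀ f ∈ t2R (k := k) x₁, (f, Φ f) ∈ S₁)
    (hβ : ∀ f ∈ t2R (k := k) x₁, (Φ f, f) ∈ S₁) :
    ∃ (σ : Type u) (_ : Fintype σ)
      (ev : ↥(t2R (k := k) ((x₁, Φ x₁) : E × E)) →ₐ[k] (σ → k)),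
      ∀ r, ev r = 0 → (r : E × E) ∈ S₁ := by
  have hΦR : ∀ r ∈ t2R (k := k) x₁, Φ r ∈ t2R (k := k) x₁ :=
    fun _ hr => t2c_Phi_mem_t2R Φ x₁ hΦk hΦx hr
  set I₁ := t2cI Φ (t2R (k := k) x₁) hΦR with hI₁
  have hψθ : ∀ f : ↥(t2R (k := k) x₁),
      t2cPsiR ψ τ x₁ hψk hψx (t2cTheta Φ _ hΦR f) = t2cTheta Φ _ hΦR (t2cPsiR ψ τ x₁ hψk hψx f) := by
    intro f
    apply Subtype.ext
    rw [coe_t2cPsiR, coe_t2cTheta, coe_t2cTheta, coe_t2cPsiR, hcomm, hcomm]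
  have hψI : ∀ f ∈ I₁, t2cPsiR ψ τ x₁ hψk hψx f ∈ I₁ := by
    have hle : I₁ ≤ I₁.comap (t2cPsiR ψ τ x₁ hψk hψx) := by
      rw [hI₁, t2cI, Ideal.span_le]
      rintro _ ⟨f, rfl⟩
      show t2cPsiR ψ τ x₁ hψk hψx (f - t2cTheta Φ _ hΦR f) ∈ t2cI Φ _ hΦR
      rw [map_sub, hψθ]
      exact t2c_sub_theta_mem Φ _ hΦR _
    exact fun f hf => hle hf
  have hroot : ∀ f : ↥(t2R (k := k) x₁), f - t2cPsiR ψ τ x₁ hψk hψx f ^ n ∈ I₁ := by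
    intro f
    have : t2cPsiR ψ τ x₁ hψk hψx f ^ n = t2cTheta Φ _ hΦR f := by
      apply Subtype.ext
      rw [SubmonoidClass.coe_pow, coe_t2cPsiR, coe_t2cTheta, hθ]
    rw [this]
    exact t2c_sub_theta_mem Φ _ hΦR f
  obtain ⟨σ₁, hσ₁, ev₁, -, hker⟩ :=
    t2c_exists_ev_of_root (k := k) I₁ (t2cPsiR ψ τ x₁ hψk hψx) hψI n hn hroot
  let p₁ := t2cPr₁ (k := k) x₁ (Φ x₁)
  let p₂ := t2cPr₂ (k := k) x₁ (Φ x₁) hΦx
  refine ⟨σ₁ ⊕ σ₁, inferInstance,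
    AlgHom.pi (R := k) (A := fun _ : σ₁ ⊕ σ₁ => k) (fun s => Sum.rec
      (fun a => (Pi.evalAlgHom k (fun _ : σ₁ => k) a).comp (ev₁.comp p₁))
      (fun b => (Pi.evalAlgHom k (fun _ : σ₁ => k) b).comp (ev₁.comp p₂)) s), ?_⟩
  intro r hr
  have h1 : ev₁ (p₁ r) = 0 := by
    funext a
    exact congrFun hr (Sum.inl a)
  have h2 : ev₁ (p₂ r) = 0 := by
    funext b
    exact congrFun hr (Sum.inr b)
  rw [hker] at h1 h2
  exact t2c_prod_mem Φ _ hΦR S₁ hα hβ h1 h2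

end Setup

end Fermat.Agent.T2
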