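/-
T2-C (helper9): the symmetric chart of the two-valuation base `d = t2iBase2` at a DVR level.

Generic setting of `KronH.lean`: `(L, O, π, k)`, `char k = q`, `N'` invertible in `k`, `F = TaF L (N' * q)`,
`W : T2iAL L N' q` (Atkin–Lehner), `Fr : T2iFrob k N' q`, `d := t2iBase2 O π hπ hN' W Fr`.

* `t2i_mem_Ov_iff`, `t2i_w_mem_Ov`, `t2i_res_w` (`res (w f) = swap (res f)`), `t2i_inv_mem_Ov`, `t2i_res_inv`;
* the elements `J = j`, `Y = j(q^q) = w J`, `X = J^(q^2) - J`, `Xs = X * w X` (the symmetric chart),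
  `Eps = (Y^q - J) / X`, with their residues
  `res J = (j̄, j̄^q)`, `res X = (x̄, x̄^q)`, `res Xs = (ξ, ξ)` (`ξ = x̄^(q+1)`), `res Eps = (1, 0)`;
* `t2i_res_surjective`: `res : 𝒪 → E × E` is surjective.
-/
import Fermat.Agent.Lib.T2.Inst.KronH
import Fermat.Agent.Lib.T2.Inst.KronSer

set_option autoImplicit false
set_option linter.unusedSectionVars false
set_option linter.unusedVariables false
set_option linter.style.haveILetI false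
set_option synthInstance.maxHeartbeats 400000

open HahnSeries ModularCurve Fermat.Agent.T1 IntermediateField

noncomputable section

namespace Fermat.Agent.T2

variable {L : Type*} [Field L] [Algebra ℚ L] (O : ValuationSubring L) {k : Type*} [Field k]
  (π : ↥O →+* k) [IsDiscreteValuationRing ↥O] (hπ : Function.Surjective π) [IsAlgClosed k]
  {N' q : ℕ} [NeZero N'] [hq : Fact q.Prime] [CharP k q] (hN' : (N' : k) ≠ 0)
  (W : T2iAL L N' q) (Fr : T2iFrob k N' q)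

attribute [local instance] t2iAlgebra t2i_isScalarTower

/-! ### Membership and residues -/

theorem t2i_mem_Ov_iff (f : ↥(TaF L (N' * q))) :
    f ∈ (t2iBase2 O π hπ hN' W Fr).Ov ↔
      f ∈ taOv O π hπ (N' * q) ∧ W.w f ∈ taOv O π hπ (N' * q) := Iff.rfl

theorem t2i_w_mem_Ov {f : ↥(TaF L (N' * q))} (hf : f ∈ (t2iBase2 O π hπ hN' W Fr).Ov) :
    W.w f ∈ (t2iBase2 O π hπ hN' W Fr).Ov := by
  rw [t2i_mem_Ov_iff] at hf ⊢
  refine ⟨hf.2, ?_⟩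
  rw [W.w_w]
  exact hf.1

theorem t2i_coe_res_fst {f : ↥(TaF L (N' * q))} (hf : f ∈ (t2iBase2 O π hπ hN' W Fr).Ov) :
    ((((t2iBase2 O π hπ hN' W Fr).res ⟨f, hf⟩).1 : ↥(modularFunctionFieldFullC k N')) :
      LaurentSeries k) = taResN O π hπ (N' * q) ⟨f, hf.1⟩ := rfl

theorem t2i_coe_res_snd {f : ↥(TaF L (N' * q))} (hf : f ∈ (t2iBase2 O π hπ hN' W Fr).Ov) :
    ((((t2iBase2 O π hπ hN' W Fr).res ⟨f, hf⟩).2 : ↥(modularFunctionFieldFullC k N')) :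
      LaurentSeries k) = taResN O π hπ (N' * q) ⟨W.w f, hf.2⟩ := rfl

/-- `res (w f) = swap (res f)` -/
theorem t2i_res_w {f : ↥(TaF L (N' * q))} (hf : f ∈ (t2iBase2 O π hπ hN' W Fr).Ov) :
    (t2iBase2 O π hπ hN' W Fr).res ⟨W.w f, t2i_w_mem_Ov O π hπ hN' W Fr hf⟩ =
      ((t2iBase2 O π hπ hN' W Fr).res ⟨f, hf⟩).swap := by
  apply Prod.ext
  · apply Subtype.ext
    rw [t2i_coe_res_fst, Prod.fst_swap, t2i_coe_res_snd]
  · apply Subtype.ext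
    rw [t2i_coe_res_snd, Prod.snd_swap, t2i_coe_res_fst]
    congr 1
    exact Subtype.ext (W.w_w f)

/-- an element of `𝒪` whose two residues are non-zero is a unit of `𝒪` -/
theorem t2i_inv_mem_Ov {f : ↥(TaF L (N' * q))} (hf : f ∈ (t2iBase2 O π hπ hN' W Fr).Ov)
    (h1 : ((t2iBase2 O π hπ hN' W Fr).res ⟨f, hf⟩).1 ≠ 0)
    (h2 : ((t2iBase2 O π hπ hN' W Fr).res ⟨f, hf⟩).2 ≠ 0) :
    f⁻¹ ∈ (t2iBase2 O π hπ hN' W Fr).Ov := by
  rw [t2i_mem_Ov_iff]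
  constructor
  · apply inv_mem_taOv_of_taResN_ne_zero O π hπ (N' * q) ⟨f, hf.1⟩
    intro h0
    apply h1
    apply Subtype.ext
    rw [t2i_coe_res_fst, h0]
    rfl
  · rw [map_inv₀]
    apply inv_mem_taOv_of_taResN_ne_zero O π hπ (N' * q) ⟨W.w f, hf.2⟩
    intro h0
    apply h2
    apply Subtype.ext
    rw [t2i_coe_res_snd, h0]
    rfl

theorem t2i_res_inv {f : ↥(TaF L (N' * q))} (hf : f ∈ (t2iBase2 O π hπ hN' W Fr).Ov)
    (hfi : f⁻¹ ∈ (t2iBase2 O π hπ hN' W Fr).Ov) (hf0 : f ≠ 0) :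
    (t2iBase2 O π hπ hN' W Fr).res ⟨f⁻¹, hfi⟩ =
      ((((t2iBase2 O π hπ hN' W Fr).res ⟨f, hf⟩).1)⁻¹,
        (((t2iBase2 O π hπ hN' W Fr).res ⟨f, hf⟩).2)⁻¹) := by
  have hmul : (⟨f, hf⟩ : ↥(t2iBase2 O π hπ hN' W Fr).Ov) * ⟨f⁻¹, hfi⟩ = 1 :=
    Subtype.ext (mul_inv_cancel₀ hf0)
  have h := congrArg (t2iBase2 O π hπ hN' W Fr).res hmul
  rw [map_mul, map_one] at h
  have h1 := congrArg Prod.fst h
  have h2 := congrArg Prod.snd h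
  rw [Prod.fst_mul, Prod.fst_one] at h1
  rw [Prod.snd_mul, Prod.snd_one] at h2
  exact Prod.ext (eq_inv_of_mul_eq_one_right h1) (eq_inv_of_mul_eq_one_right h2)

/-- residues of elements of the lower level -/
theorem t2i_res_alpha (b : ↥(t2iBase O π hπ N' hN').Ov) :
    ∃ hb : algebraMap ↥(TaF L N') ↥(TaF L (N' * q)) (b : ↥(TaF L N')) ∈
        (t2iBase2 O π hπ hN' W Fr).Ov,
      (t2iBase2 O π hπ hN' W Fr).res ⟨_, hb⟩ =
        ((t2iBase O π hπ N' hN').res b, Fr.Φ ((t2iBase O π hπ N' hN').res b)) :=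
  ⟨(t2iInput O π hπ hN' W Fr).α_mem_Ov b, (t2iInput O π hπ hN' W Fr).res_α b⟩

/-! ### The elements `J`, `Y`, `X`, `Xs`, `Eps` -/

variable (L N' q)

/-- `x = j^(q²) - j` -/
def t2iX : ↥(TaF L (N' * q)) := taJ (N' * q) ^ (q ^ 2) - taJ (N' * q)

variable {L N' q}

/-- the symmetric chart `x_s = x · w x` -/
def t2iXs : ↥(TaF L (N' * q)) := t2iX L N' q * W.w (t2iX L N' q)

/-- `ε = (Y^q - j) / x`, with residue `(1, 0)` -/
def t2iEps : ↥(TaF L (N' * q)) :=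
  (t2iY L N' q ^ q - taJ (N' * q)) * (t2iX L N' q)⁻¹

variable (k N' q)

/-- `x̄ = j̄^(q²) - j̄ ∈ E` -/
def t2iXb : ↥(modularFunctionFieldFullC k N') := t2iJb k N' ^ (q ^ 2) - t2iJb k N'

variable {k N' q}

theorem t2iXb_ne_zero : t2iXb k N' q ≠ 0 := by
  intro h
  have h1 := congrArg (Subtype.val : ↥(modularFunctionFieldFullC k N') → LaurentSeries k) h
  exact t2kr_xbar_ne_zero (k := k) q h1

theorem t2i_J_mem : taJ (N' * q) ∈ (t2iBase2 O π hπ hN' W Fr).Ov := by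
  have h := (t2iInput O π hπ hN' W Fr).α_mem_Ov
    ⟨taJ N', taJ_mem_taOv O π hπ N'⟩
  have h2 : algebraMap ↥(TaF L N') ↥(TaF L (N' * q)) (taJ N') = taJ (N' * q) :=
    t2i_alpha_taJ N' q
  rw [← h2]
  exact h

theorem t2i_Y_mem : t2iY L N' q ∈ (t2iBase2 O π hπ hN' W Fr).Ov :=
  (t2iInput O π hπ hN' W Fr).Y_mem_Ov

theorem t2i_res_Y : (t2iBase2 O π hπ hN' W Fr).res ⟨t2iY L N' q, t2i_Y_mem O π hπ hN' W Fr⟩ =
    (t2iYb k N' q, t2iJb k N') :=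
  (t2iInput O π hπ hN' W Fr).res_Y

theorem t2iYb_eq : t2iYb k N' q = t2iJb k N' ^ q := by
  apply Subtype.ext
  rw [SubmonoidClass.coe_pow]
  exact (t2i_jq_pow k q).symm

theorem t2i_res_J : (t2iBase2 O π hπ hN' W Fr).res ⟨taJ (N' * q), t2i_J_mem O π hπ hN' W Fr⟩ =
    (t2iJb k N', t2iJb k N' ^ q) := by
  have h1 : taJ (N' * q) = W.w (t2iY L N' q) := (W.w_Y).symm
  have h2 := t2i_res_w O π hπ hN' W Fr (t2i_Y_mem O π hπ hN' W Fr)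
  rw [t2i_res_Y, Prod.swap_prod_mk, t2iYb_eq] at h2
  rw [← h2]
  congr 1
  exact Subtype.ext h1

theorem t2i_X_mem : t2iX L N' q ∈ (t2iBase2 O π hπ hN' W Fr).Ov :=
  Subring.sub_mem _ (Subring.pow_mem _ (t2i_J_mem O π hπ hN' W Fr) _) (t2i_J_mem O π hπ hN' W Fr)

theorem t2i_res_X : (t2iBase2 O π hπ hN' W Fr).res ⟨t2iX L N' q, t2i_X_mem O π hπ hN' W Fr⟩ =
    (t2iXb k N' q, t2iXb k N' q ^ q) := by
  have h1 : (⟨t2iX L N' q, t2i_X_mem O π hπ hN' W Fr⟩ : ↥(t2iBase2 O π hπ hN' W Fr).Ov) =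
      ⟨taJ (N' * q), t2i_J_mem O π hπ hN' W Fr⟩ ^ (q ^ 2) -
        ⟨taJ (N' * q), t2i_J_mem O π hπ hN' W Fr⟩ := rfl
  rw [h1, map_sub, map_pow, t2i_res_J]
  apply Prod.ext
  · rfl
  · show (t2iJb k N' ^ q) ^ (q ^ 2) - t2iJb k N' ^ q = (t2iJb k N' ^ (q ^ 2) - t2iJb k N') ^ q
    haveI : CharP ↥(modularFunctionFieldFullC k N') q :=
      charP_of_injective_algebraMap (algebraMap k ↥(modularFunctionFieldFullC k N')).injective q
    rw [sub_pow_char, ← pow_mul, ← pow_mul, mul_comm]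

theorem t2i_X_ne_zero : t2iX L N' q ≠ 0 := by
  intro h0
  have h1 := congrArg (Subtype.val : ↥(TaF L (N' * q)) → LaurentSeries L) h0
  have hq2 : 2 ≤ q ^ 2 := by
    have := hq.out.two_le
    nlinarith
  have h2 : jqModC L ^ (q ^ 2) - jqModC L ≠ 0 := by
    intro h3
    have hord : (jqModC L ^ (q ^ 2)).order = (jqModC L).order := by
      rw [sub_eq_zero] at h3
      rw [h3]
    rw [t2kr_order_jqModC_pow, ← pow_one (jqModC L), t2kr_order_jqModC_pow] at hord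
    have : ((q ^ 2 : ℕ) : ℤ) = 1 := by
      push_cast at hord ⊢
      linarith
    have : q ^ 2 = 1 := by exact_mod_cast this
    omega
  exact h2 h1

theorem t2i_wX_mem : W.w (t2iX L N' q) ∈ (t2iBase2 O π hπ hN' W Fr).Ov :=
  t2i_w_mem_Ov O π hπ hN' W Fr (t2i_X_mem O π hπ hN' W Fr)

theorem t2i_Xs_mem : t2iXs W ∈ (t2iBase2 O π hπ hN' W Fr).Ov :=
  Subring.mul_mem _ (t2i_X_mem O π hπ hN' W Fr) (t2i_wX_mem O π hπ hN' W Fr)

/-- `res x_s = (ξ, ξ)`, `ξ = x̄^(q+1)` -/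
theorem t2i_res_Xs : (t2iBase2 O π hπ hN' W Fr).res ⟨t2iXs W, t2i_Xs_mem O π hπ hN' W Fr⟩ =
    (t2iXb k N' q ^ (q + 1), t2iXb k N' q ^ (q + 1)) := by
  have h1 : (⟨t2iXs W, t2i_Xs_mem O π hπ hN' W Fr⟩ : ↥(t2iBase2 O π hπ hN' W Fr).Ov) =
      ⟨t2iX L N' q, t2i_X_mem O π hπ hN' W Fr⟩ *
        ⟨W.w (t2iX L N' q), t2i_wX_mem O π hπ hN' W Fr⟩ := rfl
  rw [h1, map_mul, t2i_res_w O π hπ hN' W Fr (t2i_X_mem O π hπ hN' W Fr), t2i_res_X,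
    Prod.swap_prod_mk]
  apply Prod.ext
  · show t2iXb k N' q * t2iXb k N' q ^ q = _
    rw [pow_succ, mul_comm]
  · show t2iXb k N' q ^ q * t2iXb k N' q = _
    rw [pow_succ]

theorem t2i_w_Xs : W.w (t2iXs W) = t2iXs W := by
  show W.w (t2iX L N' q * W.w (t2iX L N' q)) = t2iX L N' q * W.w (t2iX L N' q)
  rw [map_mul, W.w_w]
  exact mul_comm _ _

theorem t2i_Xs_ne_zero : t2iXs W ≠ 0 := by
  have h0 : t2iX L N' q ≠ 0 := t2i_X_ne_zero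
  exact mul_ne_zero h0 (fun h => h0 ((map_eq_zero_iff _ W.w.injective).mp h))

theorem t2i_Xs_inv_mem : (t2iXs W)⁻¹ ∈ (t2iBase2 O π hπ hN' W Fr).Ov := by
  apply t2i_inv_mem_Ov O π hπ hN' W Fr (t2i_Xs_mem O π hπ hN' W Fr)
  · rw [t2i_res_Xs]
    exact pow_ne_zero _ t2iXb_ne_zero
  · rw [t2i_res_Xs]
    exact pow_ne_zero _ t2iXb_ne_zero

theorem t2i_res_Xs_inv :
    (t2iBase2 O π hπ hN' W Fr).res ⟨(t2iXs W)⁻¹, t2i_Xs_inv_mem O π hπ hN' W Fr⟩ =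
      ((t2iXb k N' q ^ (q + 1))⁻¹, (t2iXb k N' q ^ (q + 1))⁻¹) := by
  rw [t2i_res_inv O π hπ hN' W Fr (t2i_Xs_mem O π hπ hN' W Fr) _
    (t2i_Xs_ne_zero W), t2i_res_Xs]

theorem t2i_X_inv_mem : (t2iX L N' q)⁻¹ ∈ (t2iBase2 O π hπ hN' W Fr).Ov := by
  apply t2i_inv_mem_Ov O π hπ hN' W Fr (t2i_X_mem O π hπ hN' W Fr)
  · rw [t2i_res_X]
    exact t2iXb_ne_zero
  · rw [t2i_res_X]
    exact pow_ne_zero _ t2iXb_ne_zero

theorem t2i_Eps_mem : t2iEps (L := L) (N' := N') (q := q) ∈ (t2iBase2 O π hπ hN' W Fr).Ov :=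
  Subring.mul_mem _
    (Subring.sub_mem _ (Subring.pow_mem _ (t2i_Y_mem O π hπ hN' W Fr) _)
      (t2i_J_mem O π hπ hN' W Fr))
    (t2i_X_inv_mem O π hπ hN' W Fr)

/-- **`res ε = (1, 0)`** -/
theorem t2i_res_Eps :
    (t2iBase2 O π hπ hN' W Fr).res ⟨t2iEps (L := L) (N' := N') (q := q),
      t2i_Eps_mem O π hπ hN' W Fr⟩ = (1, 0) := by
  have h1 : (⟨t2iEps (L := L) (N' := N') (q := q), t2i_Eps_mem O π hπ hN' W Fr⟩ :
      ↥(t2iBase2 O π hπ hN' W Fr).Ov) =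
      (⟨t2iY L N' q, t2i_Y_mem O π hπ hN' W Fr⟩ ^ q -
        ⟨taJ (N' * q), t2i_J_mem O π hπ hN' W Fr⟩) *
        ⟨(t2iX L N' q)⁻¹, t2i_X_inv_mem O π hπ hN' W Fr⟩ := rfl
  rw [h1, map_mul, map_sub, map_pow, t2i_res_Y, t2i_res_J,
    t2i_res_inv O π hπ hN' W Fr (t2i_X_mem O π hπ hN' W Fr) _ t2i_X_ne_zero,
    t2i_res_X, t2iYb_eq]
  apply Prod.ext
  · show ((t2iJb k N' ^ q) ^ q - t2iJb k N') * (t2iXb k N' q)⁻¹ = 1
    rw [← pow_mul, ← sq]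
    exact mul_inv_cancel₀ t2iXb_ne_zero
  · show (t2iJb k N' ^ q - t2iJb k N' ^ q) * (t2iXb k N' q ^ q)⁻¹ = 0
    rw [sub_self, zero_mul]

/-! ### Surjectivity of the residue map -/

/-- **`res : 𝒪 → E × E` is surjective** -/
theorem t2i_res_surjective : Function.Surjective (t2iBase2 O π hπ hN' W Fr).res := by
  rintro ⟨t₁, t₂⟩
  obtain ⟨b₁, hb₁⟩ := t2iBase_res_surjective O π hπ N' hN' t₁
  obtain ⟨b₂, hb₂⟩ := t2iBase_res_surjective O π hπ N' hN' t₂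
  obtain ⟨h1, hr1⟩ := t2i_res_alpha O π hπ hN' W Fr b₁
  obtain ⟨h2, hr2⟩ := t2i_res_alpha O π hπ hN' W Fr b₂
  set e : ↥(t2iBase2 O π hπ hN' W Fr).Ov :=
    ⟨t2iEps (L := L) (N' := N') (q := q), t2i_Eps_mem O π hπ hN' W Fr⟩ with he
  set a₁ : ↥(t2iBase2 O π hπ hN' W Fr).Ov := ⟨_, h1⟩ with ha₁
  set a₂ : ↥(t2iBase2 O π hπ hN' W Fr).Ov :=
    ⟨W.w _, t2i_w_mem_Ov O π hπ hN' W Fr h2⟩ with ha₂
  refine ⟨e * a₁ + (1 - e) * a₂, ?_⟩
  have hra₂ : (t2iBase2 O π hπ hN' W Fr).res a₂ =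
      (Fr.Φ ((t2iBase O π hπ N' hN').res b₂), (t2iBase O π hπ N' hN').res b₂) := by
    rw [ha₂, t2i_res_w O π hπ hN' W Fr h2, hr2, Prod.swap_prod_mk]
  rw [map_add, map_mul, map_mul, map_sub, map_one, he, t2i_res_Eps, ha₁, hr1, hra₂, hb₁, hb₂]
  apply Prod.ext
  · show (1 : ↥(modularFunctionFieldFullC k N')) * t₁ + (1 - 1) * Fr.Φ t₂ = t₁
    ring
  · show (0 : ↥(modularFunctionFieldFullC k N')) * Fr.Φ t₁ + (1 - 0) * t₂ = t₂
    ring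

end Fermat.Agent.T2
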