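/-
T2-C, LEAF CP (helper3): the cusp package.  In the function field `F_N` of `X₀(N)` over `ℚ̄`
(`N = q N'`), the function `Y = j(dτ)` (`d ∣ N`) is integral over `ℚ̄[j]`, and `Y / j^d` is integral
over `ℚ̄[1/j]` (the pole order of `j(dτ)` at every cusp is at most `d` times the pole order of `j`).
Route: `ta_isIntegral_of_regular` + the place dictionary of `Lib/T1/Dict`.
-/
import Mathlib
import Fermat.Agent.Lib.T1.Dict.DictBwd
import Fermat.Agent.Lib.T1.GoodRed.PoleIntP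
import Fermat.Agent.Lib.T1.Inst.IntUp

set_option autoImplicit false
set_option linter.unusedSectionVars false
set_option linter.style.haveILetI false
set_option linter.unusedVariables false

namespace Fermat.Agent.T2

open Fermat.Agent.S24Lib Fermat.Agent.T1 ModularCurve
open UpperHalfPlane Matrix MatrixGroups CongruenceSubgroup WithZero ModularGroup
open AlgebraicCurve Fermat.Agent.Curve Fermat.Agent.Curve.GaloisAux Fermat.Agent.Curve.PlaceAux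
open Fermat.Agent.ES (IsQLaurentable qLaurent)
open Fermat.Agent.S22Lib (intGL)
attribute [local instance] KMod.charZero_k

local notation "Qb" => AlgebraicClosure ℚ

/-! ### The pole order of `j ∘ A` at `∞` -/

/-- the `q_N`-expansion of `j ∘ A` has order at least `-N det A` -/
theorem t2cp_order_jMat (N : ℕ) [NeZero N] (A : Matrix (Fin 2) (Fin 2) ℤ) (hA : 0 < A.det)
    (hdvd : A.det ∣ (N : ℤ)) :
    -((N : ℤ) * A.det) ≤ (qLaurent N (jMat A hA)).order := by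
  have hN : (0 : ℤ) < N := by exact_mod_cast Nat.pos_of_ne_zero (NeZero.ne N)
  by_cases h0 : qLaurent N (jMat A hA) = 0
  · rw [h0, HahnSeries.order_zero]
    have : 0 ≤ (N : ℤ) * A.det := mul_nonneg hN.le hA.le
    omega
  obtain ⟨a, b, d, ha, hd, hU, hdet, heq⟩ := jMat_eq_upper A hA
  have hdN : d ∣ (N : ℤ) := Dvd.dvd.trans ⟨a, by rw [hdet]; ring⟩ hdvd
  obtain ⟨k, hk⟩ := hdN
  have hkpos : 0 < k := by
    rw [hk] at hN
    exact (pos_iff_pos_of_mul_pos hN).mp hd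
  have he : (((k * a).toNat : ℕ) : ℤ) * d = N * a := by
    rw [Int.toNat_of_nonneg (mul_pos hkpos ha).le, hk]; ring
  have hcoeff := (qLaurent_jFun_comp_upper a b d ha hd hU N _ he).2
  have hfun : jMat !![a, b; 0, d] hU = fun τ => jFun (intGL !![a, b; 0, d] hU • τ) := rfl
  rw [heq, hfun] at h0 ⊢
  rw [HahnSeries.le_order_iff_forall h0]
  intro m hm
  rw [hcoeff m]
  split_ifs with hdm
  · obtain ⟨t, rfl⟩ := hdm
    have hepos : (0 : ℤ) < ((k * a).toNat : ℕ) := by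
      rw [Int.toNat_of_nonneg (mul_pos hkpos ha).le]
      exact mul_pos hkpos ha
    rw [Int.mul_ediv_cancel_left t hepos.ne']
    have hle : (((k * a).toNat : ℕ) : ℤ) ≤ N * A.det := by
      rw [hdet, ← mul_assoc, ← he]
      have hd1 : (1 : ℤ) ≤ d := hd
      have h1 : (((k * a).toNat : ℕ) : ℤ) ≤ (((k * a).toNat : ℕ) : ℤ) * d :=
        le_mul_of_one_le_right hepos.le hd1
      have h2 : (((k * a).toNat : ℕ) : ℤ) * d ≤ (((k * a).toNat : ℕ) : ℤ) * d * d :=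
        le_mul_of_one_le_right (mul_nonneg hepos.le hd.le) hd1
      exact h1.trans h2
    have ht : t < -1 := by
      by_contra hcon
      push Not at hcon
      have : -(((k * a).toNat : ℕ) : ℤ) ≤ (((k * a).toNat : ℕ) : ℤ) * t := by nlinarith
      omega
    rw [coeff_jqModC_of_lt ℂ ht, mul_zero]
  · rfl

variable (𝕜 : Type) [Field 𝕜] [IsAlgClosed 𝕜] [Algebra 𝕜 ℂ] [Algebra ℚ 𝕜] (N : ℕ) [NeZero N]

/-- the `q_N`-expansion of `j(d γ τ)` has order at least `-N d` -/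
theorem t2cp_order_jGenL {d : ℕ+} (hd : (d : ℕ) ∣ N) (γ : SL(2, ℤ)) :
    -((N : ℤ) * (d : ℕ)) ≤ (KMod.modFieldQL 𝕜 N (KMod.jGenL 𝕜 N hd γ)).order := by
  rw [KMod.jGenL, KMod.modFieldQL_algebraMap 𝕜, KMod.modRingQL_apply 𝕜]
  have h := t2cp_order_jMat N (diagMat d * (γ : Matrix (Fin 2) (Fin 2) ℤ))
    (det_diagMat_mul_pos d γ) (by rw [det_diagMat_mul]; exact_mod_cast hd)
  rw [det_diagMat_mul] at h
  exact h

/-! ### The places of `F_N` in analytic terms -/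

/-- every place of `F_N` is a cusp place (the order is, up to a positive factor, the order of the
`q_N`-expansion of `y ∘ γ⁻¹`) or a point place (the order is, up to a positive factor, the order
at a point of `ℍ`) -/
theorem t2cp_place_cases (P : Place 𝕜 (KMod.barField 𝕜 N)) :
    (∃ (γ : SL(2, ℤ)) (e : ℕ), 0 < e ∧ ∀ y : KMod.barField 𝕜 N, y ≠ 0 →
      (KMod.modFieldQL 𝕜 N (KMod.modRep 𝕜 N γ (KMod.mdF 𝕜 N y))).order = (e : ℤ) * P.ord y) ∨
    (∃ (τ : ℍ) (E : ℕ), 0 < E ∧ ∀ y : KMod.barField 𝕜 N,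
      tdmOrd τ (KMod.toMer 𝕜 N (KMod.mdF 𝕜 N y)) = (E : ℤ) * P.ord y) := by
  obtain ⟨v, rfl⟩ := KMod.exists_barPlace_eq 𝕜 N P
  rcases KMod.place_cases 𝕜 N v with ⟨γ, rfl⟩ | ⟨a, τ₀, ha, γ, -, -, rfl⟩
  · left
    obtain ⟨e, he, h⟩ := KMod.exists_ord_barPlace 𝕜 N (KMod.modRep 𝕜 N γ • KMod.inftyPlace 𝕜 N)
    refine ⟨γ⁻¹, e, he, fun y hy => ?_⟩
    rw [← h y]
    exact (KMod.smul_inftyPlace_ord 𝕜 N γ _ (KMod.mdF_ne_zero 𝕜 N hy)).symm
  · right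
    have ha' : (algebraMap 𝕜 ℂ) a = jFun (γ • τ₀) := by rw [ha, jFun_smul]
    rw [KMod.smul_pointPlace 𝕜 N γ τ₀ a ha ha']
    obtain ⟨E, hE, h⟩ := KMod.exists_tdmOrd_eq_mul_barPlace 𝕜 N (γ • τ₀) a ha'
    exact ⟨γ • τ₀, E, hE, h⟩

/-! ### The function `j(dτ)` -/

/-- `j(dτ)` as an element of `F_N`, `d ∣ N` -/
noncomputable def t2cpY (d : ℕ) [NeZero d] (hd : d ∣ N) : KMod.barField 𝕜 N :=
  ⟨qExpand 𝕜 d (jqModC 𝕜), by
    have h : coeffEmb 𝕜 (qExpand ℚ d jq) = qExpand 𝕜 d (jqModC 𝕜) := by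
      rw [coeffEmb, coeffMap_qExpand]
      congr 1
      exact map_jqModC (algebraMap ℚ 𝕜)
    rw [← h]
    exact coeffEmb_mem_laurentBaseChange 𝕜 (jqd_mem_full N hd)⟩

theorem coe_t2cpY (d : ℕ) [NeZero d] (hd : d ∣ N) :
    ((t2cpY 𝕜 N d hd : KMod.barField 𝕜 N) : LaurentSeries 𝕜) = qExpand 𝕜 d (jqModC 𝕜) := rfl

theorem t2cpY_ne_zero (d : ℕ) [NeZero d] (hd : d ∣ N) : t2cpY 𝕜 N d hd ≠ 0 := by
  intro h
  have h1 := congrArg (fun y : KMod.barField 𝕜 N => (y : LaurentSeries 𝕜)) h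
  simp only [coe_t2cpY, ZeroMemClass.coe_zero] at h1
  rw [map_eq_zero_iff _ (qExpand 𝕜 d).injective] at h1
  exact jqModC_ne_zero_of_nontrivial 𝕜 h1

/-- in the analytic model, `j(dτ)` is the generator `jGenL d 1` -/
theorem t2cp_mdF_Y (d : ℕ+) (hd : (d : ℕ) ∣ N) :
    KMod.mdF 𝕜 N (t2cpY 𝕜 N (d : ℕ) hd) = KMod.jGenL 𝕜 N hd 1 := by
  apply KMod.modFieldQL_injective 𝕜 N
  rw [KMod.mdF, KMod.modFieldQL_modIso 𝕜, KMod.modFieldQL_jGenL_one 𝕜, coe_t2cpY,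
    coeffMap_qExpand, coeffMap_jqModC]

theorem t2cp_mdF_jBar : KMod.mdF 𝕜 N (KMod.jBar 𝕜 N) = KMod.jL 𝕜 N := KMod.modIso_jBar 𝕜 N

theorem t2cp_jBar_ne_zero : KMod.jBar 𝕜 N ≠ 0 := by
  intro h
  have h1 := congrArg (fun y : KMod.barField 𝕜 N => (y : LaurentSeries 𝕜)) h
  simp only [KMod.coe_jBar, ZeroMemClass.coe_zero] at h1
  exact jqModC_ne_zero_of_nontrivial 𝕜 h1

/-- the order of the `q_N`-expansion of `j ∘ γ` -/
theorem t2cp_order_jL (γ : SL(2, ℤ)) :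
    (KMod.modFieldQL 𝕜 N (KMod.modRep 𝕜 N γ (KMod.jL 𝕜 N))).order = -(N : ℤ) := by
  rw [KMod.modRep_jL 𝕜, KMod.jL, KMod.modFieldQL_algebraMap 𝕜, KMod.modRingQL_jR 𝕜,
    order_qExpand N (jqModC_ne_zero_of_nontrivial ℂ), order_jqModC]
  ring

/-- **at the places where `j` is regular, so is `j(dτ)`** -/
theorem t2cp_ord_Y_nonneg (d : ℕ+) (hd : (d : ℕ) ∣ N) (P : Place 𝕜 (KMod.barField 𝕜 N))
    (hP : 0 ≤ P.ord (KMod.jBar 𝕜 N)) : 0 ≤ P.ord (t2cpY 𝕜 N (d : ℕ) hd) := by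
  have hN : (0 : ℤ) < N := by exact_mod_cast Nat.pos_of_ne_zero (NeZero.ne N)
  rcases t2cp_place_cases 𝕜 N P with ⟨γ, e, he, h⟩ | ⟨τ, E, hE, h⟩
  · exfalso
    have h1 := h (KMod.jBar 𝕜 N) (t2cp_jBar_ne_zero 𝕜 N)
    rw [t2cp_mdF_jBar, t2cp_order_jL] at h1
    have he' : (0 : ℤ) < e := by exact_mod_cast he
    have : 0 ≤ (e : ℤ) * P.ord (KMod.jBar 𝕜 N) := mul_nonneg he'.le hP
    omega
  · have h1 := h (t2cpY 𝕜 N (d : ℕ) hd)
    rw [t2cp_mdF_Y, KMod.jGenL, KMod.tdmOrd_toMer_algebraMap 𝕜 N τ] at h1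
    · have hE' : (0 : ℤ) < E := by exact_mod_cast hE
      by_contra hcon
      push Not at hcon
      have : (E : ℤ) * P.ord (t2cpY 𝕜 N (d : ℕ) hd) < 0 := mul_neg_of_pos_of_neg hE' hcon
      omega
    · intro h0
      have h2 := KMod.mdF_ne_zero 𝕜 N (t2cpY_ne_zero 𝕜 N (d : ℕ) hd)
      rw [t2cp_mdF_Y, KMod.jGenL, h0, map_zero] at h2
      exact h2 rfl

/-- **at the places where `1/j` is regular, so is `j(dτ) / j^d`** -/
theorem t2cp_ord_Y_div_nonneg (d : ℕ+) (hd : (d : ℕ) ∣ N) (P : Place 𝕜 (KMod.barField 𝕜 N))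
    (hP : 0 ≤ P.ord (KMod.jBar 𝕜 N)⁻¹) :
    0 ≤ P.ord (t2cpY 𝕜 N (d : ℕ) hd * (KMod.jBar 𝕜 N)⁻¹ ^ (d : ℕ)) := by
  have hN : (0 : ℤ) < N := by exact_mod_cast Nat.pos_of_ne_zero (NeZero.ne N)
  have hJ0 := t2cp_jBar_ne_zero 𝕜 N
  have hY0 := t2cpY_ne_zero 𝕜 N (d : ℕ) hd
  rw [Place.ord_inv] at hP
  rw [Place.ord_mul P hY0 (pow_ne_zero _ (inv_ne_zero hJ0)), ← zpow_natCast, Place.ord_zpow,
    Place.ord_inv]
  rcases t2cp_place_cases 𝕜 N P with ⟨γ, e, he, h⟩ | ⟨τ, E, hE, h⟩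
  · have h1 := h (KMod.jBar 𝕜 N) hJ0
    rw [t2cp_mdF_jBar, t2cp_order_jL] at h1
    have h2 := h (t2cpY 𝕜 N (d : ℕ) hd) hY0
    rw [t2cp_mdF_Y, KMod.modRep_jGenL 𝕜] at h2
    have h3 := t2cp_order_jGenL 𝕜 N hd (1 * γ⁻¹)
    rw [h2] at h3
    have he' : (0 : ℤ) < e := by exact_mod_cast he
    -- `e * ord Y ≥ -N d = d * (e * ord J)`
    have h4 : (e : ℤ) * ((d : ℕ) * P.ord (KMod.jBar 𝕜 N)) ≤ (e : ℤ) * P.ord (t2cpY 𝕜 N (d : ℕ) hd) := by
      have : (e : ℤ) * ((d : ℕ) * P.ord (KMod.jBar 𝕜 N)) = -((N : ℤ) * (d : ℕ)) := by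
        rw [mul_left_comm, ← h1]; ring
      rw [this]
      exact h3
    have h5 := le_of_mul_le_mul_left h4 he'
    linarith
  · have h1 := h (KMod.jBar 𝕜 N)
    rw [t2cp_mdF_jBar, KMod.jL, KMod.tdmOrd_toMer_algebraMap 𝕜 N τ (KMod.jR_ne_zero 𝕜 N)] at h1
    have hE' : (0 : ℤ) < E := by exact_mod_cast hE
    have hJ : P.ord (KMod.jBar 𝕜 N) = 0 := by
      have : 0 ≤ (E : ℤ) * P.ord (KMod.jBar 𝕜 N) := by rw [← h1]; positivity
      have h6 : 0 ≤ P.ord (KMod.jBar 𝕜 N) := by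
        by_contra hcon
        push Not at hcon
        have := mul_neg_of_pos_of_neg hE' hcon
        omega
      omega
    have hY := t2cp_ord_Y_nonneg 𝕜 N d hd P (by rw [hJ])
    rw [hJ]
    simpa using hY

/-! ### The integrality statements over `ℚ̄` -/

section Final

variable (N : ℕ) [NeZero N]

theorem t2cp_tbJ_eq : tbJ N = KMod.jBar Qb N := rfl

theorem t2cp_isFunctionFieldGen_tbJ :
    IsFunctionFieldGen Qb ↥(modularFunctionFieldBar N) (tbJ N) :=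
  Fermat.Agent.S24Lib.isFunctionFieldGen_jBar N

theorem t2cp_isSeparable_tbJ :
    Algebra.IsSeparable ↥(IntermediateField.adjoin Qb {tbJ N}) ↥(modularFunctionFieldBar N) := by
  haveI := (t2cp_isFunctionFieldGen_tbJ N).finite
  haveI : CharZero ↥(IntermediateField.adjoin Qb {tbJ N}) :=
    charZero_of_injective_algebraMap
      (algebraMap Qb ↥(IntermediateField.adjoin Qb {tbJ N})).injective
  infer_instance

theorem t2cp_isSeparable_tbJ_inv :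
    Algebra.IsSeparable ↥(IntermediateField.adjoin Qb {(tbJ N)⁻¹})
      ↥(modularFunctionFieldBar N) := by
  haveI := (CurveP.isFunctionFieldGen_inv (t2cp_isFunctionFieldGen_tbJ N)).finite
  haveI : CharZero ↥(IntermediateField.adjoin Qb {(tbJ N)⁻¹}) :=
    charZero_of_injective_algebraMap
      (algebraMap Qb ↥(IntermediateField.adjoin Qb {(tbJ N)⁻¹})).injective
  infer_instance

/-- `j(dτ)` as an element of the function field of `X₀(N)` over `ℚ̄`, `d ∣ N` -/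
noncomputable def t2cpYq (d : ℕ) [NeZero d] (hd : d ∣ N) : ↥(modularFunctionFieldBar N) :=
  t2cpY Qb N d hd

theorem coe_t2cpYq (d : ℕ) [NeZero d] (hd : d ∣ N) :
    ((t2cpYq N d hd : ↥(modularFunctionFieldBar N)) : LaurentSeries Qb)
      = qExpand Qb d (jqModC Qb) := rfl

theorem t2cpYq_ne_zero (d : ℕ) [NeZero d] (hd : d ∣ N) : t2cpYq N d hd ≠ 0 :=
  t2cpY_ne_zero Qb N d hd

/-- **(I1)** `j(dτ)` is integral over `ℚ̄[j]` -/
theorem t2cp_isIntegral_Y (d : ℕ) [NeZero d] (hd : d ∣ N) :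
    IsIntegral ↥(Algebra.adjoin Qb {tbJ N}) (t2cpYq N d hd) := by
  haveI := t2cp_isSeparable_tbJ N
  refine ta_isIntegral_of_regular (t2cp_isFunctionFieldGen_tbJ N) _ (fun v hv => ?_)
  exact t2cp_ord_Y_nonneg Qb N ⟨d, Nat.pos_of_ne_zero (NeZero.ne d)⟩ hd v hv

/-- **(I2)** `j(dτ) / j^d` is integral over `ℚ̄[1/j]`: the pole order of `j(dτ)` at every cusp is
at most `d` times the pole order of `j` -/
theorem t2cp_isIntegral_Y_div (d : ℕ) [NeZero d] (hd : d ∣ N) :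
    IsIntegral ↥(Algebra.adjoin Qb {(tbJ N)⁻¹}) (t2cpYq N d hd * (tbJ N)⁻¹ ^ d) := by
  haveI := t2cp_isSeparable_tbJ_inv N
  refine ta_isIntegral_of_regular (CurveP.isFunctionFieldGen_inv (t2cp_isFunctionFieldGen_tbJ N))
    _ (fun v hv => ?_)
  exact t2cp_ord_Y_div_nonneg Qb N ⟨d, Nat.pos_of_ne_zero (NeZero.ne d)⟩ hd v hv

/-- (I1) in the shape `N = q N'` -/
theorem t2cp_isIntegral_Y_mul (N' q : ℕ) [NeZero N'] [NeZero q] :
    IsIntegral ↥(Algebra.adjoin Qb {tbJ (q * N')}) (t2cpYq (q * N') q (dvd_mul_right q N')) :=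
  t2cp_isIntegral_Y (q * N') q (dvd_mul_right q N')

/-- (I2) in the shape `N = q N'` -/
theorem t2cp_isIntegral_Y_div_mul (N' q : ℕ) [NeZero N'] [NeZero q] :
    IsIntegral ↥(Algebra.adjoin Qb {(tbJ (q * N'))⁻¹})
      (t2cpYq (q * N') q (dvd_mul_right q N') * (tbJ (q * N'))⁻¹ ^ q) :=
  t2cp_isIntegral_Y_div (q * N') q (dvd_mul_right q N')

end Final

end Fermat.Agent.T2
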