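/-
T2-C, LEAF CP part 2 (helper3): the cusp package in the level convention `N' * q` of the
Atkin–Lehner package `Lib/T2/AL` (generators `t2wJd`), and its images under the Atkin–Lehner
involution `w_q`: with `J = j`, `Y = j(qτ)` in `F_{N' q}` over `ℚ̄`:
`Y` is integral over `ℚ̄[J]`, `Y / J^q` over `ℚ̄[1/J]`, `J` over `ℚ̄[Y]`, `J / Y^q` over `ℚ̄[1/Y]`.
-/
import Mathlib
import Fermat.Agent.Lib.T2.Inst.Cusp
import Fermat.Agent.Lib.T2.AL.Main

set_option autoImplicit false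
set_option linter.unusedSectionVars false
set_option linter.style.haveILetI false
set_option linter.unusedVariables false

namespace Fermat.Agent.T2

open Fermat.Agent.S24Lib Fermat.Agent.T1 ModularCurve
open AlgebraicCurve Fermat.Agent.Curve
attribute [local instance] KMod.charZero_k

local notation "Qb" => AlgebraicClosure ℚ

/-- an algebra automorphism transports integrality over `K[x]` to integrality over `K[w x]` -/
theorem t2cp_isIntegral_algEquiv {K F : Type*} [Field K] [Field F] [Algebra K F]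
    (w : F ≃ₐ[K] F) {x f : F} (hf : IsIntegral ↥(Algebra.adjoin K {x}) f) :
    IsIntegral ↥(Algebra.adjoin K {w x}) (w f) := by
  have hmap : ∀ a : F, a ∈ Algebra.adjoin K {x} → w a ∈ Algebra.adjoin K {w x} := by
    intro a ha
    have h1 : (Algebra.adjoin K {x}).map (w : F →ₐ[K] F) = Algebra.adjoin K {w x} := by
      rw [AlgHom.map_adjoin, Set.image_singleton]
      rfl
    rw [← h1]
    exact ⟨a, ha, rfl⟩
  let φ : ↥(Algebra.adjoin K {x}) →+* ↥(Algebra.adjoin K {w x}) :=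
    { toFun := fun a => ⟨w a, hmap a a.2⟩
      map_one' := Subtype.ext (map_one w)
      map_mul' := fun a b => Subtype.ext (map_mul w _ _)
      map_zero' := Subtype.ext (map_zero w)
      map_add' := fun a b => Subtype.ext (map_add w _ _) }
  exact IsIntegral.map_of_comp_eq φ (w : F →+* F) (by ext a; rfl) hf

section Gen

variable (𝕜 : Type) [Field 𝕜] [IsAlgClosed 𝕜] [Algebra 𝕜 ℂ] [Algebra ℚ 𝕜] (N : ℕ) [NeZero N]

/-- the two names of `j(dτ)` -/
theorem t2cpY_eq_t2wJd (d : ℕ) [NeZero d] (hd : d ∣ N) : t2cpY 𝕜 N d hd = t2wJd 𝕜 N d hd :=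
  Subtype.ext ((coe_t2cpY 𝕜 N d hd).trans (coe_t2wJd 𝕜 N d hd).symm)

theorem t2cp_t2wJd_one : t2wJd 𝕜 N 1 (one_dvd N) = KMod.jBar 𝕜 N := by
  apply Subtype.ext
  rw [coe_t2wJd 𝕜 N 1 (one_dvd N), KMod.coe_jBar, qExpand_one_apply]

end Gen

section Final

variable (N' q : ℕ) [NeZero N'] [hq : Fact q.Prime] (h : ¬ q ∣ N')

/-- `J = j` in `F_{N' q}` -/
noncomputable abbrev t2cpJ : ↥(modularFunctionFieldBar (N' * q)) := tbJ (N' * q)

/-- `Y = j(qτ)` in `F_{N' q}` -/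
noncomputable abbrev t2cpYw : ↥(modularFunctionFieldBar (N' * q)) :=
  t2wJd Qb (N' * q) q (dvd_mul_left q N')

theorem t2cpYw_eq : t2cpYw N' q = t2cpYq (N' * q) q (dvd_mul_left q N') :=
  (t2cpY_eq_t2wJd Qb (N' * q) q (dvd_mul_left q N')).symm

theorem t2cpJ_eq : t2cpJ N' q = t2wJd Qb (N' * q) 1 (one_dvd _) :=
  (t2cp_t2wJd_one Qb (N' * q)).symm

/-- **(I1)** `Y` is integral over `ℚ̄[J]` -/
theorem t2cp_isIntegral_Yw :
    IsIntegral ↥(Algebra.adjoin Qb {t2cpJ N' q}) (t2cpYw N' q) := by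
  rw [t2cpYw_eq]
  exact t2cp_isIntegral_Y (N' * q) q (dvd_mul_left q N')

/-- **(I2)** `Y / J^q` is integral over `ℚ̄[1/J]` -/
theorem t2cp_isIntegral_Yw_div :
    IsIntegral ↥(Algebra.adjoin Qb {(t2cpJ N' q)⁻¹}) (t2cpYw N' q * (t2cpJ N' q)⁻¹ ^ q) := by
  rw [t2cpYw_eq]
  exact t2cp_isIntegral_Y_div (N' * q) q (dvd_mul_left q N')

include h in
/-- `w_q J = Y` -/
theorem t2cp_t2w_J : t2w Qb N' q h (t2cpJ N' q) = t2cpYw N' q := by
  have h1 := t2w_jd₁ Qb N' q h (one_dvd N')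
  have e1 : t2wJd Qb (N' * q) 1 (t2w_dvd₁ N' q (one_dvd N')) = t2cpJ N' q :=
    (t2cpJ_eq N' q).symm
  have e2 : t2wJd Qb (N' * q) (q * 1) (t2w_dvd₂ N' q (one_dvd N')) = t2cpYw N' q := by
    apply Subtype.ext
    haveI : NeZero (q * 1) := ⟨by rw [mul_one]; exact hq.out.ne_zero⟩
    rw [coe_t2wJd Qb (N' * q) (q * 1), coe_t2wJd Qb (N' * q) q]
    simp only [mul_one]
  rw [e1, e2] at h1
  exact h1

include h in
/-- `w_q Y = J` -/
theorem t2cp_t2w_Y : t2w Qb N' q h (t2cpYw N' q) = t2cpJ N' q := by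
  rw [← t2cp_t2w_J N' q h, t2w_t2w]

include h in
/-- **(I1ʷ)** `J` is integral over `ℚ̄[Y]` -/
theorem t2cp_isIntegral_J_of_Y :
    IsIntegral ↥(Algebra.adjoin Qb {t2cpYw N' q}) (t2cpJ N' q) := by
  have h1 := t2cp_isIntegral_algEquiv (t2w Qb N' q h) (t2cp_isIntegral_Yw N' q)
  rw [t2cp_t2w_J N' q h, t2cp_t2w_Y N' q h] at h1
  exact h1

include h in
/-- **(I2ʷ)** `J / Y^q` is integral over `ℚ̄[1/Y]` -/
theorem t2cp_isIntegral_J_div_of_Y :
    IsIntegral ↥(Algebra.adjoin Qb {(t2cpYw N' q)⁻¹}) (t2cpJ N' q * (t2cpYw N' q)⁻¹ ^ q) := by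
  have h1 := t2cp_isIntegral_algEquiv (t2w Qb N' q h) (t2cp_isIntegral_Yw_div N' q)
  rw [map_mul, map_pow, map_inv₀, t2cp_t2w_J N' q h, t2cp_t2w_Y N' q h] at h1
  exact h1

end Final

end Fermat.Agent.T2
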