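/-
T2-C leaf (CA) (helper9): the chart algebra of the symmetric chart `x_s = x · w x`,
`x = J^Q - J`, `w x = Y^Q - Y` (`Y = w J = j(qτ)`), `Q = q²`, in the function field of `X₀(N' q)`:

* (CA1) `J` is integral over `K[x_s]`;
* (CA2) `1/x` is integral over `K[1/x_s]`;
* (CA3) `ε = (Y^q - J) / x` is integral over `K[1/x_s]`.

Abstract form (`t2ca_ca1/2/3`: any function field with the cusp package (I1), (I1ʷ), (I2)), the
instance over `ℚ̄` (`t2ca_bar_*`, from helper3's `Lib/T2/Inst/CuspAL.lean`), and the descent to the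
DVR levels `L_H` (`t2ca_lev_*`).
-/
import Fermat.Agent.Lib.T1.GoodRed.PoleIntP
import Fermat.Agent.Lib.Curve.PlaceRational
import Fermat.Agent.Lib.T2.Inst.CuspAL
import Fermat.Agent.Lib.T2.Inst.DegreeAL
import Fermat.Agent.Lib.T2.Desc.LevelMod
import Fermat.Agent.Lib.T2.Inst.ChartH
import Fermat.Agent.Lib.T2.Inst.LevelH

set_option autoImplicit false
set_option linter.unusedSectionVars false
set_option linter.unusedVariables false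
set_option linter.style.haveILetI false

open AlgebraicCurve IntermediateField Fermat.Agent.Curve Fermat.Agent.Curve.PlaceAux
  Fermat.Agent.T1

namespace Fermat.Agent.T2

section Abstract

variable {K F : Type*} [Field K] [Field F] [Algebra K F]

theorem t2ca_ord_pow (v : Place K F) (f : F) (n : ℕ) : v.ord (f ^ n) = n * v.ord f := by
  rw [← zpow_natCast, v.ord_zpow]

/-- `ord (J^Q - J) = Q ord J` at a pole of `J` -/
theorem t2ca_ord_pow_sub_of_neg (v : Place K F) {J : F} {Q : ℕ} (hQ : 2 ≤ Q)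
    (hJ : v.ord J < 0) : v.ord (J ^ Q - J) = Q * v.ord J := by
  have hJ0 : J ≠ 0 := fun h => by rw [h, v.ord_zero] at hJ; exact lt_irrefl _ hJ
  have h1 : v.ord (J ^ Q) = Q * v.ord J := t2ca_ord_pow v J Q
  have h2 : v.ord (J ^ Q) < v.ord (-J) := by
    rw [h1, PlaceAux.ord_neg]
    have hQ' : (2 : ℤ) ≤ Q := by exact_mod_cast hQ
    nlinarith
  rw [sub_eq_add_neg, ord_add_of_lt v (pow_ne_zero _ hJ0) h2, h1]

/-- `J^Q - J` is regular where `J` is -/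
theorem t2ca_ord_pow_sub_nonneg (v : Place K F) {J : F} (Q : ℕ) (hJ : 0 ≤ v.ord J) :
    0 ≤ v.ord (J ^ Q - J) := by
  have h := mem_of_ord_nonneg v hJ
  exact ord_nonneg_of_mem v (sub_mem (pow_mem h _) h)

variable {J Y : F} {q Q : ℕ}
  (i1 : IsIntegral ↥(Algebra.adjoin K {J}) Y) (i1w : IsIntegral ↥(Algebra.adjoin K {Y}) J)
  (hx0 : J ^ Q - J ≠ 0) (hy0 : Y ^ Q - Y ≠ 0)

include i1w hx0 hy0 in
/-- at a pole of `J` the symmetric chart has a pole -/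
theorem t2ca_ord_chart_neg (v : Place K F) (hQ : 2 ≤ Q) (hJ : v.ord J < 0) :
    v.ord ((J ^ Q - J) * (Y ^ Q - Y)) < 0 := by
  have hY : v.ord Y < 0 := by
    by_contra hY
    push Not at hY
    have := ta_ord_nonneg_of_isIntegral i1w v hY
    omega
  rw [v.ord_mul hx0 hy0, t2ca_ord_pow_sub_of_neg v hQ hJ, t2ca_ord_pow_sub_of_neg v hQ hY]
  have hQ' : (2 : ℤ) ≤ Q := by exact_mod_cast hQ
  nlinarith

include i1w hx0 hy0 in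
/-- **(CA1)** `J` is integral over `K[x_s]` -/
theorem t2ca_ca1 (hQ : 2 ≤ Q) (hxs : IsFunctionFieldGen K F ((J ^ Q - J) * (Y ^ Q - Y)))
    [Algebra.IsSeparable K⟮(J ^ Q - J) * (Y ^ Q - Y)⟯ F] :
    IsIntegral ↥(Algebra.adjoin K {(J ^ Q - J) * (Y ^ Q - Y)}) J := by
  refine ta_isIntegral_of_regular hxs J fun v hv => ?_
  by_contra hJ
  push Not at hJ
  have := t2ca_ord_chart_neg i1w hx0 hy0 v hQ hJ
  omega

include i1 i1w hx0 hy0 in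
/-- **(CA2)** `1/x` is integral over `K[1/x_s]` -/
theorem t2ca_ca2 (hQ : 2 ≤ Q) (hxs : IsFunctionFieldGen K F ((J ^ Q - J) * (Y ^ Q - Y))⁻¹)
    [Algebra.IsSeparable K⟮((J ^ Q - J) * (Y ^ Q - Y))⁻¹⟯ F] :
    IsIntegral ↥(Algebra.adjoin K {((J ^ Q - J) * (Y ^ Q - Y))⁻¹}) (J ^ Q - J)⁻¹ := by
  refine ta_isIntegral_of_regular hxs _ fun v hv => ?_
  rw [v.ord_inv] at hv ⊢
  by_contra hx
  push Not at hx
  have hJ : 0 ≤ v.ord J := by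
    by_contra hJ
    push Not at hJ
    have h1 := t2ca_ord_pow_sub_of_neg v hQ hJ
    have hQ' : (2 : ℤ) ≤ Q := by exact_mod_cast hQ
    nlinarith
  have hY : 0 ≤ v.ord Y := ta_ord_nonneg_of_isIntegral i1 v hJ
  have hy := t2ca_ord_pow_sub_nonneg v Q hY
  rw [v.ord_mul hx0 hy0] at hv
  omega

include i1 i1w hx0 hy0 in
/-- **(CA3)** `ε = (Y^q - J) / x` is integral over `K[1/x_s]`, for `Q = q²` -/
theorem t2ca_ca3 (hq : 1 ≤ q) (hQ : Q = q ^ 2) (hQ2 : 2 ≤ Q)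
    (i2 : IsIntegral ↥(Algebra.adjoin K {J⁻¹}) (Y * J⁻¹ ^ q))
    (hxs : IsFunctionFieldGen K F ((J ^ Q - J) * (Y ^ Q - Y))⁻¹)
    [Algebra.IsSeparable K⟮((J ^ Q - J) * (Y ^ Q - Y))⁻¹⟯ F] :
    IsIntegral ↥(Algebra.adjoin K {((J ^ Q - J) * (Y ^ Q - Y))⁻¹})
      ((Y ^ q - J) * (J ^ Q - J)⁻¹) := by
  refine ta_isIntegral_of_regular hxs _ fun v hv => ?_
  rw [v.ord_inv, v.ord_mul hx0 hy0] at hv
  rcases eq_or_ne (Y ^ q - J) 0 with ha | ha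
  · rw [ha, zero_mul, v.ord_zero]
  rw [v.ord_mul ha (inv_ne_zero hx0), v.ord_inv]
  rcases le_or_gt 0 (v.ord J) with hJ | hJ
  · -- not a cusp
    have hY : 0 ≤ v.ord Y := ta_ord_nonneg_of_isIntegral i1 v hJ
    have hx := t2ca_ord_pow_sub_nonneg v Q hJ
    have hy := t2ca_ord_pow_sub_nonneg v Q hY
    have h1 : 0 ≤ v.ord (Y ^ q - J) :=
      ord_nonneg_of_mem v (sub_mem (pow_mem (mem_of_ord_nonneg v hY) _) (mem_of_ord_nonneg v hJ))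
    omega
  · -- a cusp
    have hY : v.ord Y < 0 := by
      by_contra hY
      push Not at hY
      have := ta_ord_nonneg_of_isIntegral i1w v hY
      omega
    have hJ0 : J ≠ 0 := fun h => by rw [h, v.ord_zero] at hJ; exact lt_irrefl _ hJ
    have hY0 : Y ≠ 0 := fun h => by rw [h, v.ord_zero] at hY; exact lt_irrefl _ hY
    have h2 : 0 ≤ v.ord (Y * J⁻¹ ^ q) := by
      apply ta_ord_nonneg_of_isIntegral i2 v
      rw [v.ord_inv]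
      omega
    rw [v.ord_mul hY0 (pow_ne_zero _ (inv_ne_zero hJ0)), t2ca_ord_pow, v.ord_inv] at h2
    rw [t2ca_ord_pow_sub_of_neg v hQ2 hJ]
    have hq' : (1 : ℤ) ≤ q := by exact_mod_cast hq
    have hQ' : (Q : ℤ) = (q : ℤ) ^ 2 := by exact_mod_cast hQ
    have hg : OrdGE v (Y ^ q - J) (Q * v.ord J) := by
      apply OrdGE.sub
      · rw [ordGE_iff]
        right
        rw [t2ca_ord_pow, hQ']
        nlinarith
      · rw [ordGE_iff]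
        right
        rw [hQ']
        nlinarith
    rcases (ordGE_iff v).mp hg with h0 | h0
    · exact absurd h0 ha
    · omega

end Abstract

/-! ### The instance over `ℚ̄` -/

section Bar

open ModularCurve Fermat.Agent.TW Fermat.Agent.S24Lib

local notation "Qb" => AlgebraicClosure ℚ

variable (N' q : ℕ) [NeZero N'] [hq : Fact q.Prime] (h : ¬ q ∣ N')

include h in
theorem t2ca_t2w_X (Q : ℕ) :
    t2w Qb N' q h (tbJ (N' * q) ^ Q - tbJ (N' * q)) = t2cpYw N' q ^ Q - t2cpYw N' q := by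
  rw [map_sub, map_pow]
  have := t2cp_t2w_J N' q h
  rw [this]

theorem t2ca_two_le : 2 ≤ q ^ 2 := by
  have := hq.out.two_le
  nlinarith

theorem t2ca_X_ne_zero {Q : ℕ} (hQ : 2 ≤ Q) : tbJ (N' * q) ^ Q - tbJ (N' * q) ≠ 0 := fun h0 =>
  (t2dg_isFunctionFieldGen_X (N' * q) hQ).transcendental (h0 ▸ isAlgebraic_zero)

include h in
theorem t2ca_wX_ne_zero {Q : ℕ} (hQ : 2 ≤ Q) : t2cpYw N' q ^ Q - t2cpYw N' q ≠ 0 := by
  rw [← t2ca_t2w_X N' q h Q]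
  exact fun h0 => t2ca_X_ne_zero N' q hQ ((map_eq_zero_iff _ (t2w Qb N' q h).injective).mp h0)

theorem t2ca_isSeparable {x : ↥(modularFunctionFieldBar (N' * q))}
    (hx : IsFunctionFieldGen Qb ↥(modularFunctionFieldBar (N' * q)) x) :
    Algebra.IsSeparable ↥Qb⟮x⟯ ↥(modularFunctionFieldBar (N' * q)) := by
  haveI := hx.finite
  exact Algebra.IsAlgebraic.isSeparable_of_perfectField

/-- **(CA1) over `ℚ̄`** -/
theorem t2ca_bar_ca1 :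
    IsIntegral ↥(Algebra.adjoin Qb {(tbJ (N' * q) ^ (q ^ 2) - tbJ (N' * q)) *
      t2w Qb N' q h (tbJ (N' * q) ^ (q ^ 2) - tbJ (N' * q))}) (tbJ (N' * q)) := by
  have hQ := t2ca_two_le q
  have hgen := t2dg_isFunctionFieldGen_chart_al N' q h hQ
  rw [t2ca_t2w_X N' q h] at hgen ⊢
  haveI := t2ca_isSeparable N' q hgen
  exact t2ca_ca1 (t2cp_isIntegral_J_of_Y N' q h) (t2ca_X_ne_zero N' q hQ)
    (t2ca_wX_ne_zero N' q h hQ) hQ hgen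

/-- **(CA2) over `ℚ̄`** -/
theorem t2ca_bar_ca2 :
    IsIntegral ↥(Algebra.adjoin Qb {((tbJ (N' * q) ^ (q ^ 2) - tbJ (N' * q)) *
      t2w Qb N' q h (tbJ (N' * q) ^ (q ^ 2) - tbJ (N' * q)))⁻¹})
      (tbJ (N' * q) ^ (q ^ 2) - tbJ (N' * q))⁻¹ := by
  have hQ := t2ca_two_le q
  have hgen := CurveP.isFunctionFieldGen_inv (t2dg_isFunctionFieldGen_chart_al N' q h hQ)
  rw [t2ca_t2w_X N' q h] at hgen ⊢
  haveI := t2ca_isSeparable N' q hgen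
  exact t2ca_ca2 (t2cp_isIntegral_Yw N' q) (t2cp_isIntegral_J_of_Y N' q h)
    (t2ca_X_ne_zero N' q hQ) (t2ca_wX_ne_zero N' q h hQ) hQ hgen

/-- **(CA3) over `ℚ̄`** -/
theorem t2ca_bar_ca3 :
    IsIntegral ↥(Algebra.adjoin Qb {((tbJ (N' * q) ^ (q ^ 2) - tbJ (N' * q)) *
      t2w Qb N' q h (tbJ (N' * q) ^ (q ^ 2) - tbJ (N' * q)))⁻¹})
      ((t2cpYw N' q ^ q - tbJ (N' * q)) * (tbJ (N' * q) ^ (q ^ 2) - tbJ (N' * q))⁻¹) := by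
  have hQ := t2ca_two_le q
  have hgen := CurveP.isFunctionFieldGen_inv (t2dg_isFunctionFieldGen_chart_al N' q h hQ)
  rw [t2ca_t2w_X N' q h] at hgen ⊢
  haveI := t2ca_isSeparable N' q hgen
  exact t2ca_ca3 (t2cp_isIntegral_Yw N' q) (t2cp_isIntegral_J_of_Y N' q h)
    (t2ca_X_ne_zero N' q hQ) (t2ca_wX_ne_zero N' q h hQ) hq.out.one_le rfl hQ
    (t2cp_isIntegral_Yw_div N' q) hgen

end Bar

/-! ### The DVR levels `L_H` -/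

section Lev

open ModularCurve Fermat.Agent.TW Fermat.Agent.S24Lib HahnSeries

local notation "Qb" => AlgebraicClosure ℚ

variable (𝔓 : FFPlace) (H : Subgroup 𝔓.I) [H.FiniteIndex] (N' : ℕ) [NeZero N'] (h : ¬ 𝔓.p ∣ N')

attribute [local instance] t2i_dvr t2i_isAlgClosed t2i_charP t2i_fact

theorem t2ca_taJ_eq (N : ℕ) [NeZero N] : taJ (L := ↥(tbFix 𝔓 H)) N = tbLevJ 𝔓 N H := rfl

theorem t2ca_tbPhiF_X :
    tbPhiF 𝔓 (N' * 𝔓.p) H (t2iX ↥(tbFix 𝔓 H) N' 𝔓.p) =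
      tbJ (N' * 𝔓.p) ^ (𝔓.p ^ 2) - tbJ (N' * 𝔓.p) := by
  rw [t2iX, map_sub, map_pow, t2ca_taJ_eq, tbPhiF_tbLevJ]

theorem t2ca_tbPhiF_Xs :
    tbPhiF 𝔓 (N' * 𝔓.p) H (t2iXs (t2iALFix 𝔓 H N' h)) =
      (tbJ (N' * 𝔓.p) ^ (𝔓.p ^ 2) - tbJ (N' * 𝔓.p)) *
        t2w Qb N' 𝔓.p h (tbJ (N' * 𝔓.p) ^ (𝔓.p ^ 2) - tbJ (N' * 𝔓.p)) := by
  show tbPhiF 𝔓 (N' * 𝔓.p) H (t2iX ↥(tbFix 𝔓 H) N' 𝔓.p *
    t2wLev 𝔓 H N' 𝔓.p h (t2iX ↥(tbFix 𝔓 H) N' 𝔓.p)) = _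
  rw [map_mul, tbPhiF_t2wLev, t2ca_tbPhiF_X]

include h in
theorem t2ca_tbPhiF_Y :
    tbPhiF 𝔓 (N' * 𝔓.p) H (t2iY ↥(tbFix 𝔓 H) N' 𝔓.p) = t2cpYw N' 𝔓.p := by
  have h1 : t2iY ↥(tbFix 𝔓 H) N' 𝔓.p =
      t2wLev 𝔓 H N' 𝔓.p h (taJ (L := ↥(tbFix 𝔓 H)) (N' * 𝔓.p)) := by
    have h2 := (t2iALFix 𝔓 H N' h).w_Y
    have h3 : t2wLev 𝔓 H N' 𝔓.p h (t2iY ↥(tbFix 𝔓 H) N' 𝔓.p) =
        taJ (L := ↥(tbFix 𝔓 H)) (N' * 𝔓.p) := h2
    rw [← h3, t2wLev_t2wLev]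
  rw [h1, tbPhiF_t2wLev, t2ca_taJ_eq, tbPhiF_tbLevJ]
  exact t2cp_t2w_J N' 𝔓.p h

/-- **(CA1) at level `H`** -/
theorem t2ca_lev_ca1 :
    IsIntegral ↥(Algebra.adjoin ↥(tbFix 𝔓 H) {t2iXs (t2iALFix 𝔓 H N' h)})
      (taJ (L := ↥(tbFix 𝔓 H)) (N' * 𝔓.p)) := by
  rw [t2d_isIntegral_tbPhiF_iff, t2ca_tbPhiF_Xs, t2ca_taJ_eq, tbPhiF_tbLevJ]
  exact t2ca_bar_ca1 N' 𝔓.p h

/-- **(CA2) at level `H`** -/
theorem t2ca_lev_ca2 :
    IsIntegral ↥(Algebra.adjoin ↥(tbFix 𝔓 H) {(t2iXs (t2iALFix 𝔓 H N' h))⁻¹})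
      (t2iX ↥(tbFix 𝔓 H) N' 𝔓.p)⁻¹ := by
  rw [t2d_isIntegral_tbPhiF_iff, map_inv₀, map_inv₀, t2ca_tbPhiF_Xs, t2ca_tbPhiF_X]
  exact t2ca_bar_ca2 N' 𝔓.p h

include h in
theorem t2ca_tbPhiF_Eps :
    tbPhiF 𝔓 (N' * 𝔓.p) H (t2iEps (L := ↥(tbFix 𝔓 H)) (N' := N') (q := 𝔓.p)) =
      (t2cpYw N' 𝔓.p ^ 𝔓.p - tbJ (N' * 𝔓.p)) *
        (tbJ (N' * 𝔓.p) ^ (𝔓.p ^ 2) - tbJ (N' * 𝔓.p))⁻¹ := by
  rw [t2iEps, map_mul, map_sub, map_pow, map_inv₀, t2ca_tbPhiF_X, t2ca_tbPhiF_Y 𝔓 H N' h,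
    t2ca_taJ_eq, tbPhiF_tbLevJ]

/-- **(CA3) at level `H`** -/
theorem t2ca_lev_ca3 :
    IsIntegral ↥(Algebra.adjoin ↥(tbFix 𝔓 H) {(t2iXs (t2iALFix 𝔓 H N' h))⁻¹})
      (t2iEps (L := ↥(tbFix 𝔓 H)) (N' := N') (q := 𝔓.p)) := by
  rw [t2d_isIntegral_tbPhiF_iff, map_inv₀, t2ca_tbPhiF_Xs, t2ca_tbPhiF_Eps 𝔓 H N' h]
  exact t2ca_bar_ca3 N' 𝔓.p h

end Lev

end Fermat.Agent.T2
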