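/-
T2-C (helper9): generic helpers for the assembly of `T2Setup`.

* `T2sChart.indep_of_family`: an independent family over `k[x̄]` in the residue ring, lifted to `𝒪`,
  is `Indep` for the semilocal algebra core;
* `T2Base.resIntAlg d x`: `res (IntCl(K[x]) ∩ 𝒪)` as a `k`-subalgebra of the residue ring;
* `t2i_isIntegral_algHom`: algebra homomorphisms transport integrality over `K[x]`;
* `t2i_node_transport`: transport of the node data along an equality of charts.
-/
import Fermat.Agent.Lib.T2.Core.SemiFin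
import Fermat.Agent.Lib.T2.Core.Sing
import Fermat.Agent.Lib.T2.Desc.Int

set_option autoImplicit false
set_option linter.unusedSectionVars false
set_option linter.unusedVariables false
set_option linter.style.haveILetI false

open Polynomial IntermediateField

namespace Fermat.Agent.T2

section Chart

variable {K F k Fb : Type*} [Field K] [Field F] [Algebra K F] [Field k] [CommRing Fb] [Algebra k Fb]
  {d : T2Base K F k Fb} [IsDiscreteValuationRing ↥d.A]

/-- an independent family over `k[x̄]` in the residue ring gives an `Indep` family of lifts -/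
theorem T2sChart.indep_of_family (Ch : T2sChart d) (xb' : Fb) (hxb : Ch.xb = xb') {n : ℕ}
    (t : Fin n → Fb)
    (ht : ∀ c : Fin n → ↥(Algebra.adjoin k {xb'}), ∑ i, (c i : Fb) * t i = 0 → ∀ i, c i = 0)
    (b : Fin n → ↥d.Ov) (hb : ∀ i, d.res (b i) = t i) : Ch.core.Indep b := by
  subst hxb
  intro a ha i
  have h1 := ht (fun i => ⟨d.res (Ch.toOv (a i)), Ch.res_toOv_mem_adjoin (a i)⟩) (by
    rw [← ha]
    refine Finset.sum_congr rfl fun i _ => ?_
    rw [← hb i]
    rfl) i
  exact congrArg Subtype.val h1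

end Chart

section ResInt

variable {K F k Fb : Type*} [Field K] [Field F] [Algebra K F] [Field k] [CommRing Fb] [Algebra k Fb]
  (d : T2Base K F k Fb)

/-- `res (IntCl(K[x]) ∩ 𝒪)` as a `k`-subalgebra of the residue ring -/
def T2Base.resIntAlg (x : F) : Subalgebra k Fb where
  carrier := d.resBall (t2Int x)
  zero_mem' := (d.resBall (t2Int x)).zero_mem
  add_mem' := fun h1 h2 => (d.resBall (t2Int x)).add_mem h1 h2
  one_mem' := ⟨1, ⟨isIntegral_one, d.Ov.one_mem⟩, d.res_one' _⟩
  mul_mem' := by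
    rintro _ _ ⟨f, hf, rfl⟩ ⟨g, hg, rfl⟩
    exact ⟨f * g, ⟨t2Int_mul hf.1 hg.1, d.Ov.mul_mem hf.2 hg.2⟩, d.res_mul' hf.2 hg.2⟩
  algebraMap_mem' := by
    intro c
    have h1 : (1 : Fb) ∈ d.resBall (t2Int x) := ⟨1, ⟨isIntegral_one, d.Ov.one_mem⟩, d.res_one' _⟩
    have := (d.resBall (t2Int x)).smul_mem c h1
    rwa [Algebra.smul_def, mul_one] at this

theorem T2Base.mem_resIntAlg {x : F} {t : Fb} :
    t ∈ d.resIntAlg x ↔ t ∈ d.resBall (t2Int x) := Iff.rfl

theorem T2Base.mem_resIntAlg_of {x f : F} (hf : f ∈ d.Ov)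
    (hint : IsIntegral ↥(Algebra.adjoin K {x}) f) : d.res ⟨f, hf⟩ ∈ d.resIntAlg x :=
  ⟨f, ⟨hint, hf⟩, rfl⟩

end ResInt

section AlgHom

variable {K F₁ F₂ : Type*} [CommRing K] [CommRing F₁] [CommRing F₂] [Algebra K F₁] [Algebra K F₂]

/-- algebra homomorphisms transport integrality over `K[x]` -/
theorem t2i_isIntegral_algHom (φ : F₁ →ₐ[K] F₂) {x f : F₁}
    (h : IsIntegral ↥(Algebra.adjoin K {x}) f) :
    IsIntegral ↥(Algebra.adjoin K {φ x}) (φ f) :=
  t2d_isIntegral_map (RingHom.id K) (φ : F₁ →+* F₂) (fun c => φ.commutes c) h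

theorem t2i_isIntegral_adjoin_of_eq {R : Type*} [CommRing R] [Algebra K R] {y z : R} (h : y = z)
    {t : R} (ht : IsIntegral ↥(Algebra.adjoin K {y}) t) : IsIntegral ↥(Algebra.adjoin K {z}) t := by
  subst h
  exact ht

end AlgHom

section Node

variable {k Fb : Type*} [Field k] [CommRing Fb] [Algebra k Fb]

/-- transport of node data along an equality of charts -/
theorem t2i_node_transport {xb xb' : Fb} (h : xb = xb') (S₁ : Subalgebra k Fb)
    (hnode : ∃ (n : ℕ) (ev : ↥(t2R (k := k) xb') →ₐ[k] (Fin n → k)),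
      ∀ r, ev r = 0 → (r : Fb) ∈ S₁) :
    ∃ (n : ℕ) (ev : ↥(t2R (k := k) xb) →ₐ[k] (Fin n → k)), ∀ r, ev r = 0 → (r : Fb) ∈ S₁ := by
  subst h
  exact hnode

end Node

end Fermat.Agent.T2
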