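/-
T2-C (helper9): assembly of `T2Setup` for the two-valuation base `d = t2iBase2` and the symmetric
chart `x_s = x · w x`, from the leaves (generic DVR level `(L, O, π)`; the leaves enter as the
hypothesis bundle `T2iHyp`):

* (GR) good reduction of level `N'` for the charts `j` and `1/x` (`gr1`, `gr2`; helper2);
* (CA) chart algebra: `j ∈ IntCl(L[x_s])`, `1/x, ε ∈ IntCl(L[1/x_s])` (`ca1`–`ca3`; from the cusp package);
* (DG) `x_s` is transcendental and `[F : L(x_s)] ≤ nn` (`tr`, `fd`, `hn`; helper8);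
* (SF) special fibre: independent families of size `nn` over `k[(ξ,ξ)^{±1}]`, finiteness of `L̃(a)`,
  transcendence of `(ξ, ξ)` (`sf1`–`sf3`; helper8);
* exact Riemann–Roch on the generic fibre (`finL0`, `dim0`; helper5's T2-D).

Output: `t2i_exists_setup : ∃ n (su : T2Setup d (Fin n)), su.x = x_s ∧ su.m = m ∧ su.n = n₀ ∧ su.c = c₀`.
-/
import Fermat.Agent.Lib.T2.Inst.ChartH
import Fermat.Agent.Lib.T2.Inst.SetupGen
import Fermat.Agent.Lib.T2.Inst.FrobE

set_option autoImplicit false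
set_option linter.unusedSectionVars false
set_option linter.unusedVariables false
set_option linter.style.haveILetI false
set_option synthInstance.maxHeartbeats 400000
set_option maxHeartbeats 1000000

open HahnSeries ModularCurve Fermat.Agent.T1 IntermediateField

noncomputable section

namespace Fermat.Agent.T2

variable {L : Type*} [Field L] [Algebra ℚ L] (O : ValuationSubring L) {k : Type*} [Field k]
  (π : ↥O →+* k) [IsDiscreteValuationRing ↥O] (hπ : Function.Surjective π) [IsAlgClosed k]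
  {N' q : ℕ} [NeZero N'] [hq : Fact q.Prime] [CharP k q] (hN' : (N' : k) ≠ 0)
  (W : T2iAL L N' q) (Fr : T2iFrob k N' q)

attribute [local instance] t2iAlgebra t2i_isScalarTower

variable (L N' q)

/-- the chart `x' = j^(q²) - j` of the lower level -/
def t2iX' : ↥(TaF L N') := taJ N' ^ (q ^ 2) - taJ N'

theorem t2i_alpha_X' :
    algebraMap ↥(TaF L N') ↥(TaF L (N' * q)) (t2iX' L N' q) = t2iX L N' q := by
  rw [t2iX', t2iX, map_sub, map_pow]
  have h : algebraMap ↥(TaF L N') ↥(TaF L (N' * q)) (taJ N') = taJ (N' * q) := t2i_alpha_taJ N' q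
  rw [h]

variable {L N' q}

/-- the hypotheses supplied by the leaves -/
structure T2iHyp (nn : ℕ) : Prop where
  gr1 : ∀ t : ↥(modularFunctionFieldFullC k N'),
    IsIntegral ↥(Algebra.adjoin k {t2iJb k N'}) t →
    ∃ (f : ↥(TaF L N')) (hf : f ∈ (t2iBase O π hπ N' hN').Ov),
      IsIntegral ↥(Algebra.adjoin L {taJ (L := L) N'}) f ∧
        (t2iBase O π hπ N' hN').res ⟨f, hf⟩ = t
  gr2 : ∀ t : ↥(modularFunctionFieldFullC k N'),
    IsIntegral ↥(Algebra.adjoin k {(t2iXb k N' q)⁻¹}) t →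
    ∃ (f : ↥(TaF L N')) (hf : f ∈ (t2iBase O π hπ N' hN').Ov),
      IsIntegral ↥(Algebra.adjoin L {(t2iX' L N' q)⁻¹}) f ∧
        (t2iBase O π hπ N' hN').res ⟨f, hf⟩ = t
  ca1 : IsIntegral ↥(Algebra.adjoin L {t2iXs W}) (taJ (L := L) (N' * q))
  ca2 : IsIntegral ↥(Algebra.adjoin L {(t2iXs W)⁻¹}) (t2iX L N' q)⁻¹
  ca3 : IsIntegral ↥(Algebra.adjoin L {(t2iXs W)⁻¹}) (t2iEps (L := L) (N' := N') (q := q))
  tr : Transcendental L (t2iXs W)
  fd : FiniteDimensional ↥(L⟮t2iXs W⟯) ↥(TaF L (N' * q))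
  hn : Module.finrank ↥(L⟮t2iXs W⟯) ↥(TaF L (N' * q)) ≤ nn
  sf1 : ∃ t : Fin nn → ↥(modularFunctionFieldFullC k N') × ↥(modularFunctionFieldFullC k N'),
    ∀ c : Fin nn → ↥(Algebra.adjoin k
        {((t2iXb k N' q ^ (q + 1), t2iXb k N' q ^ (q + 1)) :
          ↥(modularFunctionFieldFullC k N') × ↥(modularFunctionFieldFullC k N'))}),
      ∑ i, ((c i : ↥(modularFunctionFieldFullC k N') × ↥(modularFunctionFieldFullC k N'))) * t i = 0 →
        ∀ i, c i = 0
  sf1' : ∃ t : Fin nn → ↥(modularFunctionFieldFullC k N') × ↥(modularFunctionFieldFullC k N'),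
    ∀ c : Fin nn → ↥(Algebra.adjoin k
        {(((t2iXb k N' q ^ (q + 1))⁻¹, (t2iXb k N' q ^ (q + 1))⁻¹) :
          ↥(modularFunctionFieldFullC k N') × ↥(modularFunctionFieldFullC k N'))}),
      ∑ i, ((c i : ↥(modularFunctionFieldFullC k N') × ↥(modularFunctionFieldFullC k N'))) * t i = 0 →
        ∀ i, c i = 0
  sf2 : ∀ a : ℕ, FiniteDimensional k ↥(t2Lt (k := k)
    ((t2iXb k N' q ^ (q + 1), t2iXb k N' q ^ (q + 1)) :
      ↥(modularFunctionFieldFullC k N') × ↥(modularFunctionFieldFullC k N'))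
    ((t2iXb k N' q ^ (q + 1))⁻¹, (t2iXb k N' q ^ (q + 1))⁻¹) a)
  sf3 : Transcendental k ((t2iXb k N' q ^ (q + 1), t2iXb k N' q ^ (q + 1)) :
    ↥(modularFunctionFieldFullC k N') × ↥(modularFunctionFieldFullC k N'))
  sf3' : Transcendental k (((t2iXb k N' q ^ (q + 1))⁻¹, (t2iXb k N' q ^ (q + 1))⁻¹) :
    ↥(modularFunctionFieldFullC k N') × ↥(modularFunctionFieldFullC k N'))

variable {O π hπ hN' W}

/-- the DVR instance for the base -/
theorem t2i_dvr_A : IsDiscreteValuationRing ↥(t2iBase2 O π hπ hN' W Fr).A :=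
  (inferInstance : IsDiscreteValuationRing ↥O)

attribute [local instance] t2i_dvr_A

section Hyp

variable {nn : ℕ} (Hy : T2iHyp O π hπ hN' W nn)

include Hy

/-- the chart `x_s` as a `T2sChart` -/
def t2iChart1 : T2sChart (t2iBase2 O π hπ hN' W Fr) where
  x := t2iXs W
  tr := Hy.tr
  mem := t2i_Xs_mem O π hπ hN' W Fr
  trρ := by
    rw [t2i_res_Xs]
    exact Hy.sf3
  ϖ := (IsDiscreteValuationRing.exists_irreducible ↥O).choose
  irr := (IsDiscreteValuationRing.exists_irreducible ↥O).choose_spec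

theorem t2i_transcendental_inv : Transcendental L (t2iXs W)⁻¹ := by
  intro h
  apply Hy.tr
  have := h.inv
  rwa [inv_inv] at this

/-- the chart `1/x_s` as a `T2sChart` -/
def t2iChart2 : T2sChart (t2iBase2 O π hπ hN' W Fr) where
  x := (t2iXs W)⁻¹
  tr := t2i_transcendental_inv Hy
  mem := t2i_Xs_inv_mem O π hπ hN' W Fr
  trρ := by
    rw [t2i_res_Xs_inv]
    exact Hy.sf3'
  ϖ := (IsDiscreteValuationRing.exists_irreducible ↥O).choose
  irr := (IsDiscreteValuationRing.exists_irreducible ↥O).choose_spec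

/-- an `Indep` family for the chart `x_s` -/
theorem t2i_exists_indep1 :
    ∃ b : Fin nn → ↥(t2iBase2 O π hπ hN' W Fr).Ov, (t2iChart1 Fr Hy).core.Indep b := by
  obtain ⟨t, ht⟩ := Hy.sf1
  choose b hb using fun i => t2i_res_surjective O π hπ hN' W Fr (t i)
  exact ⟨b, (t2iChart1 Fr Hy).indep_of_family _ (t2i_res_Xs O π hπ hN' W Fr) t ht b hb⟩

/-- an `Indep` family for the chart `1/x_s` -/
theorem t2i_exists_indep2 :
    ∃ b : Fin nn → ↥(t2iBase2 O π hπ hN' W Fr).Ov, (t2iChart2 Fr Hy).core.Indep b := by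
  obtain ⟨t, ht⟩ := Hy.sf1'
  choose b hb using fun i => t2i_res_surjective O π hπ hN' W Fr (t i)
  exact ⟨b, (t2iChart2 Fr Hy).indep_of_family _ (t2i_res_Xs_inv O π hπ hN' W Fr) t ht b hb⟩

theorem t2i_fd_inv : FiniteDimensional ↥(L⟮(t2iXs W)⁻¹⟯) ↥(TaF L (N' * q)) := by
  rw [ta_adjoin_simple_inv]
  exact Hy.fd

theorem t2i_hn_inv : Module.finrank ↥(L⟮(t2iXs W)⁻¹⟯) ↥(TaF L (N' * q)) ≤ nn := by
  rw [ta_adjoin_simple_inv]
  exact Hy.hn

/-- **(Int)** for the chart `x_s` -/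
theorem t2i_int1 (f : ↥(TaF L (N' * q))) (hf : f ∈ (t2iBase2 O π hπ hN' W Fr).Ov)
    (hint : f ∈ t2Int (K := L) (t2iXs W)) :
    IsIntegral ↥(Algebra.adjoin k {(t2iBase2 O π hπ hN' W Fr).res
      ⟨t2iXs W, t2i_Xs_mem O π hπ hN' W Fr⟩}) ((t2iBase2 O π hπ hN' W Fr).res ⟨f, hf⟩) := by
  obtain ⟨b, hb⟩ := t2i_exists_indep1 Fr Hy
  haveI : FiniteDimensional ↥(L⟮(t2iChart1 Fr Hy).x⟯) ↥(TaF L (N' * q)) := Hy.fd
  exact (t2iChart1 Fr Hy).isIntegral_res_of_isIntegral_field hb Hy.hn ⟨f, hf⟩ hint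

/-- **(Int)** for the chart `1/x_s` -/
theorem t2i_int2 (f : ↥(TaF L (N' * q))) (hf : f ∈ (t2iBase2 O π hπ hN' W Fr).Ov)
    (hint : f ∈ t2Int (K := L) (t2iXs W)⁻¹) :
    IsIntegral ↥(Algebra.adjoin k {(t2iBase2 O π hπ hN' W Fr).res
      ⟨(t2iXs W)⁻¹, t2i_Xs_inv_mem O π hπ hN' W Fr⟩})
      ((t2iBase2 O π hπ hN' W Fr).res ⟨f, hf⟩) := by
  obtain ⟨b, hb⟩ := t2i_exists_indep2 Fr Hy
  haveI : FiniteDimensional ↥(L⟮(t2iChart2 Fr Hy).x⟯) ↥(TaF L (N' * q)) := t2i_fd_inv Hy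
  exact (t2iChart2 Fr Hy).isIntegral_res_of_isIntegral_field hb (t2i_hn_inv Hy) ⟨f, hf⟩ hint

end Hyp

end Fermat.Agent.T2
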