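/-
T2-C (helper9): assembly of `T2Setup` for `d = t2iBase2`, chart `x_s` — second part:
finiteness of the chart ring (`t2i_fin1`), normality of the chart `x_s ≠ 0` of the special fibre
(`t2i_sm2`), the node data (`t2i_node`) and the final assembly `t2i_exists_setup`.
-/
import Fermat.Agent.Lib.T2.Inst.SetupH

set_option autoImplicit false
set_option linter.unusedSectionVars false
set_option linter.unusedVariables false
set_option linter.style.haveILetI false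
set_option synthInstance.maxHeartbeats 400000
set_option maxHeartbeats 1000000

open HahnSeries ModularCurve Fermat.Agent.T1 IntermediateField

noncomputable section

namespace Fermat.Agent.T2

variable {L : Type*} [Field L] [Algebra ℚ L] {O : ValuationSubring L} {k : Type*} [Field k]
  {π : ↥O →+* k} [IsDiscreteValuationRing ↥O] {hπ : Function.Surjective π} [IsAlgClosed k]
  {N' q : ℕ} [NeZero N'] [hq : Fact q.Prime] [CharP k q] {hN' : (N' : k) ≠ 0}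
  {W : T2iAL L N' q} (Fr : T2iFrob k N' q)

attribute [local instance] t2iAlgebra t2i_isScalarTower t2i_dvr_A

section Aux

/-- integrality is transported by `α` -/
theorem t2i_isIntegral_alpha {x f : ↥(TaF L N')} (h : IsIntegral ↥(Algebra.adjoin L {x}) f) :
    IsIntegral ↥(Algebra.adjoin L {algebraMap ↥(TaF L N') ↥(TaF L (N' * q)) x})
      (algebraMap ↥(TaF L N') ↥(TaF L (N' * q)) f) :=
  t2i_isIntegral_algHom (IsScalarTower.toAlgHom L ↥(TaF L N') ↥(TaF L (N' * q))) h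

/-- integrality is transported by `w` -/
theorem t2i_isIntegral_w (W : T2iAL L N' q) {x f : ↥(TaF L (N' * q))}
    (h : IsIntegral ↥(Algebra.adjoin L {x}) f) :
    IsIntegral ↥(Algebra.adjoin L {W.w x}) (W.w f) :=
  t2i_isIntegral_algHom (W.w : ↥(TaF L (N' * q)) →ₐ[L] ↥(TaF L (N' * q))) h

/-- `ξ⁻¹ ∈ k[x̄⁻¹]` -/
theorem t2i_xi_inv_mem :
    (t2iXb k N' q ^ (q + 1))⁻¹ ∈ Algebra.adjoin k {(t2iXb k N' q)⁻¹} := by
  rw [← inv_pow]
  exact Subalgebra.pow_mem _ (Algebra.self_mem_adjoin_singleton k _) _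

/-- `ξ ∈ k[j̄]` -/
theorem t2i_xi_mem : t2iXb k N' q ^ (q + 1) ∈ Algebra.adjoin k {taBarJ k N'} := by
  have hJ : t2iJb k N' ∈ Algebra.adjoin k {taBarJ k N'} := Algebra.self_mem_adjoin_singleton k _
  exact Subalgebra.pow_mem _ (Subalgebra.sub_mem _ (Subalgebra.pow_mem _ hJ _) hJ) _

theorem t2i_Phi_eq (f : ↥(modularFunctionFieldFullC k N')) : Fr.Φ f = t2fePhi k q N' f := by
  apply Subtype.ext
  rw [Fr.coe_Φ, coe_t2fePhi]

end Aux

section Hyp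

variable {nn : ℕ} (Hy : T2iHyp O π hπ hN' W nn)

include Hy

/-- **finiteness of the chart ring** `B₁ = IntCl(L[x_s]) ∩ 𝒪` -/
theorem t2i_fin1 : ∃ e : ℕ, T2Fin (t2iBase2 O π hπ hN' W Fr) (t2iXs W) e := by
  obtain ⟨b, hb⟩ := t2i_exists_indep1 Fr Hy
  haveI : FiniteDimensional ↥(L⟮(t2iChart1 Fr Hy).x⟯) ↥(TaF L (N' * q)) := Hy.fd
  haveI : CharZero L := algebraRat.charZero L
  haveI : Algebra.IsSeparable ↥(L⟮(t2iChart1 Fr Hy).x⟯) ↥(TaF L (N' * q)) :=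
    Algebra.IsAlgebraic.isSeparable_of_perfectField
  exact (t2iChart1 Fr Hy).fin hb Hy.hn (t2i_Xs_ne_zero W)

/-- **(Sm2)**: the chart `x_s ≠ 0` of the special fibre is normal -/
theorem t2i_sm2 (t : ↥(modularFunctionFieldFullC k N') × ↥(modularFunctionFieldFullC k N'))
    (ht : IsIntegral ↥(Algebra.adjoin k {(t2iBase2 O π hπ hN' W Fr).res
      ⟨(t2iXs W)⁻¹, t2i_Xs_inv_mem O π hπ hN' W Fr⟩}) t) :
    t ∈ (t2iBase2 O π hπ hN' W Fr).resBall (t2Int (t2iXs W)⁻¹) := by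
  have ht' := t2i_isIntegral_adjoin_of_eq (t2i_res_Xs_inv O π hπ hN' W Fr) ht
  have h1a := t2c_isIntegral_fst ht'
  have h2a := t2c_isIntegral_snd ht'
  have h1b : IsIntegral ↥(Algebra.adjoin k {(t2iXb k N' q ^ (q + 1))⁻¹}) t.1 := h1a
  have h2b : IsIntegral ↥(Algebra.adjoin k {(t2iXb k N' q ^ (q + 1))⁻¹}) t.2 := h2a
  have hm : (t2iXb k N' q ^ (q + 1))⁻¹ ∈ Algebra.adjoin k {(t2iXb k N' q)⁻¹} := t2i_xi_inv_mem
  have h1 : IsIntegral ↥(Algebra.adjoin k {(t2iXb k N' q)⁻¹}) t.1 :=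
    t2c_isIntegral_of_mem_adjoin hm h1b
  have h2 : IsIntegral ↥(Algebra.adjoin k {(t2iXb k N' q)⁻¹}) t.2 :=
    t2c_isIntegral_of_mem_adjoin hm h2b
  obtain ⟨f₁, hf₁, hi₁, hr₁⟩ := Hy.gr2 t.1 h1
  obtain ⟨f₂, hf₂, hi₂, hr₂⟩ := Hy.gr2 t.2 h2
  obtain ⟨ha₁, hra₁⟩ := t2i_res_alpha O π hπ hN' W Fr ⟨f₁, hf₁⟩
  obtain ⟨ha₂, hra₂⟩ := t2i_res_alpha O π hπ hN' W Fr ⟨f₂, hf₂⟩
  have hX : algebraMap ↥(TaF L N') ↥(TaF L (N' * q)) (t2iX' L N' q)⁻¹ = (t2iX L N' q)⁻¹ := by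
    rw [map_inv₀, t2i_alpha_X']
  have hia₁ : IsIntegral ↥(Algebra.adjoin L {(t2iXs W)⁻¹})
      (algebraMap ↥(TaF L N') ↥(TaF L (N' * q)) f₁) := by
    have := t2i_isIntegral_alpha (q := q) hi₁
    rw [hX] at this
    exact t2c_isIntegral_trans Hy.ca2 this
  have hia₂ : IsIntegral ↥(Algebra.adjoin L {(t2iXs W)⁻¹})
      (algebraMap ↥(TaF L N') ↥(TaF L (N' * q)) f₂) := by
    have := t2i_isIntegral_alpha (q := q) hi₂
    rw [hX] at this
    exact t2c_isIntegral_trans Hy.ca2 this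
  have hw : W.w (t2iXs W)⁻¹ = (t2iXs W)⁻¹ := by rw [map_inv₀, t2i_w_Xs]
  have hiw₂ : IsIntegral ↥(Algebra.adjoin L {(t2iXs W)⁻¹})
      (W.w (algebraMap ↥(TaF L N') ↥(TaF L (N' * q)) f₂)) := by
    have := t2i_isIntegral_w W hia₂
    rwa [hw] at this
  have hε := t2i_Eps_mem O π hπ hN' W Fr
  have hwa₂ := t2i_w_mem_Ov O π hπ hN' W Fr ha₂
  refine ⟨t2iEps (L := L) (N' := N') (q := q) * algebraMap ↥(TaF L N') ↥(TaF L (N' * q)) f₁ +
    (1 - t2iEps (L := L) (N' := N') (q := q)) *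
      W.w (algebraMap ↥(TaF L N') ↥(TaF L (N' * q)) f₂), ⟨?_, ?_⟩, ?_⟩
  · exact IsIntegral.add (IsIntegral.mul Hy.ca3 hia₁)
      (IsIntegral.mul (IsIntegral.sub isIntegral_one Hy.ca3) hiw₂)
  · exact Subring.add_mem _ (Subring.mul_mem _ hε ha₁)
      (Subring.mul_mem _ (Subring.sub_mem _ (Subring.one_mem _) hε) hwa₂)
  · have h0 : (⟨t2iEps (L := L) (N' := N') (q := q) *
          algebraMap ↥(TaF L N') ↥(TaF L (N' * q)) f₁ +
        (1 - t2iEps (L := L) (N' := N') (q := q)) *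
          W.w (algebraMap ↥(TaF L N') ↥(TaF L (N' * q)) f₂),
        Subring.add_mem _ (Subring.mul_mem _ hε ha₁)
          (Subring.mul_mem _ (Subring.sub_mem _ (Subring.one_mem _) hε) hwa₂)⟩ :
        ↥(t2iBase2 O π hπ hN' W Fr).Ov) =
        ⟨_, hε⟩ * ⟨_, ha₁⟩ + (1 - ⟨_, hε⟩) * ⟨_, hwa₂⟩ := rfl
    rw [h0, map_add, map_mul, map_mul, map_sub, map_one, t2i_res_Eps, hra₁,
      t2i_res_w O π hπ hN' W Fr ha₂, hra₂, hr₁, hr₂]
    apply Prod.ext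
    · simp
    · simp

/-- lifts of `R' = IntCl(k[j̄])` to `IntCl(L[x_s]) ∩ 𝒪` along `α` -/
theorem t2i_alpha_mem_resIntAlg (f : ↥(modularFunctionFieldFullC k N'))
    (hf : f ∈ t2R (k := k) (taBarJ k N')) :
    (f, t2fePhi k q N' f) ∈ (t2iBase2 O π hπ hN' W Fr).resIntAlg (t2iXs W) ∧
      (t2fePhi k q N' f, f) ∈ (t2iBase2 O π hπ hN' W Fr).resIntAlg (t2iXs W) := by
  have hf' : IsIntegral ↥(Algebra.adjoin k {t2iJb k N'}) f := hf
  obtain ⟨g, hg, hi, hr⟩ := Hy.gr1 f hf'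
  obtain ⟨ha, hra⟩ := t2i_res_alpha O π hπ hN' W Fr ⟨g, hg⟩
  have hJ : algebraMap ↥(TaF L N') ↥(TaF L (N' * q)) (taJ N') = taJ (N' * q) :=
    t2i_alpha_taJ N' q
  have hint : IsIntegral ↥(Algebra.adjoin L {t2iXs W})
      (algebraMap ↥(TaF L N') ↥(TaF L (N' * q)) g) := by
    have := t2i_isIntegral_alpha (q := q) hi
    rw [hJ] at this
    exact t2c_isIntegral_trans Hy.ca1 this
  have hintw : IsIntegral ↥(Algebra.adjoin L {t2iXs W})
      (W.w (algebraMap ↥(TaF L N') ↥(TaF L (N' * q)) g)) := by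
    have := t2i_isIntegral_w W hint
    rwa [t2i_w_Xs] at this
  have h1 := (t2iBase2 O π hπ hN' W Fr).mem_resIntAlg_of ha hint
  have h2 := (t2iBase2 O π hπ hN' W Fr).mem_resIntAlg_of
    (t2i_w_mem_Ov O π hπ hN' W Fr ha) hintw
  rw [t2i_res_w O π hπ hN' W Fr ha] at h2
  rw [hra, hr, t2i_Phi_eq Fr] at h1 h2
  exact ⟨h1, h2⟩

/-- **the node data** `ev`, `hJ` -/
theorem t2i_node :
    ∃ (n : ℕ) (ev : ↥(t2R (k := k) ((t2iBase2 O π hπ hN' W Fr).res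
        ⟨t2iXs W, t2i_Xs_mem O π hπ hN' W Fr⟩)) →ₐ[k] (Fin n → k)),
      ∀ r, ev r = 0 →
        (r : ↥(modularFunctionFieldFullC k N') × ↥(modularFunctionFieldFullC k N')) ∈
          (t2iBase2 O π hπ hN' W Fr).resIntAlg (t2iXs W) := by
  obtain ⟨n, ev, h⟩ := t2fe_node_prod k q N' hN' (t2iXb k N' q ^ (q + 1))
    (t2iXb k N' q ^ (q + 1)) t2i_xi_mem t2i_xi_mem
  have key := h ((t2iBase2 O π hπ hN' W Fr).resIntAlg (t2iXs W))
    (fun f hf => (t2i_alpha_mem_resIntAlg Fr Hy f hf).1)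
    (fun f hf => (t2i_alpha_mem_resIntAlg Fr Hy f hf).2)
  exact t2i_node_transport (t2i_res_Xs O π hπ hN' W Fr) _ ⟨n, ev, key⟩

/-- **the `T2Setup` for the two-valuation base and the symmetric chart `x_s`** -/
theorem t2i_exists_setup (hqA : ((q : ℕ) : L) ∈ O.nonunits) (m : ℕ) (hm : Nat.Coprime m q)
    (n₀ : ℕ) (c₀ : ℤ) (a₀ : ℕ)
    (finL0 : ∀ a b : ℕ, FiniteDimensional L ↥(tbLbar (K := L) (t2iXs W) a b))
    (dim0 : ∀ a b : ℕ, a₀ ≤ a + b →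
      (Module.finrank L ↥(tbLbar (K := L) (t2iXs W) a b) : ℤ) = ((a + b : ℕ) : ℤ) * n₀ + c₀) :
    ∃ (n : ℕ) (su : T2Setup (t2iBase2 O π hπ hN' W Fr) (Fin n)),
      su.x = t2iXs W ∧ su.m = m ∧ su.ℓ = q ∧ su.n = n₀ ∧ su.c = c₀ ∧ su.a0 = a₀ := by
  obtain ⟨e, he⟩ := t2i_fin1 Fr Hy
  obtain ⟨n, ev, hev⟩ := t2i_node Fr Hy
  haveI : CharZero L := algebraRat.charZero L
  refine ⟨n,
    { ℓ := q
      hℓ := hq.out
      hℓA := hqA
      hℓ0 := Nat.cast_ne_zero.mpr hq.out.ne_zero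
      m := m
      hm := hm
      x := t2iXs W
      hx0 := t2i_Xs_ne_zero W
      hx := t2i_Xs_mem O π hπ hN' W Fr
      hxi := t2i_Xs_inv_mem O π hπ hN' W Fr
      int1 := t2i_int1 Fr Hy
      int2 := t2i_int2 Fr Hy
      e := e
      fin1 := he
      ex2 := fun f hf => t2_exists_pow_mul_mem_t2Int (t2i_Xs_ne_zero W) hf
      sm2 := t2i_sm2 Fr Hy
      exb := fun t ht => t2_isIntegral_inv_pow_mul
        (t2f_res_mul_inv (t2iBase2 O π hπ hN' W Fr) (t2i_Xs_ne_zero W)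
          (t2i_Xs_mem O π hπ hN' W Fr) (t2i_Xs_inv_mem O π hπ hN' W Fr)) ht
      finLt := fun a => by
        rw [t2i_res_Xs, t2i_res_Xs_inv]
        exact Hy.sf2 a
      ev := ev
      hJ := hev
      n := n₀
      c := c₀
      a0 := a₀
      finL0 := finL0
      dim0 := dim0 }, rfl, rfl, rfl, rfl, rfl, rfl⟩

end Hyp

end Fermat.Agent.T2
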