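/-
T2-C (helper9): the final instance at the DVR levels `L_H = tbFix 𝔓 H`: the hypothesis bundle
`T2iHyp` of `SetupH.lean` is discharged for `(O, π) = (tbFixO 𝔓 H, tbFixRes 𝔓 H)`, `q = 𝔓.p`,
`W = t2iALFix` (lead's `t2wLev`), from

* the leaf (GR) (`T2iLeafGR`: good reduction of level `N'`, charts `j` and `1/x'`),
* the leaf (SF) (`T2iLeafSF`: the special fibre),
* (CA) (`ChartAlg.lean`), (DG) (helper8), T2-D (helper5),

and the export `T2gExport` of T2-C (helper4's `Gal/Adapter.lean`) follows: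
`t2i_export_of_leaves`.
-/
import Fermat.Agent.Lib.T2.Inst.SetupFin
import Fermat.Agent.Lib.T2.Inst.ChartAlg
import Fermat.Agent.Lib.T2.Gal.Adapter

set_option autoImplicit false
set_option linter.unusedSectionVars false
set_option linter.unusedVariables false
set_option linter.style.haveILetI false
set_option synthInstance.maxHeartbeats 400000
set_option maxHeartbeats 1000000

open HahnSeries ModularCurve Fermat.Agent.T1 Fermat.Agent.TW Fermat.Agent.S24Lib IntermediateField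
  AlgebraicCurve Fermat.Agent.Curve Module

noncomputable section

namespace Fermat.Agent.T2

local notation "Qb" => AlgebraicClosure ℚ

attribute [local instance] t2i_dvr t2i_isAlgClosed t2i_charP t2i_fact t2iAlgebra t2i_isScalarTower

/-- **the leaf (SF)**: the special fibre `E × E` over `k[(ξ, ξ)^{±1}]`, `ξ = x̄^(q+1)` -/
structure T2iLeafSF (k : Type*) [Field k] [IsAlgClosed k] (N' q : ℕ) [NeZero N']
    [hq : Fact q.Prime] [CharP k q] (nn : ℕ) : Prop where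
  sf1 : ∃ t : Fin nn → ↥(modularFunctionFieldFullC k N') × ↥(modularFunctionFieldFullC k N'),
    ∀ c : Fin nn → ↥(Algebra.adjoin k
        {((t2iXb k N' q ^ (q + 1), t2iXb k N' q ^ (q + 1)) :
          ↥(modularFunctionFieldFullC k N') × ↥(modularFunctionFieldFullC k N'))}),
      ∑ i, ((c i : ↥(modularFunctionFieldFullC k N') × ↥(modularFunctionFieldFullC k N'))) * t i = 0 →
        ∀ i, c i = 0
  sf1' : ∃ t : Fin nn → ↥(modularFunctionFieldFullC k N') × ↥(modularFunctionFieldFullC k N'),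
    ∀ c : Fin nn → ↥(Algebra.adjoin k
        {(((t2iXb k N' q ^ (q + 1))⁻¹, (t2iXb k N' q ^ (q + 1))⁻¹) :
          ↥(modularFunctionFieldFullC k N') × ↥(modularFunctionFieldFullC k N'))}),
      ∑ i, ((c i : ↥(modularFunctionFieldFullC k N') × ↥(modularFunctionFieldFullC k N'))) * t i = 0 →
        ∀ i, c i = 0
  sf2 : ∀ a : ℕ, FiniteDimensional k ↥(t2Lt (k := k)
    ((t2iXb k N' q ^ (q + 1), t2iXb k N' q ^ (q + 1)) :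
      ↥(modularFunctionFieldFullC k N') × ↥(modularFunctionFieldFullC k N'))
    ((t2iXb k N' q ^ (q + 1))⁻¹, (t2iXb k N' q ^ (q + 1))⁻¹) a)
  sf3 : Transcendental k ((t2iXb k N' q ^ (q + 1), t2iXb k N' q ^ (q + 1)) :
    ↥(modularFunctionFieldFullC k N') × ↥(modularFunctionFieldFullC k N'))
  sf3' : Transcendental k (((t2iXb k N' q ^ (q + 1))⁻¹, (t2iXb k N' q ^ (q + 1))⁻¹) :
    ↥(modularFunctionFieldFullC k N') × ↥(modularFunctionFieldFullC k N'))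

section Fix

variable (𝔓 : FFPlace) (H : Subgroup 𝔓.I) [H.FiniteIndex] (N' : ℕ) [NeZero N'] (h : ¬ 𝔓.p ∣ N')

/-- **the leaf (GR)**: good reduction of the level `N'` at the DVR level `H`, for the charts `j`
and `1/x'`, `x' = j^(p²) - j` -/
structure T2iLeafGR : Prop where
  gr1 : ∀ t : ↥(tbBarF 𝔓 N'),
    IsIntegral ↥(Algebra.adjoin (IsLocalRing.ResidueField ↥𝔓.P)
      {t2iJb (IsLocalRing.ResidueField ↥𝔓.P) N'}) t →
    ∃ (f : ↥(tbLevF 𝔓 N' H)) (hf : f ∈ (t2iBaseFix 𝔓 H N' h).Ov),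
      IsIntegral ↥(Algebra.adjoin ↥(tbFix 𝔓 H) {taJ (L := ↥(tbFix 𝔓 H)) N'}) f ∧
        (t2iBaseFix 𝔓 H N' h).res ⟨f, hf⟩ = t
  gr2 : ∀ t : ↥(tbBarF 𝔓 N'),
    IsIntegral ↥(Algebra.adjoin (IsLocalRing.ResidueField ↥𝔓.P)
      {(t2iXb (IsLocalRing.ResidueField ↥𝔓.P) N' 𝔓.p)⁻¹}) t →
    ∃ (f : ↥(tbLevF 𝔓 N' H)) (hf : f ∈ (t2iBaseFix 𝔓 H N' h).Ov),
      IsIntegral ↥(Algebra.adjoin ↥(tbFix 𝔓 H) {(t2iX' ↥(tbFix 𝔓 H) N' 𝔓.p)⁻¹}) f ∧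
        (t2iBaseFix 𝔓 H N' h).res ⟨f, hf⟩ = t

/-- `p` is a non-unit of `O_H` -/
theorem t2i_p_mem_nonunits : ((𝔓.p : ℕ) : ↥(tbFix 𝔓 H)) ∈ (tbFixO 𝔓 H).nonunits := by
  have hP : ((𝔓.p : ℕ) : Qb) ∈ 𝔓.P.nonunits := 𝔓.hP
  rw [ValuationSubring.mem_nonunits_iff_or] at hP ⊢
  have hp0 : ((𝔓.p : ℕ) : Qb) ≠ 0 := Nat.cast_ne_zero.mpr 𝔓.hp.ne_zero
  right
  intro hmem
  apply hP.resolve_left hp0
  have : algebraMap ↥(tbFix 𝔓 H) Qb (((𝔓.p : ℕ) : ↥(tbFix 𝔓 H)))⁻¹ ∈ 𝔓.P := hmem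
  rwa [map_inv₀, map_natCast] at this

/-- the image of the symmetric chart over `ℚ̄` is a generator -/
theorem t2i_gen_Xs : IsFunctionFieldGen Qb ↥(modularFunctionFieldBar (N' * 𝔓.p))
    (tbPhiF 𝔓 (N' * 𝔓.p) H (t2iXs (t2iALFix 𝔓 H N' h))) := by
  rw [t2ca_tbPhiF_Xs]
  exact t2dg_isFunctionFieldGen_chart_al N' 𝔓.p h (t2ca_two_le 𝔓.p)

/-- **the hypothesis bundle at the level `H`** -/
theorem t2i_hyp_fix (hGR : T2iLeafGR 𝔓 H N' h)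
    (hSF : T2iLeafSF (IsLocalRing.ResidueField ↥𝔓.P) N' 𝔓.p
      (2 * 𝔓.p ^ 2 * dedekindPsi (N' * 𝔓.p))) :
    T2iHyp (tbFixO 𝔓 H) (tbFixRes 𝔓 H) (tbFixRes_surjective 𝔓 H) (t2i_natCast_ne_zero 𝔓 h)
      (t2iALFix 𝔓 H N' h) (2 * 𝔓.p ^ 2 * dedekindPsi (N' * 𝔓.p)) where
  gr1 := hGR.gr1
  gr2 := hGR.gr2
  ca1 := t2ca_lev_ca1 𝔓 H N' h
  ca2 := t2ca_lev_ca2 𝔓 H N' h
  ca3 := t2ca_lev_ca3 𝔓 H N' h
  tr := (t2d_isFunctionFieldGen_mod 𝔓 (N' * 𝔓.p) H (t2i_gen_Xs 𝔓 H N' h)).transcendental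
  fd := (t2d_isFunctionFieldGen_mod 𝔓 (N' * 𝔓.p) H (t2i_gen_Xs 𝔓 H N' h)).finite
  hn := t2dg_finrank_chart_al_level_le N' 𝔓.p h (t2ca_two_le 𝔓.p) 𝔓 H
  sf1 := hSF.sf1
  sf1' := hSF.sf1'
  sf2 := hSF.sf2
  sf3 := hSF.sf3
  sf3' := hSF.sf3'

/-- **the `T2Setup` at the level `H`**, in the shape of helper4's `T2gExport` -/
theorem t2i_exists_setup_fix (hGR : T2iLeafGR 𝔓 H N' h)
    (hSF : T2iLeafSF (IsLocalRing.ResidueField ↥𝔓.P) N' 𝔓.p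
      (2 * 𝔓.p ^ 2 * dedekindPsi (N' * 𝔓.p)))
    (m : ℕ) (hm : Nat.Coprime m 𝔓.p) :
    ∃ (n : ℕ) (su : T2Setup (t2iBase2Fix 𝔓 H N' h) (Fin n)),
      su.m = m ∧ su.x = t2gaX 𝔓 H N' h (𝔓.p ^ 2) ∧
      (su.n : ℤ) = finrank ↥Qb⟮tbPhiF 𝔓 (N' * 𝔓.p) H su.x⟯
        ↥(modularFunctionFieldBar (N' * 𝔓.p)) ∧
      su.c = 1 - CurveP.genusR Qb ↥(modularFunctionFieldBar (N' * 𝔓.p)) := by
  have hX := t2i_gen_Xs 𝔓 H N' h
  obtain ⟨n, su, hx, hm', -, hn, hc, -⟩ :=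
    t2i_exists_setup (t2iFrobFix 𝔓 N') (t2i_hyp_fix 𝔓 H N' h hGR hSF)
      (t2i_p_mem_nonunits 𝔓 H) m hm
      (finrank ↥Qb⟮tbPhiF 𝔓 (N' * 𝔓.p) H (t2iXs (t2iALFix 𝔓 H N' h))⟯
        ↥(modularFunctionFieldBar (N' * 𝔓.p)))
      (1 - CurveP.genusR Qb ↥(modularFunctionFieldBar (N' * 𝔓.p)))
      (2 * CurveP.genusR Qb ↥(modularFunctionFieldBar (N' * 𝔓.p)))
      (t2d_finiteDimensional_tbLbar_mod 𝔓 (N' * 𝔓.p) H hX)
      (fun a b hab => t2d_dim0_mod 𝔓 (N' * 𝔓.p) H hX a b (by omega))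
  refine ⟨n, su, hm', hx, ?_, hc⟩
  rw [hn, hx]

end Fix

/-- **the export of T2-C from the two remaining leaves** -/
theorem t2i_export_of_leaves
    (hGR : ∀ (𝔓 : FFPlace) (H : Subgroup 𝔓.I) [H.FiniteIndex] (N' : ℕ) [NeZero N']
      (h : ¬ 𝔓.p ∣ N'), (4 ∣ N' ∨ 9 ∣ N') → T2iLeafGR 𝔓 H N' h)
    (hSF : ∀ (𝔓 : FFPlace) (N' : ℕ) [NeZero N'] (h : ¬ 𝔓.p ∣ N'),
      T2iLeafSF (IsLocalRing.ResidueField ↥𝔓.P) N' 𝔓.p
        (2 * 𝔓.p ^ 2 * dedekindPsi (N' * 𝔓.p))) : T2gExport := by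
  intro 𝔓 N' _ h h49 m hm
  refine ⟨𝔓.p ^ 2, t2ca_two_le 𝔓.p, ⊤, inferInstance, ?_⟩
  intro H _ _ _
  exact t2i_exists_setup_fix 𝔓 H N' h (hGR 𝔓 H N' h h49) (hSF 𝔓 N' h) m hm

end Fermat.Agent.T2
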