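/-
T2-C (helper2): instance shortcuts for the level-`H` function fields.

Instance search for `Algebra ↥(tbFix 𝔓 H) ↥(tbLevF 𝔓 N H)`, `Algebra κ ↥(tbBarF 𝔓 N)` and the derived
`SMul` / `Module` instances takes 4–6 s PER QUERY with the default instances (the search explores
many `SMul`/`MulAction` instances of the residue field before it finds `SubalgebraClass.toAlgebra`).
`open scoped Fermat.Agent.T2.T2grInst` makes these queries instantaneous; the shortcuts are
reducible and unfold to exactly the instances found by the default search, so statements elaborated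
with and without them are interchangeable.
-/
import Fermat.Agent.Lib.T1.Inst.Level

set_option autoImplicit false

open HahnSeries ModularCurve Fermat.Agent.T1 Fermat.Agent.TW

noncomputable section

namespace Fermat.Agent.T2

namespace T2grInst

/-- shortcut instance -/
scoped instance (priority := 5000) algBar (𝔓 : FFPlace) (N : ℕ) [NeZero N] :
    Algebra (IsLocalRing.ResidueField ↥𝔓.P) ↥(tbBarF 𝔓 N) :=
  SubalgebraClass.toAlgebra (tbBarF 𝔓 N)

/-- shortcut instance -/
scoped instance (priority := 5000) smulBar (𝔓 : FFPlace) (N : ℕ) [NeZero N] :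
    SMul (IsLocalRing.ResidueField ↥𝔓.P) ↥(tbBarF 𝔓 N) := Algebra.toSMul

/-- shortcut instance -/
scoped instance (priority := 5000) modBar (𝔓 : FFPlace) (N : ℕ) [NeZero N] :
    Module (IsLocalRing.ResidueField ↥𝔓.P) ↥(tbBarF 𝔓 N) := Algebra.toModule

/-- shortcut instance -/
scoped instance (priority := 5000) algLev (𝔓 : FFPlace) (N : ℕ) [NeZero N]
    (H : Subgroup 𝔓.I) : Algebra ↥(tbFix 𝔓 H) ↥(tbLevF 𝔓 N H) :=
  SubalgebraClass.toAlgebra (tbLevF 𝔓 N H)

/-- shortcut instance -/
scoped instance (priority := 5000) smulLev (𝔓 : FFPlace) (N : ℕ) [NeZero N]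
    (H : Subgroup 𝔓.I) : SMul ↥(tbFix 𝔓 H) ↥(tbLevF 𝔓 N H) := Algebra.toSMul

/-- shortcut instance -/
scoped instance (priority := 5000) modLev (𝔓 : FFPlace) (N : ℕ) [NeZero N]
    (H : Subgroup 𝔓.I) : Module ↥(tbFix 𝔓 H) ↥(tbLevF 𝔓 N H) := Algebra.toModule

end T2grInst

end Fermat.Agent.T2
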