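/-
T2-C LEAF GR (helper2), function-field part: the chart `x = j^Q - j` of a function field `F / K`
(`K` algebraically closed, `j` a separating generator).

* `t2gr_separable_AS`, `t2gr_isSeparable_of_root`, `t2gr_isSeparable_AS`: `F / K(x)` is separable
  when `char K ∣ Q`;
* `t2gr_gen`: `x` is a function-field generator; `t2gr_ord_nonneg_iff`: `x` and `j` have the same
  poles;
* `t2gr_isIntegral_iff`: integral over `K[x]` ⟺ integral over `K[j]`;
* `t2gr_exists_pow_mul`, `t2gr_exists_pow_mul_inv`: clearing poles;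
* `t2gr_isIntegral_inv_iff`: integral over `K[x⁻¹]` ⟺ `x^D t` integral over `K[j]` and
  `(x j^{-Q})^D t` integral over `K[j⁻¹]` for some `D`.
-/
import Fermat.Agent.Lib.T1.Core.Twist

set_option autoImplicit false
set_option linter.style.haveILetI false
set_option linter.unusedSectionVars false

namespace Fermat.Agent.T2

open AlgebraicCurve IntermediateField Polynomial Fermat.Agent.Curve Fermat.Agent.Curve.PlaceAux
  Fermat.Agent.T1

variable {K F : Type*} [Field K] [Field F] [Algebra K F]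

/-! ### Separability -/

/-- Artin–Schreier type polynomials are separable -/
theorem t2gr_separable_AS (A : Type*) [CommRing A] (q Q : ℕ) [CharP A q] (hqQ : q ∣ Q) (c : A) :
    (X ^ Q - X - C c : A[X]).Separable := by
  refine ⟨0, -1, ?_⟩
  rw [← CharP.cast_eq_zero_iff A[X] q] at hqQ
  rw [derivative_sub, derivative_sub, derivative_X_pow, derivative_X, derivative_C, C_eq_natCast,
    hqQ]
  ring

/-- if `j` is a root of a separable polynomial over `K(x)` and `F / K(j)` is separable, then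
`F / K(x)` is separable -/
theorem t2gr_isSeparable_of_root {x j : F} (P : (↥K⟮x⟯)[X]) (hP : P.Separable)
    (hPj : aeval j P = 0) [Algebra.IsSeparable ↥K⟮j⟯ F] : Algebra.IsSeparable ↥K⟮x⟯ F := by
  have hj : IsSeparable ↥K⟮x⟯ j := hP.of_dvd (minpoly.dvd _ _ hPj)
  haveI : Algebra.IsSeparable ↥K⟮x⟯ ↥(↥K⟮x⟯)⟮j⟯ :=
    (isSeparable_adjoin_simple_iff_isSeparable ↥K⟮x⟯ F).mpr hj
  have hle : K⟮j⟯ ≤ ((↥K⟮x⟯)⟮j⟯).restrictScalars K := by
    rw [adjoin_simple_le_iff]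
    exact mem_adjoin_simple_self ↥K⟮x⟯ j
  let φ : ↥K⟮j⟯ →+* ↥(↥K⟮x⟯)⟮j⟯ := (IntermediateField.inclusion hle).toRingHom
  rw [Algebra.isSeparable_def]
  intro f
  have hf : IsSeparable ↥(↥K⟮x⟯)⟮j⟯ f := by
    have h1 : (minpoly ↥K⟮j⟯ f).Separable := Algebra.IsSeparable.isSeparable ↥K⟮j⟯ f
    have h2 : ((minpoly ↥K⟮j⟯ f).map φ).Separable := h1.map
    refine h2.of_dvd (minpoly.dvd _ _ ?_)
    rw [aeval_def, eval₂_map]
    have h3 : (algebraMap ↥(↥K⟮x⟯)⟮j⟯ F).comp φ = algebraMap ↥K⟮j⟯ F := by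
      ext b
      rfl
    rw [h3, ← aeval_def, minpoly.aeval]
  exact IsSeparable.of_algebra_isSeparable_of_isSeparable ↥K⟮x⟯ hf

/-- `F / K(j^Q - j)` is separable if `F / K(j)` is and `char K ∣ Q` -/
theorem t2gr_isSeparable_AS (q Q : ℕ) [CharP K q] (hqQ : q ∣ Q) (j : F)
    [Algebra.IsSeparable ↥K⟮j⟯ F] : Algebra.IsSeparable ↥K⟮j ^ Q - j⟯ F := by
  haveI : CharP ↥K⟮j ^ Q - j⟯ q := charP_of_injective_algebraMap
    (algebraMap K ↥K⟮j ^ Q - j⟯).injective q
  refine t2gr_isSeparable_of_root (j := j)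
    (X ^ Q - X - C (⟨j ^ Q - j, mem_adjoin_simple_self K _⟩ : ↥K⟮j ^ Q - j⟯))
    (t2gr_separable_AS _ q Q hqQ _) ?_
  rw [map_sub, map_sub, map_pow, aeval_X, aeval_C]
  show j ^ Q - j - (j ^ Q - j) = 0
  rw [sub_self]

/-! ### Orders -/

theorem t2gr_ord_pow (v : Place K F) (f : F) (n : ℕ) : v.ord (f ^ n) = n * v.ord f := by
  rw [← zpow_natCast, v.ord_zpow]

theorem t2gr_ord_neg (v : Place K F) (f : F) : v.ord (-f) = v.ord f := by
  simp only [Place.ord, Valuation.map_neg]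

section Gen

variable [IsAlgClosed K] {j : F} (hj : IsFunctionFieldGen K F j) {Q : ℕ} (hQ : 2 ≤ Q)

include hj hQ

theorem t2gr_notMem_range : j ^ Q - j ∉ Set.range (algebraMap K F) := by
  rintro ⟨c, hc⟩
  apply hj.transcendental
  have hmon : (X ^ Q - (X + C c) : K[X]).Monic := by
    apply monic_X_pow_sub
    refine lt_of_le_of_lt (degree_X_add_C c).le ?_
    exact_mod_cast (by omega : 1 < Q)
  refine ⟨X ^ Q - (X + C c), hmon.ne_zero, ?_⟩
  rw [map_sub, map_add, map_pow, aeval_X, aeval_C, hc]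
  ring

/-- `x = j^Q - j` is a function-field generator -/
theorem t2gr_gen : IsFunctionFieldGen K F (j ^ Q - j) :=
  CurveP.isFunctionFieldGen_of_notMem_range hj (t2gr_notMem_range hj hQ)

theorem t2gr_j_ne_zero : j ≠ 0 := fun h0 => hj.transcendental (h0 ▸ isAlgebraic_zero)

theorem t2gr_x_ne_zero : j ^ Q - j ≠ 0 := fun h0 =>
  (t2gr_gen hj hQ).transcendental (h0 ▸ isAlgebraic_zero)

/-- at a pole of `j`, `ord x = Q ord j` -/
theorem t2gr_ord_of_neg (v : Place K F) (h : v.ord j < 0) :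
    v.ord (j ^ Q - j) = Q * v.ord j := by
  have hj0 := t2gr_j_ne_zero hj hQ
  have h1 : v.ord (j ^ Q) < v.ord (-j) := by
    rw [t2gr_ord_pow, t2gr_ord_neg]
    have : (2 : ℤ) ≤ Q := by exact_mod_cast hQ
    nlinarith
  have h2 := PlaceAux.ord_add_of_lt v (pow_ne_zero Q hj0) h1
  rw [← sub_eq_add_neg] at h2
  rw [h2, t2gr_ord_pow]

/-- where `j` is regular, so is `x` -/
theorem t2gr_ord_nonneg (v : Place K F) (h : 0 ≤ v.ord j) : 0 ≤ v.ord (j ^ Q - j) := by
  have h1 : j ∈ v.toValuationSubring := mem_of_ord_nonneg v h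
  exact ord_nonneg_of_mem v
    (v.toValuationSubring.sub_mem (v.toValuationSubring.pow_mem h1 Q) h1)

/-- `x` and `j` have the same poles -/
theorem t2gr_ord_nonneg_iff (v : Place K F) : 0 ≤ v.ord (j ^ Q - j) ↔ 0 ≤ v.ord j := by
  constructor
  · intro h
    by_contra hneg
    push Not at hneg
    rw [t2gr_ord_of_neg hj hQ v hneg] at h
    have : (2 : ℤ) ≤ Q := by exact_mod_cast hQ
    nlinarith
  · exact t2gr_ord_nonneg hj hQ v

/-- `h = x j^{-Q} = 1 - j^{1-Q}` is a unit at the poles of `j` -/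
theorem t2gr_ord_h_of_neg (v : Place K F) (h : v.ord j < 0) :
    v.ord ((j ^ Q - j) * j⁻¹ ^ Q) = 0 := by
  have hj0 := t2gr_j_ne_zero hj hQ
  rw [v.ord_mul (t2gr_x_ne_zero hj hQ) (pow_ne_zero Q (inv_ne_zero hj0)),
    t2gr_ord_of_neg hj hQ v h, t2gr_ord_pow, v.ord_inv]
  ring

/-- `h = x j^{-Q}` has the order of `x` where `j` is a unit -/
theorem t2gr_ord_h_of_zero (v : Place K F) (h : v.ord j = 0) :
    v.ord ((j ^ Q - j) * j⁻¹ ^ Q) = v.ord (j ^ Q - j) := by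
  have hj0 := t2gr_j_ne_zero hj hQ
  rw [v.ord_mul (t2gr_x_ne_zero hj hQ) (pow_ne_zero Q (inv_ne_zero hj0)), t2gr_ord_pow,
    v.ord_inv, h]
  ring

end Gen

/-! ### Integrality -/

section Int

variable [IsAlgClosed K]

/-- clearing the poles at `x = ∞` -/
theorem t2gr_exists_pow_mul {x : F} (hx : IsFunctionFieldGen K F x)
    [Algebra.IsSeparable ↥K⟮x⟯ F] {t : F} (ht : IsIntegral ↥(Algebra.adjoin K {x}) t) :
    ∃ a : ℕ, IsIntegral ↥(Algebra.adjoin K {x⁻¹}) (x⁻¹ ^ a * t) := by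
  haveI := CurveP.isSeparable_adjoin_inv (K := K) x
  rw [tw_isIntegral_iff hx] at ht
  obtain ⟨a, ha⟩ := tw_exists_pow_mul_mem hx 0 ht
  exact ⟨a, (tw_isIntegral_iff (CurveP.isFunctionFieldGen_inv hx)).mpr ha⟩

/-- clearing the poles at `x = 0` -/
theorem t2gr_exists_pow_mul_inv {x : F} (hx : IsFunctionFieldGen K F x)
    [Algebra.IsSeparable ↥K⟮x⟯ F] {t : F} (ht : IsIntegral ↥(Algebra.adjoin K {x⁻¹}) t) :
    ∃ b : ℕ, IsIntegral ↥(Algebra.adjoin K {x}) (x ^ b * t) := by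
  haveI := CurveP.isSeparable_adjoin_inv (K := K) x
  obtain ⟨b, hb⟩ := t2gr_exists_pow_mul (CurveP.isFunctionFieldGen_inv hx) ht
  rw [inv_inv] at hb
  exact ⟨b, hb⟩

variable {j : F} (hj : IsFunctionFieldGen K F j) [Algebra.IsSeparable ↥K⟮j⟯ F] {Q : ℕ}
  (hQ : 2 ≤ Q) [Algebra.IsSeparable ↥K⟮j ^ Q - j⟯ F]

include hj hQ

/-- integral over `K[x]` ⟺ integral over `K[j]` -/
theorem t2gr_isIntegral_iff {t : F} :
    IsIntegral ↥(Algebra.adjoin K {j ^ Q - j}) t ↔ IsIntegral ↥(Algebra.adjoin K {j}) t := by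
  constructor
  · intro h
    refine ta_isIntegral_of_regular hj t (fun v hv => ?_)
    exact ta_ord_nonneg_of_isIntegral h v (t2gr_ord_nonneg hj hQ v hv)
  · intro h
    refine ta_isIntegral_of_regular (t2gr_gen hj hQ) t (fun v hv => ?_)
    exact ta_ord_nonneg_of_isIntegral h v ((t2gr_ord_nonneg_iff hj hQ v).mp hv)

/-- **the chart `x ≠ 0` is covered by `{j ≠ ∞, x ≠ 0}` and `{j ≠ 0, x j^{-Q} ≠ 0}`** -/
theorem t2gr_isIntegral_inv_iff {t : F} :
    IsIntegral ↥(Algebra.adjoin K {(j ^ Q - j)⁻¹}) t ↔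
      ∃ D : ℕ, IsIntegral ↥(Algebra.adjoin K {j}) ((j ^ Q - j) ^ D * t) ∧
        IsIntegral ↥(Algebra.adjoin K {j⁻¹}) (((j ^ Q - j) * j⁻¹ ^ Q) ^ D * t) := by
  have hj0 := t2gr_j_ne_zero hj hQ
  have hx0 := t2gr_x_ne_zero hj hQ
  have hh0 : (j ^ Q - j) * j⁻¹ ^ Q ≠ 0 := mul_ne_zero hx0 (pow_ne_zero Q (inv_ne_zero hj0))
  haveI := CurveP.isSeparable_adjoin_inv (K := K) j
  haveI := CurveP.isSeparable_adjoin_inv (K := K) (j ^ Q - j)
  have hQ' : (2 : ℤ) ≤ Q := by exact_mod_cast hQ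
  rcases eq_or_ne t 0 with rfl | ht0
  · simp only [mul_zero]
    exact ⟨fun _ => ⟨0, isIntegral_zero, isIntegral_zero⟩, fun _ => isIntegral_zero⟩
  constructor
  · intro h
    obtain ⟨D, hD⟩ := t2gr_exists_pow_mul_inv (t2gr_gen hj hQ) h
    have hD' := (t2gr_isIntegral_iff hj hQ).mp hD
    refine ⟨D, hD', ?_⟩
    refine ta_isIntegral_of_regular (CurveP.isFunctionFieldGen_inv hj) _ (fun v hv => ?_)
    rw [v.ord_inv] at hv
    rw [v.ord_mul (pow_ne_zero D hh0) ht0, t2gr_ord_pow]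
    rcases lt_or_eq_of_le (by omega : v.ord j ≤ 0) with hneg | hzero
    · rw [t2gr_ord_h_of_neg hj hQ v hneg, mul_zero, zero_add]
      refine ta_ord_nonneg_of_isIntegral h v ?_
      rw [v.ord_inv, t2gr_ord_of_neg hj hQ v hneg]
      nlinarith
    · rw [t2gr_ord_h_of_zero hj hQ v hzero]
      have h1 := ta_ord_nonneg_of_isIntegral hD' v (by omega)
      rwa [v.ord_mul (pow_ne_zero D hx0) ht0, t2gr_ord_pow] at h1
  · rintro ⟨D, h1, h2⟩
    refine ta_isIntegral_of_regular (CurveP.isFunctionFieldGen_inv (t2gr_gen hj hQ)) _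
      (fun v hv => ?_)
    rw [v.ord_inv] at hv
    rcases lt_or_ge (v.ord j) 0 with hneg | hpos
    · have h3 := ta_ord_nonneg_of_isIntegral h2 v (by rw [v.ord_inv]; omega)
      rwa [v.ord_mul (pow_ne_zero D hh0) ht0, t2gr_ord_pow, t2gr_ord_h_of_neg hj hQ v hneg,
        mul_zero, zero_add] at h3
    · have h3 := ta_ord_nonneg_of_isIntegral h1 v hpos
      have h4 := t2gr_ord_nonneg hj hQ v hpos
      have h5 : v.ord (j ^ Q - j) = 0 := by omega
      rwa [v.ord_mul (pow_ne_zero D hx0) ht0, t2gr_ord_pow, h5, mul_zero, zero_add] at h3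

end Int

end Fermat.Agent.T2
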