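/-
T2-C LEAF GR (helper2), generic part: good reduction of a chart.

`d : T2Base K F k Fb` with `Fb` a FIELD, `x ∈ 𝒪` with `x⁻¹ ∈ 𝒪`, (Int) for `x` and `x⁻¹`.  If the
Riemann–Roch spaces `L̄(a,b)` of the special fibre are not bigger than the `L(a,b)` of the generic
fibre (`finrank k (tbLbar x̄ a b) ≤ finrank K (tbLbar x a b)` for `a + b ≥ a₀`), then reduction
`Λ(a,b) → L̄(a,b)` is surjective, and hence
* (GR1) every `t ∈ Fb` integral over `k[x̄]` is the reduction of an `f ∈ 𝒪` integral over `K[x]`;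
* (GR2) every `t ∈ Fb` integral over `k[x̄⁻¹]` is the reduction of an `f ∈ 𝒪` integral over `K[x⁻¹]`.
-/
import Fermat.Agent.Lib.T2.Core.Base
import Fermat.Agent.Lib.T1.Core.Lattice2

set_option autoImplicit false
set_option linter.style.haveILetI false
set_option linter.unusedSectionVars false

namespace Fermat.Agent.T2

open Fermat.Agent.T1

variable {K F k Fb : Type*} [Field K] [Field F] [Algebra K F] [Field k] [Field Fb] [Algebra k Fb]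

/-- `res (x⁻¹) = (res x)⁻¹` -/
theorem t2gr_res_inv (d : T2Base K F k Fb) {x : F} (hx : x ∈ d.Ov) (hxi : x⁻¹ ∈ d.Ov)
    (hx0 : x ≠ 0) : d.res ⟨x⁻¹, hxi⟩ = (d.res ⟨x, hx⟩)⁻¹ := by
  have h1 : d.res ⟨x, hx⟩ * d.res ⟨x⁻¹, hxi⟩ = 1 := by
    rw [← map_mul]
    have h2 : (⟨x, hx⟩ * ⟨x⁻¹, hxi⟩ : ↥d.Ov) = 1 := Subtype.ext (mul_inv_cancel₀ hx0)
    rw [h2, map_one]
  exact eq_inv_of_mul_eq_one_right h1

/-- the hypotheses of the generic good-reduction statement: a chart `x` with (Int) on both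
sides -/
structure T2grChart (d : T2Base K F k Fb) where
  /-- the coordinate -/
  x : F
  hx : x ∈ d.Ov
  hxi : x⁻¹ ∈ d.Ov
  hx0 : x ≠ 0
  int1 : ∀ (f : F) (hf : f ∈ d.Ov), IsIntegral ↥(Algebra.adjoin K {x}) f →
    IsIntegral ↥(Algebra.adjoin k {d.res ⟨x, hx⟩}) (d.res ⟨f, hf⟩)
  int2 : ∀ (f : F) (hf : f ∈ d.Ov), IsIntegral ↥(Algebra.adjoin K {x⁻¹}) f →
    IsIntegral ↥(Algebra.adjoin k {(d.res ⟨x, hx⟩)⁻¹}) (d.res ⟨f, hf⟩)

namespace T2grChart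

variable {d : T2Base K F k Fb} (ch : T2grChart d)

/-- `x̄` -/
def xb : Fb := d.res ⟨ch.x, ch.hx⟩

theorem res_x_inv : d.res ⟨ch.x⁻¹, ch.hxi⟩ = ch.xb⁻¹ :=
  t2gr_res_inv d ch.hx ch.hxi ch.hx0

/-- `res Λ(a,b) ⊆ L̄(a,b)` -/
theorem resBall_le (a b : ℕ) :
    d.resBall (tbLbar (K := K) ch.x a b) ≤ tbLbar (K := k) ch.xb a b := by
  rintro _ ⟨s, hs, rfl⟩
  obtain ⟨⟨h1, h2⟩, hsO⟩ := hs
  refine ⟨?_, ?_⟩
  · have h3 := ch.int1 _ (d.Ov.mul_mem (d.Ov.pow_mem ch.hx b) hsO) h1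
    rw [d.res_mul' (d.Ov.pow_mem ch.hx b) hsO, d.res_pow' ch.hx b] at h3
    exact h3
  · have h3 := ch.int2 _ (d.Ov.mul_mem (d.Ov.pow_mem ch.hxi a) hsO) h2
    rw [d.res_mul' (d.Ov.pow_mem ch.hxi a) hsO, d.res_pow' ch.hxi a, ch.res_x_inv] at h3
    exact h3

/-- surjectivity of `Λ(a,b) → L̄(a,b)` when `dim L̄(a,b) ≤ dim L(a,b)` -/
theorem exists_lift {a b : ℕ} [FiniteDimensional K ↥(tbLbar (K := K) ch.x a b)]
    [FiniteDimensional k ↥(tbLbar (K := k) ch.xb a b)]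
    (hdim : Module.finrank k ↥(tbLbar (K := k) ch.xb a b) ≤
      Module.finrank K ↥(tbLbar (K := K) ch.x a b))
    {t : Fb} (ht : t ∈ tbLbar (K := k) ch.xb a b) :
    ∃ s, ∃ hs : s ∈ d.Ov, s ∈ tbLbar (K := K) ch.x a b ∧ d.res ⟨s, hs⟩ = t := by
  obtain ⟨s, hs, hst⟩ := d.exists_mem_ball_res_eq _ _ (ch.resBall_le a b) hdim ht
  exact ⟨s, hs.2, hs.1, hst⟩

/-- **(GR1)**: every element of `Fb` integral over `k[x̄]` lifts to an element of `𝒪` integral over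
`K[x]` -/
theorem exists_lift_of_isIntegral (a0 : ℕ)
    (fin : ∀ a : ℕ, FiniteDimensional K ↥(tbLbar (K := K) ch.x a 0))
    (finb : ∀ a : ℕ, FiniteDimensional k ↥(tbLbar (K := k) ch.xb a 0))
    (hdim : ∀ a : ℕ, a0 ≤ a → Module.finrank k ↥(tbLbar (K := k) ch.xb a 0) ≤
      Module.finrank K ↥(tbLbar (K := K) ch.x a 0))
    (hex : ∀ t : Fb, IsIntegral ↥(Algebra.adjoin k {ch.xb}) t →
      ∃ a : ℕ, IsIntegral ↥(Algebra.adjoin k {ch.xb⁻¹}) (ch.xb⁻¹ ^ a * t))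
    {t : Fb} (ht : IsIntegral ↥(Algebra.adjoin k {ch.xb}) t) :
    ∃ f, ∃ hf : f ∈ d.Ov, IsIntegral ↥(Algebra.adjoin K {ch.x}) f ∧ d.res ⟨f, hf⟩ = t := by
  obtain ⟨a, ha⟩ := hex t ht
  haveI := fin (max a a0)
  haveI := finb (max a a0)
  have htL : t ∈ tbLbar (K := k) ch.xb (max a a0) 0 := by
    refine tbLbar_mono ch.xb (le_max_left a a0) le_rfl ⟨?_, ha⟩
    rw [pow_zero, one_mul]
    exact ht
  obtain ⟨s, hs, hsL, hst⟩ := ch.exists_lift (hdim _ (le_max_right a a0)) htL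
  refine ⟨s, hs, ?_, hst⟩
  have h1 := hsL.1
  rwa [pow_zero, one_mul] at h1

/-- **(GR2)**: every element of `Fb` integral over `k[x̄⁻¹]` lifts to an element of `𝒪` integral
over `K[x⁻¹]` -/
theorem exists_lift_of_isIntegral_inv (b0 : ℕ)
    (fin : ∀ b : ℕ, FiniteDimensional K ↥(tbLbar (K := K) ch.x 0 b))
    (finb : ∀ b : ℕ, FiniteDimensional k ↥(tbLbar (K := k) ch.xb 0 b))
    (hdim : ∀ b : ℕ, b0 ≤ b → Module.finrank k ↥(tbLbar (K := k) ch.xb 0 b) ≤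
      Module.finrank K ↥(tbLbar (K := K) ch.x 0 b))
    (hex : ∀ t : Fb, IsIntegral ↥(Algebra.adjoin k {ch.xb⁻¹}) t →
      ∃ b : ℕ, IsIntegral ↥(Algebra.adjoin k {ch.xb}) (ch.xb ^ b * t))
    {t : Fb} (ht : IsIntegral ↥(Algebra.adjoin k {ch.xb⁻¹}) t) :
    ∃ f, ∃ hf : f ∈ d.Ov, IsIntegral ↥(Algebra.adjoin K {ch.x⁻¹}) f ∧ d.res ⟨f, hf⟩ = t := by
  obtain ⟨b, hb⟩ := hex t ht
  haveI := fin (max b b0)
  haveI := finb (max b b0)
  have htL : t ∈ tbLbar (K := k) ch.xb 0 (max b b0) := by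
    refine tbLbar_mono ch.xb le_rfl (le_max_left b b0) ⟨hb, ?_⟩
    rw [pow_zero, one_mul]
    exact ht
  obtain ⟨s, hs, hsL, hst⟩ := ch.exists_lift (hdim _ (le_max_right b b0)) htL
  refine ⟨s, hs, ?_, hst⟩
  have h1 := hsL.2
  rwa [pow_zero, one_mul] at h1

end T2grChart

end Fermat.Agent.T2
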