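/-
T2-C LEAF GR (helper2): from a chart `j` with (Int) on both sides to the chart `x = j^Q - j`.

`d : T2Base K F k Fb` (`Fb` a field, a function field over the algebraically closed `k` with
separating generator `j̄ = res j`), `Φ : F → FΩ` a base change to a function field over an
algebraically closed field `Ω` which detects integrality (`t2d_isIntegral_tbPhiF_iff`).  Then (Int)
for `j` and `j⁻¹` implies (Int) for `x = j^Q - j` and `x⁻¹`: `T2grChart.poly`.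
-/
import Fermat.Agent.Lib.T2.Inst.GoodRedGen
import Fermat.Agent.Lib.T2.Inst.GoodRedFF

set_option autoImplicit false
set_option linter.style.haveILetI false
set_option linter.unusedSectionVars false

namespace Fermat.Agent.T2

open AlgebraicCurve IntermediateField Fermat.Agent.Curve Fermat.Agent.T1

variable {K F k Fb : Type*} [Field K] [Field F] [Algebra K F] [Field k] [Field Fb] [Algebra k Fb]

namespace T2grChart

variable {d : T2Base K F k Fb} (ch : T2grChart d)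

theorem hxO (Q : ℕ) : ch.x ^ Q - ch.x ∈ d.Ov := d.Ov.sub_mem (d.Ov.pow_mem ch.hx Q) ch.hx

theorem res_poly (Q : ℕ) : d.res ⟨ch.x ^ Q - ch.x, ch.hxO Q⟩ = ch.xb ^ Q - ch.xb := by
  rw [d.res_sub' (d.Ov.pow_mem ch.hx Q) ch.hx, d.res_pow' ch.hx Q]
  rfl

theorem hhO (Q : ℕ) : (ch.x ^ Q - ch.x) * ch.x⁻¹ ^ Q ∈ d.Ov :=
  d.Ov.mul_mem (ch.hxO Q) (d.Ov.pow_mem ch.hxi Q)

theorem res_h (Q : ℕ) :
    d.res ⟨(ch.x ^ Q - ch.x) * ch.x⁻¹ ^ Q, ch.hhO Q⟩ = (ch.xb ^ Q - ch.xb) * ch.xb⁻¹ ^ Q := by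
  rw [d.res_mul' (ch.hxO Q) (d.Ov.pow_mem ch.hxi Q), ch.res_poly, d.res_pow' ch.hxi Q,
    ch.res_x_inv]

variable {Ω FΩ : Type*} [Field Ω] [Field FΩ] [Algebra Ω FΩ] [IsAlgClosed Ω] [IsAlgClosed k]

/-- **(Int) for `x = j^Q - j` and `x⁻¹` from (Int) for `j` and `j⁻¹`** -/
noncomputable def poly (Φ : F →+* FΩ)
    (hΦ : ∀ y u : F, IsIntegral ↥(Algebra.adjoin K {y}) u ↔
      IsIntegral ↥(Algebra.adjoin Ω {Φ y}) (Φ u))
    (hJ : IsFunctionFieldGen Ω FΩ (Φ ch.x)) [Algebra.IsSeparable ↥Ω⟮Φ ch.x⟯ FΩ]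
    {Q : ℕ} (hQ : 2 ≤ Q) [Algebra.IsSeparable ↥Ω⟮Φ ch.x ^ Q - Φ ch.x⟯ FΩ]
    (hjb : IsFunctionFieldGen k Fb ch.xb) [Algebra.IsSeparable ↥k⟮ch.xb⟯ Fb]
    [Algebra.IsSeparable ↥k⟮ch.xb ^ Q - ch.xb⟯ Fb]
    (hxi : (ch.x ^ Q - ch.x)⁻¹ ∈ d.Ov) : T2grChart d where
  x := ch.x ^ Q - ch.x
  hx := ch.hxO Q
  hxi := hxi
  hx0 := by
    intro h0
    have h1 := t2gr_x_ne_zero hJ hQ
    apply h1
    rw [← map_pow, ← map_sub, h0, map_zero]
  int1 := by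
    intro f hf hint
    rw [ch.res_poly Q, t2gr_isIntegral_iff hjb hQ]
    refine ch.int1 f hf ?_
    rw [hΦ] at hint ⊢
    rw [map_sub, map_pow] at hint
    exact (t2gr_isIntegral_iff hJ hQ).mp hint
  int2 := by
    intro f hf hint
    rw [ch.res_poly Q, t2gr_isIntegral_inv_iff hjb hQ]
    rw [hΦ, map_inv₀, map_sub, map_pow, t2gr_isIntegral_inv_iff hJ hQ] at hint
    obtain ⟨D, h1, h2⟩ := hint
    refine ⟨D, ?_, ?_⟩
    · have h3 : IsIntegral ↥(Algebra.adjoin K {ch.x}) ((ch.x ^ Q - ch.x) ^ D * f) := by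
        rw [hΦ, map_mul, map_pow, map_sub, map_pow]
        exact h1
      have h4 := ch.int1 _ (d.Ov.mul_mem (d.Ov.pow_mem (ch.hxO Q) D) hf) h3
      rw [d.res_mul' (d.Ov.pow_mem (ch.hxO Q) D) hf, d.res_pow' (ch.hxO Q) D, ch.res_poly] at h4
      exact h4
    · have h3 : IsIntegral ↥(Algebra.adjoin K {ch.x⁻¹})
          (((ch.x ^ Q - ch.x) * ch.x⁻¹ ^ Q) ^ D * f) := by
        rw [hΦ, map_mul, map_pow, map_mul, map_sub, map_pow, map_pow, map_inv₀]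
        exact h2
      have h4 := ch.int2 _ (d.Ov.mul_mem (d.Ov.pow_mem (ch.hhO Q) D) hf) h3
      rw [d.res_mul' (d.Ov.pow_mem (ch.hhO Q) D) hf, d.res_pow' (ch.hhO Q) D, ch.res_h] at h4
      exact h4

end T2grChart

end Fermat.Agent.T2
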