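/-
T2-C LEAF GR (helper2): good reduction of level `N` at the DVR level `H`, for the charts
`x = j^Q - j` and `x⁻¹` (`Q ≥ 2` divisible by the residue characteristic).

`T2grBaseH 𝔓 N H`: a `T2Base` for `F_H = tbLevF 𝔓 N H` over `L_H = tbFix 𝔓 H` whose Gauss ring is
`{f | TbGauss f}` and whose residue map is `tbRhoFun` (= what helper9's BaseH provides).  For
`¬ 𝔓.p ∣ N`, `4 ∣ N ∨ 9 ∣ N`, `H` of finite index:

* `T2grBaseH.chartJ`, `T2grBaseH.chartX`: the `T2grChart`s (= (Int) on both sides) of `j` and `x`;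
* `T2grBaseH.GR1`: every `t ∈ F̄_N` integral over `κ[x̄]` is the residue of an `f ∈ 𝒪` integral over
  `L_H[x]`;
* `T2grBaseH.GR2`: the same for `κ[x̄⁻¹]` and `L_H[x⁻¹]`.
-/
import Fermat.Agent.Lib.T2.Inst.GoodRedPoly
import Fermat.Agent.Lib.T2.Inst.FastInst
import Fermat.Agent.Lib.T2.Desc.LevelMod
import Fermat.Agent.Lib.T1.S18.AllLevels

set_option autoImplicit false
set_option linter.style.haveILetI false
set_option linter.unusedSectionVars false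
set_option synthInstance.maxHeartbeats 400000

open HahnSeries ModularCurve Fermat.Agent.TW Fermat.Agent.S05Lib AlgebraicCurve
  Fermat.Agent.Curve IntermediateField Fermat.Agent.T1

noncomputable section

namespace Fermat.Agent.T2

local notation "Qb" => AlgebraicClosure ℚ

open scoped Fermat.Agent.T2.T2grInst

/-- in characteristic zero every function-field generator is separating -/
theorem t2gr_isSeparable_charZero {K F : Type*} [Field K] [Field F] [Algebra K F] [CharZero K]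
    {x : F} (hx : IsFunctionFieldGen K F x) : Algebra.IsSeparable ↥K⟮x⟯ F := by
  haveI := hx.finite
  haveI : CharZero ↥K⟮x⟯ := charZero_of_injective_algebraMap (algebraMap K ↥K⟮x⟯).injective
  infer_instance

variable (𝔓 : FFPlace) (N : ℕ) [NeZero N] (H : Subgroup 𝔓.I)

/-- a level-`H` base whose Gauss ring and residue map are the concrete ones -/
structure T2grBaseH where
  /-- the base -/
  d : T2Base ↥(tbFix 𝔓 H) ↥(tbLevF 𝔓 N H) (IsLocalRing.ResidueField ↥𝔓.P) ↥(tbBarF 𝔓 N)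
  mem_Ov : ∀ f : ↥(tbLevF 𝔓 N H), f ∈ d.Ov ↔
    TbGauss (tbFixO 𝔓 H) (tbFixRes 𝔓 H) (f : LaurentSeries ↥(tbFix 𝔓 H))
  coe_res : ∀ (f : ↥(tbLevF 𝔓 N H)) (hf : f ∈ d.Ov),
    ((d.res ⟨f, hf⟩ : ↥(tbBarF 𝔓 N)) : LaurentSeries (IsLocalRing.ResidueField ↥𝔓.P)) =
      tbRhoFun (tbFixO 𝔓 H) (tbFixRes 𝔓 H) (f : LaurentSeries ↥(tbFix 𝔓 H))

namespace T2grBaseH

variable {𝔓 N H} (B : T2grBaseH 𝔓 N H)

theorem j_mem : tbLevJ 𝔓 N H ∈ B.d.Ov := by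
  rw [B.mem_Ov]
  have h1 : ((tbLevJ 𝔓 N H : ↥(tbLevF 𝔓 N H)) : LaurentSeries ↥(tbFix 𝔓 H)) =
      tbInc (tbFixO 𝔓 H) (jqModC ↥(tbFixO 𝔓 H)) := (coeffMap_jqModC _).symm
  rw [h1]
  exact tbGauss_inc _ _ _

theorem res_j : B.d.res ⟨tbLevJ 𝔓 N H, B.j_mem⟩ = tbBarJ 𝔓 N := by
  apply Subtype.ext
  rw [B.coe_res]
  have h1 : ((tbLevJ 𝔓 N H : ↥(tbLevF 𝔓 N H)) : LaurentSeries ↥(tbFix 𝔓 H)) =
      tbInc (tbFixO 𝔓 H) (jqModC ↥(tbFixO 𝔓 H)) := (coeffMap_jqModC _).symm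
  rw [h1]
  have h2 := tbRho_inc (tbFixO 𝔓 H) (tbFixRes 𝔓 H) (jqModC ↥(tbFixO 𝔓 H))
  rw [tbRho_apply] at h2
  rw [h2]
  exact coeffMap_jqModC _

/-- Gauss elements with non-zero residue are Gauss units -/
theorem inv_mem {f : ↥(tbLevF 𝔓 N H)} (hf : f ∈ B.d.Ov) (h0 : B.d.res ⟨f, hf⟩ ≠ 0) :
    f⁻¹ ∈ B.d.Ov := by
  have hf' := (B.mem_Ov f).mp hf
  rw [B.mem_Ov]
  have h1 : ((f⁻¹ : ↥(tbLevF 𝔓 N H)) : LaurentSeries ↥(tbFix 𝔓 H)) =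
      ((f : ↥(tbLevF 𝔓 N H)) : LaurentSeries ↥(tbFix 𝔓 H))⁻¹ := rfl
  rw [h1]
  refine tbGauss_inv _ _ hf' ?_
  rw [← B.coe_res f hf]
  intro h2
  exact h0 (Subtype.ext h2)

theorem barJ_ne_zero : tbBarJ 𝔓 N ≠ 0 := by
  intro h
  have := congrArg (Subtype.val : ↥(tbBarF 𝔓 N) → LaurentSeries _) h
  exact jqModC_ne_zero_of_nontrivial _ this

theorem levJ_ne_zero : tbLevJ 𝔓 N H ≠ 0 := by
  intro h
  have := congrArg (Subtype.val : ↥(tbLevF 𝔓 N H) → LaurentSeries _) h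
  exact jqModC_ne_zero_of_nontrivial _ this

set_option maxHeartbeats 1600000 in
theorem int1_j (hOK : TbLevelOK 𝔓 N H) (f : ↥(tbLevF 𝔓 N H)) (hf : f ∈ B.d.Ov)
    (hint : IsIntegral ↥(Algebra.adjoin ↥(tbFix 𝔓 H) {tbLevJ 𝔓 N H}) f) :
    IsIntegral ↥(Algebra.adjoin (IsLocalRing.ResidueField ↥𝔓.P) {tbBarJ 𝔓 N})
      (B.d.res ⟨f, hf⟩) := by
  have h1 := hOK.int1 f ((B.mem_Ov f).mp hf) hint
  have h2 : (⟨tbRhoFun (tbFixO 𝔓 H) (tbFixRes 𝔓 H) (f : LaurentSeries ↥(tbFix 𝔓 H)),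
      hOK.range _ f.2 ((B.mem_Ov f).mp hf)⟩ : ↥(tbBarF 𝔓 N)) = B.d.res ⟨f, hf⟩ :=
    Subtype.ext (B.coe_res f hf).symm
  rw [h2] at h1
  exact h1

set_option maxHeartbeats 1600000 in
theorem int2_j (hOK : TbLevelOK 𝔓 N H) (f : ↥(tbLevF 𝔓 N H)) (hf : f ∈ B.d.Ov)
    (hint : IsIntegral ↥(Algebra.adjoin ↥(tbFix 𝔓 H) {(tbLevJ 𝔓 N H)⁻¹}) f) :
    IsIntegral ↥(Algebra.adjoin (IsLocalRing.ResidueField ↥𝔓.P) {(tbBarJ 𝔓 N)⁻¹})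
      (B.d.res ⟨f, hf⟩) := by
  have h1 := hOK.int2 f ((B.mem_Ov f).mp hf) hint
  have h2 : (⟨tbRhoFun (tbFixO 𝔓 H) (tbFixRes 𝔓 H) (f : LaurentSeries ↥(tbFix 𝔓 H)),
      hOK.range _ f.2 ((B.mem_Ov f).mp hf)⟩ : ↥(tbBarF 𝔓 N)) = B.d.res ⟨f, hf⟩ :=
    Subtype.ext (B.coe_res f hf).symm
  rw [h2] at h1
  exact h1

set_option maxHeartbeats 1600000 in
/-- the chart `j` -/
def chartJ (hOK : TbLevelOK 𝔓 N H) : T2grChart B.d where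
  x := tbLevJ 𝔓 N H
  hx := B.j_mem
  hxi := B.inv_mem B.j_mem (by rw [B.res_j]; exact barJ_ne_zero)
  hx0 := levJ_ne_zero
  int1 := by
    intro f hf hint
    rw [B.res_j]
    exact B.int1_j hOK f hf hint
  int2 := by
    intro f hf hint
    rw [B.res_j]
    exact B.int2_j hOK f hf hint

theorem chartJ_x (hOK : TbLevelOK 𝔓 N H) : (B.chartJ hOK).x = tbLevJ 𝔓 N H := rfl

theorem chartJ_xb (hOK : TbLevelOK 𝔓 N H) : (B.chartJ hOK).xb = tbBarJ 𝔓 N := B.res_j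

/-! ### The chart `x = j^Q - j` -/

theorem barX_ne_zero {Q : ℕ} (hQ : 2 ≤ Q) : tbBarJ 𝔓 N ^ Q - tbBarJ 𝔓 N ≠ 0 := by
  haveI : IsAlgClosed (IsLocalRing.ResidueField ↥𝔓.P) := tb_isAlgClosed_residueField 𝔓.P
  exact t2gr_x_ne_zero (tbq_bar_isFunctionFieldGen 𝔓 N) hQ

theorem x_mem (Q : ℕ) : tbLevJ 𝔓 N H ^ Q - tbLevJ 𝔓 N H ∈ B.d.Ov :=
  B.d.Ov.sub_mem (B.d.Ov.pow_mem B.j_mem Q) B.j_mem

theorem res_x (Q : ℕ) : B.d.res ⟨tbLevJ 𝔓 N H ^ Q - tbLevJ 𝔓 N H, B.x_mem Q⟩ =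
    tbBarJ 𝔓 N ^ Q - tbBarJ 𝔓 N := by
  rw [B.d.res_sub' (B.d.Ov.pow_mem B.j_mem Q) B.j_mem, B.d.res_pow' B.j_mem Q, B.res_j]

theorem x_inv_mem {Q : ℕ} (hQ : 2 ≤ Q) :
    (tbLevJ 𝔓 N H ^ Q - tbLevJ 𝔓 N H)⁻¹ ∈ B.d.Ov := by
  refine B.inv_mem (B.x_mem Q) ?_
  rw [B.res_x]
  exact barX_ne_zero hQ

theorem gen_J : IsFunctionFieldGen Qb ↥(modularFunctionFieldBar N) (tbJ N) :=
  Fermat.Agent.S24Lib.isFunctionFieldGen_jBar N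

theorem tbPhiF_poly (Q : ℕ) :
    tbPhiF 𝔓 N H (tbLevJ 𝔓 N H ^ Q - tbLevJ 𝔓 N H) = tbJ N ^ Q - tbJ N := by
  rw [map_sub, map_pow, tbPhiF_tbLevJ]

theorem gen_X {Q : ℕ} (hQ : 2 ≤ Q) :
    IsFunctionFieldGen Qb ↥(modularFunctionFieldBar N) (tbJ N ^ Q - tbJ N) :=
  t2gr_gen gen_J hQ

theorem gen_barX {Q : ℕ} (hQ : 2 ≤ Q) :
    IsFunctionFieldGen (IsLocalRing.ResidueField ↥𝔓.P) ↥(tbBarF 𝔓 N)
      (tbBarJ 𝔓 N ^ Q - tbBarJ 𝔓 N) := by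
  haveI : IsAlgClosed (IsLocalRing.ResidueField ↥𝔓.P) := tb_isAlgClosed_residueField 𝔓.P
  exact t2gr_gen (tbq_bar_isFunctionFieldGen 𝔓 N) hQ

theorem sep_barX (hN : ¬ 𝔓.p ∣ N) {Q : ℕ} (hpQ : 𝔓.p ∣ Q) :
    Algebra.IsSeparable ↥((IsLocalRing.ResidueField ↥𝔓.P)⟮tbBarJ 𝔓 N ^ Q - tbBarJ 𝔓 N⟯)
      ↥(tbBarF 𝔓 N) := by
  haveI : CharP (IsLocalRing.ResidueField ↥𝔓.P) 𝔓.p := tkr_charP_residue 𝔓.hp 𝔓.hP
  haveI := tbq_bar_isSeparable (𝔓 := 𝔓) (N := N) hN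
  exact t2gr_isSeparable_AS 𝔓.p Q hpQ (tbBarJ 𝔓 N)

set_option maxHeartbeats 1600000 in
/-- the chart `x = j^Q - j` -/
def chartX (hOK : TbLevelOK 𝔓 N H) (hN : ¬ 𝔓.p ∣ N) {Q : ℕ} (hQ : 2 ≤ Q) (hpQ : 𝔓.p ∣ Q) :
    T2grChart B.d := by
  haveI : IsAlgClosed (IsLocalRing.ResidueField ↥𝔓.P) := tb_isAlgClosed_residueField 𝔓.P
  have hJ : IsFunctionFieldGen Qb ↥(modularFunctionFieldBar N)
      (tbPhiF 𝔓 N H (B.chartJ hOK).x) := by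
    rw [B.chartJ_x, tbPhiF_tbLevJ]
    exact gen_J
  haveI : Algebra.IsSeparable ↥Qb⟮tbPhiF 𝔓 N H (B.chartJ hOK).x⟯
      ↥(modularFunctionFieldBar N) := t2gr_isSeparable_charZero hJ
  haveI : Algebra.IsSeparable
      ↥Qb⟮tbPhiF 𝔓 N H (B.chartJ hOK).x ^ Q - tbPhiF 𝔓 N H (B.chartJ hOK).x⟯
      ↥(modularFunctionFieldBar N) := t2gr_isSeparable_charZero (t2gr_gen hJ hQ)
  have hjb : IsFunctionFieldGen (IsLocalRing.ResidueField ↥𝔓.P) ↥(tbBarF 𝔓 N)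
      (B.chartJ hOK).xb := by
    rw [B.chartJ_xb]
    exact tbq_bar_isFunctionFieldGen 𝔓 N
  haveI : Algebra.IsSeparable ↥((IsLocalRing.ResidueField ↥𝔓.P)⟮(B.chartJ hOK).xb⟯)
      ↥(tbBarF 𝔓 N) := by
    rw [B.chartJ_xb]
    exact tbq_bar_isSeparable hN
  haveI : Algebra.IsSeparable
      ↥((IsLocalRing.ResidueField ↥𝔓.P)⟮(B.chartJ hOK).xb ^ Q - (B.chartJ hOK).xb⟯)
      ↥(tbBarF 𝔓 N) := by
    rw [B.chartJ_xb]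
    exact sep_barX hN hpQ
  exact (B.chartJ hOK).poly (tbPhiF 𝔓 N H)
    (fun y u => t2d_isIntegral_tbPhiF_iff 𝔓 N H y u) hJ hQ hjb (B.x_inv_mem hQ)

theorem chartX_x (hOK : TbLevelOK 𝔓 N H) (hN : ¬ 𝔓.p ∣ N) {Q : ℕ} (hQ : 2 ≤ Q)
    (hpQ : 𝔓.p ∣ Q) : (B.chartX hOK hN hQ hpQ).x = tbLevJ 𝔓 N H ^ Q - tbLevJ 𝔓 N H := rfl

theorem chartX_xb (hOK : TbLevelOK 𝔓 N H) (hN : ¬ 𝔓.p ∣ N) {Q : ℕ} (hQ : 2 ≤ Q)
    (hpQ : 𝔓.p ∣ Q) : (B.chartX hOK hN hQ hpQ).xb = tbBarJ 𝔓 N ^ Q - tbBarJ 𝔓 N :=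
  B.res_x Q

/-! ### Dimensions -/

/-- the residue degree of the chart `x` is at most its generic degree -/
theorem finrank_barX_le (hN : ¬ 𝔓.p ∣ N) {Q : ℕ} (hQ : 2 ≤ Q) :
    Module.finrank ↥((IsLocalRing.ResidueField ↥𝔓.P)⟮tbBarJ 𝔓 N ^ Q - tbBarJ 𝔓 N⟯)
        ↥(tbBarF 𝔓 N) ≤
      Module.finrank ↥Qb⟮tbJ N ^ Q - tbJ N⟯ ↥(modularFunctionFieldBar N) := by
  have hOK : ∀ H : Subgroup 𝔓.I, H.FiniteIndex → TbLevelOK 𝔓 N H := tbq_allLevelsOK 𝔓 N hN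
  haveI := (gen_X (N := N) hQ).finite
  have hJm : tbJ N ∈ (tbBaseQ hOK).Ov := tbJ_mem_tbOvQ
  have hmem : tbJ N ^ Q - tbJ N ∈ (tbBaseQ hOK).Ov :=
    (tbBaseQ hOK).Ov.sub_mem ((tbBaseQ hOK).Ov.pow_mem hJm Q) hJm
  have hres : (tbBaseQ hOK).res ⟨tbJ N ^ Q - tbJ N, hmem⟩ = tbBarJ 𝔓 N ^ Q - tbBarJ 𝔓 N := by
    have h1 : (⟨tbJ N ^ Q - tbJ N, hmem⟩ : ↥(tbBaseQ hOK).Ov) =
        (⟨tbJ N, hJm⟩ : ↥(tbBaseQ hOK).Ov) ^ Q - ⟨tbJ N, hJm⟩ := rfl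
    rw [h1, map_sub, map_pow]
    have h2 : (tbBaseQ hOK).res ⟨tbJ N, hJm⟩ = tbBarJ 𝔓 N := tbResQ_tbJ hOK
    rw [h2]
  have h := (tbBaseQ hOK).finrank_res_le (x := tbJ N ^ Q - tbJ N) hmem
    (by rw [hres]; exact (gen_barX hQ).transcendental)
  rwa [hres] at h

/-- the genus does not drop under reduction -/
theorem genus_le (hN : ¬ 𝔓.p ∣ N) (h49 : 4 ∣ N ∨ 9 ∣ N) :
    CurveP.genusR Qb ↥(modularFunctionFieldBar N) ≤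
      CurveP.genusR (IsLocalRing.ResidueField ↥𝔓.P) ↥(tbBarF 𝔓 N) := by
  have h1 := tbq_genusR_ge (tbq_allLevelsOK 𝔓) h49 hN
  rw [← tbq_genusR_bar_eq] at h1
  exact_mod_cast h1

/-! ### Good reduction for a general chart -/

section Chart

variable (ch : T2grChart B.d)
  (hX : IsFunctionFieldGen Qb ↥(modularFunctionFieldBar N) (tbPhiF 𝔓 N H ch.x))
  (hxb : IsFunctionFieldGen (IsLocalRing.ResidueField ↥𝔓.P) ↥(tbBarF 𝔓 N) ch.xb)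
  [Algebra.IsSeparable ↥((IsLocalRing.ResidueField ↥𝔓.P)⟮ch.xb⟯) ↥(tbBarF 𝔓 N)]
  (hn : Module.finrank ↥((IsLocalRing.ResidueField ↥𝔓.P)⟮ch.xb⟯) ↥(tbBarF 𝔓 N) ≤
    Module.finrank ↥Qb⟮tbPhiF 𝔓 N H ch.x⟯ ↥(modularFunctionFieldBar N))

include hX in
theorem finiteDimensional_L (a b : ℕ) :
    FiniteDimensional ↥(tbFix 𝔓 H) ↥(tbLbar (K := ↥(tbFix 𝔓 H)) ch.x a b) :=
  t2d_finiteDimensional_tbLbar_mod 𝔓 N H hX a b

include hxb in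
theorem finiteDimensional_Lbar (a b : ℕ) :
    FiniteDimensional (IsLocalRing.ResidueField ↥𝔓.P)
      ↥(tbLbar (K := IsLocalRing.ResidueField ↥𝔓.P) ch.xb a b) := by
  haveI : IsAlgClosed (IsLocalRing.ResidueField ↥𝔓.P) := tb_isAlgClosed_residueField 𝔓.P
  exact tw_finiteDimensional_tbLbar hxb a b

include hX hxb hn in
set_option maxHeartbeats 1600000 in
/-- **the Riemann–Roch spaces of the special fibre are not bigger than those of the generic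
fibre** -/
theorem finrank_Lbar_le (hN : ¬ 𝔓.p ∣ N) (h49 : 4 ∣ N ∨ 9 ∣ N) (a b : ℕ)
    (hab : 2 * CurveP.genusR (IsLocalRing.ResidueField ↥𝔓.P) ↥(tbBarF 𝔓 N) + 1 ≤ a + b) :
    Module.finrank (IsLocalRing.ResidueField ↥𝔓.P)
        ↥(tbLbar (K := IsLocalRing.ResidueField ↥𝔓.P) ch.xb a b) ≤
      Module.finrank ↥(tbFix 𝔓 H) ↥(tbLbar (K := ↥(tbFix 𝔓 H)) ch.x a b) := by
  haveI : IsAlgClosed (IsLocalRing.ResidueField ↥𝔓.P) := tb_isAlgClosed_residueField 𝔓.P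
  have hgle := genus_le (𝔓 := 𝔓) (N := N) hN h49
  have hnpos : 0 < Module.finrank
      ↥((IsLocalRing.ResidueField ↥𝔓.P)⟮ch.xb⟯) ↥(tbBarF 𝔓 N) := by
    haveI := hxb.finite
    exact Module.finrank_pos
  have hg := t2d_dim0_mod 𝔓 N H hX a b (by omega)
  have hgle' : (CurveP.genusR Qb ↥(modularFunctionFieldBar N) : ℤ) ≤
      (CurveP.genusR (IsLocalRing.ResidueField ↥𝔓.P) ↥(tbBarF 𝔓 N) : ℤ) := by
    exact_mod_cast hgle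
  have hnle' : (Module.finrank
      ↥((IsLocalRing.ResidueField ↥𝔓.P)⟮ch.xb⟯) ↥(tbBarF 𝔓 N) : ℤ) ≤
      (Module.finrank ↥Qb⟮tbPhiF 𝔓 N H ch.x⟯ ↥(modularFunctionFieldBar N) : ℤ) := by
    exact_mod_cast hn
  have hnpos' : (1 : ℤ) ≤ (Module.finrank
      ↥((IsLocalRing.ResidueField ↥𝔓.P)⟮ch.xb⟯) ↥(tbBarF 𝔓 N) : ℤ) := by
    exact_mod_cast hnpos
  have hab' : 2 * (CurveP.genusR (IsLocalRing.ResidueField ↥𝔓.P) ↥(tbBarF 𝔓 N) : ℤ) + 1 ≤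
      ((a + b : ℕ) : ℤ) := by exact_mod_cast hab
  have hab0 : (0 : ℤ) ≤ ((a + b : ℕ) : ℤ) := Int.natCast_nonneg _
  have hmul1 := le_mul_of_one_le_right hab0 hnpos'
  have hmul2 := mul_le_mul_of_nonneg_left hnle' hab0
  have hb := tw_finrank_tbLbar hxb a b (by linarith)
  have key : (Module.finrank (IsLocalRing.ResidueField ↥𝔓.P)
      ↥(tbLbar (K := IsLocalRing.ResidueField ↥𝔓.P) ch.xb a b) : ℤ) ≤
      (Module.finrank ↥(tbFix 𝔓 H) ↥(tbLbar (K := ↥(tbFix 𝔓 H)) ch.x a b) : ℤ) := by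
    rw [hb, hg]
    linarith
  exact_mod_cast key

include hX hxb hn in
set_option maxHeartbeats 1600000 in
/-- **(GR1) for a chart**: every element of `F̄_N` integral over `κ[x̄]` is the residue of an
element of the Gauss ring integral over `L_H[x]` -/
theorem GR1_of_chart (hN : ¬ 𝔓.p ∣ N) (h49 : 4 ∣ N ∨ 9 ∣ N) {t : ↥(tbBarF 𝔓 N)}
    (ht : IsIntegral ↥(Algebra.adjoin (IsLocalRing.ResidueField ↥𝔓.P) {ch.xb}) t) :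
    ∃ f, ∃ hf : f ∈ B.d.Ov, IsIntegral ↥(Algebra.adjoin ↥(tbFix 𝔓 H) {ch.x}) f ∧
      B.d.res ⟨f, hf⟩ = t := by
  haveI : IsAlgClosed (IsLocalRing.ResidueField ↥𝔓.P) := tb_isAlgClosed_residueField 𝔓.P
  exact ch.exists_lift_of_isIntegral
    (2 * CurveP.genusR (IsLocalRing.ResidueField ↥𝔓.P) ↥(tbBarF 𝔓 N) + 1)
    (fun a => B.finiteDimensional_L ch hX a 0) (fun a => B.finiteDimensional_Lbar ch hxb a 0)
    (fun a ha => B.finrank_Lbar_le ch hX hxb hn hN h49 a 0 (by omega))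
    (fun t ht => t2gr_exists_pow_mul hxb ht) ht

include hX hxb hn in
set_option maxHeartbeats 1600000 in
/-- **(GR2) for a chart**: every element of `F̄_N` integral over `κ[x̄⁻¹]` is the residue of an
element of the Gauss ring integral over `L_H[x⁻¹]` -/
theorem GR2_of_chart (hN : ¬ 𝔓.p ∣ N) (h49 : 4 ∣ N ∨ 9 ∣ N) {t : ↥(tbBarF 𝔓 N)}
    (ht : IsIntegral ↥(Algebra.adjoin (IsLocalRing.ResidueField ↥𝔓.P) {ch.xb⁻¹}) t) :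
    ∃ f, ∃ hf : f ∈ B.d.Ov, IsIntegral ↥(Algebra.adjoin ↥(tbFix 𝔓 H) {ch.x⁻¹}) f ∧
      B.d.res ⟨f, hf⟩ = t := by
  haveI : IsAlgClosed (IsLocalRing.ResidueField ↥𝔓.P) := tb_isAlgClosed_residueField 𝔓.P
  exact ch.exists_lift_of_isIntegral_inv
    (2 * CurveP.genusR (IsLocalRing.ResidueField ↥𝔓.P) ↥(tbBarF 𝔓 N) + 1)
    (fun b => B.finiteDimensional_L ch hX 0 b) (fun b => B.finiteDimensional_Lbar ch hxb 0 b)
    (fun b hb => B.finrank_Lbar_le ch hX hxb hn hN h49 0 b (by omega))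
    (fun t ht => t2gr_exists_pow_mul_inv hxb ht) ht

end Chart

/-! ### Good reduction for the charts `j` and `x = j^Q - j` -/

section Final

variable (hOK : TbLevelOK 𝔓 N H) (hN : ¬ 𝔓.p ∣ N) (h49 : 4 ∣ N ∨ 9 ∣ N)

include hOK hN h49

set_option maxHeartbeats 1600000 in
/-- **(GR1) for the chart `j`** -/
theorem GR1_j {t : ↥(tbBarF 𝔓 N)}
    (ht : IsIntegral ↥(Algebra.adjoin (IsLocalRing.ResidueField ↥𝔓.P) {tbBarJ 𝔓 N}) t) :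
    ∃ f, ∃ hf : f ∈ B.d.Ov, IsIntegral ↥(Algebra.adjoin ↥(tbFix 𝔓 H) {tbLevJ 𝔓 N H}) f ∧
      B.d.res ⟨f, hf⟩ = t := by
  have hxb := B.chartJ_xb hOK
  haveI : Algebra.IsSeparable ↥((IsLocalRing.ResidueField ↥𝔓.P)⟮(B.chartJ hOK).xb⟯)
      ↥(tbBarF 𝔓 N) := by
    rw [hxb]
    exact tbq_bar_isSeparable hN
  refine B.GR1_of_chart (B.chartJ hOK) ?_ ?_ ?_ hN h49 ?_
  · rw [B.chartJ_x, tbPhiF_tbLevJ]
    exact gen_J
  · rw [hxb]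
    exact tbq_bar_isFunctionFieldGen 𝔓 N
  · rw [hxb, B.chartJ_x, tbPhiF_tbLevJ, tbq_finrank_bar (tbq_allLevelsOK 𝔓 N hN) hN]
    exact (Fermat.Agent.S24Lib.finrank_jBar N).ge
  · rw [hxb]
    exact ht

set_option maxHeartbeats 1600000 in
/-- **(GR2) for the chart `j`** -/
theorem GR2_j {t : ↥(tbBarF 𝔓 N)}
    (ht : IsIntegral ↥(Algebra.adjoin (IsLocalRing.ResidueField ↥𝔓.P) {(tbBarJ 𝔓 N)⁻¹}) t) :
    ∃ f, ∃ hf : f ∈ B.d.Ov,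
      IsIntegral ↥(Algebra.adjoin ↥(tbFix 𝔓 H) {(tbLevJ 𝔓 N H)⁻¹}) f ∧
        B.d.res ⟨f, hf⟩ = t := by
  have hxb := B.chartJ_xb hOK
  haveI : Algebra.IsSeparable ↥((IsLocalRing.ResidueField ↥𝔓.P)⟮(B.chartJ hOK).xb⟯)
      ↥(tbBarF 𝔓 N) := by
    rw [hxb]
    exact tbq_bar_isSeparable hN
  refine B.GR2_of_chart (B.chartJ hOK) ?_ ?_ ?_ hN h49 ?_
  · rw [B.chartJ_x, tbPhiF_tbLevJ]
    exact gen_J
  · rw [hxb]
    exact tbq_bar_isFunctionFieldGen 𝔓 N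
  · rw [hxb, B.chartJ_x, tbPhiF_tbLevJ, tbq_finrank_bar (tbq_allLevelsOK 𝔓 N hN) hN]
    exact (Fermat.Agent.S24Lib.finrank_jBar N).ge
  · rw [hxb]
    exact ht

variable {Q : ℕ} (hQ : 2 ≤ Q) (hpQ : 𝔓.p ∣ Q)

include hQ hpQ

set_option maxHeartbeats 1600000 in
/-- **(GR1)**: every element of `F̄_N` integral over `κ[x̄]`, `x̄ = j̄^Q - j̄`, is the residue of an
element of the Gauss ring integral over `L_H[x]`, `x = j^Q - j` -/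
theorem GR1 {t : ↥(tbBarF 𝔓 N)}
    (ht : IsIntegral ↥(Algebra.adjoin (IsLocalRing.ResidueField ↥𝔓.P)
      {tbBarJ 𝔓 N ^ Q - tbBarJ 𝔓 N}) t) :
    ∃ f, ∃ hf : f ∈ B.d.Ov,
      IsIntegral ↥(Algebra.adjoin ↥(tbFix 𝔓 H) {tbLevJ 𝔓 N H ^ Q - tbLevJ 𝔓 N H}) f ∧
        B.d.res ⟨f, hf⟩ = t := by
  have hxb := B.chartX_xb hOK hN hQ hpQ
  haveI : Algebra.IsSeparable
      ↥((IsLocalRing.ResidueField ↥𝔓.P)⟮(B.chartX hOK hN hQ hpQ).xb⟯) ↥(tbBarF 𝔓 N) := by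
    rw [hxb]
    exact sep_barX hN hpQ
  refine B.GR1_of_chart (B.chartX hOK hN hQ hpQ) ?_ ?_ ?_ hN h49 ?_
  · rw [B.chartX_x, tbPhiF_poly]
    exact gen_X hQ
  · rw [hxb]
    exact gen_barX hQ
  · rw [hxb, B.chartX_x, tbPhiF_poly]
    exact finrank_barX_le hN hQ
  · rw [hxb]
    exact ht

set_option maxHeartbeats 1600000 in
/-- **(GR2)**: every element of `F̄_N` integral over `κ[x̄⁻¹]` is the residue of an element of the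
Gauss ring integral over `L_H[x⁻¹]` -/
theorem GR2 {t : ↥(tbBarF 𝔓 N)}
    (ht : IsIntegral ↥(Algebra.adjoin (IsLocalRing.ResidueField ↥𝔓.P)
      {(tbBarJ 𝔓 N ^ Q - tbBarJ 𝔓 N)⁻¹}) t) :
    ∃ f, ∃ hf : f ∈ B.d.Ov,
      IsIntegral ↥(Algebra.adjoin ↥(tbFix 𝔓 H) {(tbLevJ 𝔓 N H ^ Q - tbLevJ 𝔓 N H)⁻¹}) f ∧
        B.d.res ⟨f, hf⟩ = t := by
  have hxb := B.chartX_xb hOK hN hQ hpQ
  haveI : Algebra.IsSeparable
      ↥((IsLocalRing.ResidueField ↥𝔓.P)⟮(B.chartX hOK hN hQ hpQ).xb⟯) ↥(tbBarF 𝔓 N) := by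
    rw [hxb]
    exact sep_barX hN hpQ
  refine B.GR2_of_chart (B.chartX hOK hN hQ hpQ) ?_ ?_ ?_ hN h49 ?_
  · rw [B.chartX_x, tbPhiF_poly]
    exact gen_X hQ
  · rw [hxb]
    exact gen_barX hQ
  · rw [hxb, B.chartX_x, tbPhiF_poly]
    exact finrank_barX_le hN hQ
  · rw [hxb]
    exact ht

end Final

end T2grBaseH

end Fermat.Agent.T2
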