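/-
T2-C LEAF GR (helper2), final form: good reduction of level `N` (`𝔓.p ∤ N`, `4 ∣ N` or `9 ∣ N`) at
the DVR level `H`, for helper9's base `t2iBaseFix 𝔓 H N hN` (`Lib/T2/Inst/LevelH.lean`) and the
charts `j` and `x = j^Q - j` (`Q ≥ 2`, `𝔓.p ∣ Q`; in the application `Q = 𝔓.p ^ 2`):

* `t2grChartJ`, `t2grChartX : T2grChart (t2iBaseFix 𝔓 H N hN)` — (Int) on both sides;
* `t2gr_GR1_j`, `t2gr_GR2_j`, `t2gr_GR1`, `t2gr_GR2` — integral elements of the special fibre lift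
  to integral elements of the Gauss ring.
-/
import Fermat.Agent.Lib.T2.Inst.GoodRed
import Fermat.Agent.Lib.T2.Inst.LevelH

set_option autoImplicit false
set_option linter.style.haveILetI false
set_option linter.unusedSectionVars false
set_option synthInstance.maxHeartbeats 400000

open HahnSeries ModularCurve Fermat.Agent.TW Fermat.Agent.S05Lib AlgebraicCurve
  Fermat.Agent.Curve IntermediateField Fermat.Agent.T1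

noncomputable section

namespace Fermat.Agent.T2

open scoped Fermat.Agent.T2.T2grInst

variable (𝔓 : FFPlace) (H : Subgroup 𝔓.I) [H.FiniteIndex] (N : ℕ) [NeZero N] (hN : ¬ 𝔓.p ∣ N)

/-- helper9's base `t2iBaseFix` as a `T2grBaseH` -/
def t2grBaseH : T2grBaseH 𝔓 N H where
  d := t2iBaseFix 𝔓 H N hN
  mem_Ov := mem_t2iBaseFix_Ov 𝔓 H N hN
  coe_res := coe_t2iBaseFix_res 𝔓 H N hN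

theorem t2grBaseH_d : (t2grBaseH 𝔓 H N hN).d = t2iBaseFix 𝔓 H N hN := rfl

/-- the chart `j` of `t2iBaseFix` -/
def t2grChartJ : T2grChart (t2iBaseFix 𝔓 H N hN) :=
  (t2grBaseH 𝔓 H N hN).chartJ (tbq_levelOK 𝔓 N H hN)

theorem t2grChartJ_x : (t2grChartJ 𝔓 H N hN).x = tbLevJ 𝔓 N H := rfl

theorem t2grChartJ_xb : (t2grChartJ 𝔓 H N hN).xb = tbBarJ 𝔓 N :=
  (t2grBaseH 𝔓 H N hN).chartJ_xb (tbq_levelOK 𝔓 N H hN)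

/-- the chart `x = j^Q - j` of `t2iBaseFix` -/
def t2grChartX {Q : ℕ} (hQ : 2 ≤ Q) (hpQ : 𝔓.p ∣ Q) : T2grChart (t2iBaseFix 𝔓 H N hN) :=
  (t2grBaseH 𝔓 H N hN).chartX (tbq_levelOK 𝔓 N H hN) hN hQ hpQ

theorem t2grChartX_x {Q : ℕ} (hQ : 2 ≤ Q) (hpQ : 𝔓.p ∣ Q) :
    (t2grChartX 𝔓 H N hN hQ hpQ).x = tbLevJ 𝔓 N H ^ Q - tbLevJ 𝔓 N H := rfl

theorem t2grChartX_xb {Q : ℕ} (hQ : 2 ≤ Q) (hpQ : 𝔓.p ∣ Q) :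
    (t2grChartX 𝔓 H N hN hQ hpQ).xb = tbBarJ 𝔓 N ^ Q - tbBarJ 𝔓 N :=
  (t2grBaseH 𝔓 H N hN).chartX_xb (tbq_levelOK 𝔓 N H hN) hN hQ hpQ

/-- `j ∈ 𝒪` -/
theorem t2gr_j_mem : tbLevJ 𝔓 N H ∈ (t2iBaseFix 𝔓 H N hN).Ov := (t2grBaseH 𝔓 H N hN).j_mem

/-- `res j = j̄` -/
theorem t2gr_res_j :
    (t2iBaseFix 𝔓 H N hN).res ⟨tbLevJ 𝔓 N H, t2gr_j_mem 𝔓 H N hN⟩ = tbBarJ 𝔓 N :=
  (t2grBaseH 𝔓 H N hN).res_j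

/-- Gauss elements with non-zero residue are Gauss units -/
theorem t2gr_inv_mem {f : ↥(tbLevF 𝔓 N H)} (hf : f ∈ (t2iBaseFix 𝔓 H N hN).Ov)
    (h0 : (t2iBaseFix 𝔓 H N hN).res ⟨f, hf⟩ ≠ 0) : f⁻¹ ∈ (t2iBaseFix 𝔓 H N hN).Ov :=
  (t2grBaseH 𝔓 H N hN).inv_mem hf h0

/-- `x = j^Q - j ∈ 𝒪` -/
theorem t2gr_x_mem (Q : ℕ) : tbLevJ 𝔓 N H ^ Q - tbLevJ 𝔓 N H ∈ (t2iBaseFix 𝔓 H N hN).Ov :=
  (t2grBaseH 𝔓 H N hN).x_mem Q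

/-- `res x = x̄` -/
theorem t2gr_res_x (Q : ℕ) :
    (t2iBaseFix 𝔓 H N hN).res ⟨tbLevJ 𝔓 N H ^ Q - tbLevJ 𝔓 N H, t2gr_x_mem 𝔓 H N hN Q⟩ =
      tbBarJ 𝔓 N ^ Q - tbBarJ 𝔓 N :=
  (t2grBaseH 𝔓 H N hN).res_x Q

/-- `x⁻¹ ∈ 𝒪` -/
theorem t2gr_x_inv_mem {Q : ℕ} (hQ : 2 ≤ Q) :
    (tbLevJ 𝔓 N H ^ Q - tbLevJ 𝔓 N H)⁻¹ ∈ (t2iBaseFix 𝔓 H N hN).Ov :=
  (t2grBaseH 𝔓 H N hN).x_inv_mem hQ

variable (h49 : 4 ∣ N ∨ 9 ∣ N)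

include h49

/-- **(GR1) for the chart `j`** -/
theorem t2gr_GR1_j {t : ↥(tbBarF 𝔓 N)}
    (ht : IsIntegral ↥(Algebra.adjoin (IsLocalRing.ResidueField ↥𝔓.P) {tbBarJ 𝔓 N}) t) :
    ∃ f, ∃ hf : f ∈ (t2iBaseFix 𝔓 H N hN).Ov,
      IsIntegral ↥(Algebra.adjoin ↥(tbFix 𝔓 H) {tbLevJ 𝔓 N H}) f ∧
        (t2iBaseFix 𝔓 H N hN).res ⟨f, hf⟩ = t :=
  (t2grBaseH 𝔓 H N hN).GR1_j (tbq_levelOK 𝔓 N H hN) hN h49 ht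

/-- **(GR2) for the chart `j`** -/
theorem t2gr_GR2_j {t : ↥(tbBarF 𝔓 N)}
    (ht : IsIntegral ↥(Algebra.adjoin (IsLocalRing.ResidueField ↥𝔓.P) {(tbBarJ 𝔓 N)⁻¹}) t) :
    ∃ f, ∃ hf : f ∈ (t2iBaseFix 𝔓 H N hN).Ov,
      IsIntegral ↥(Algebra.adjoin ↥(tbFix 𝔓 H) {(tbLevJ 𝔓 N H)⁻¹}) f ∧
        (t2iBaseFix 𝔓 H N hN).res ⟨f, hf⟩ = t :=
  (t2grBaseH 𝔓 H N hN).GR2_j (tbq_levelOK 𝔓 N H hN) hN h49 ht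

/-- **(GR1)**: every `t ∈ F̄_N` integral over `κ[x̄]`, `x̄ = j̄^Q - j̄`, is the residue of an `f` in
the Gauss ring integral over `L_H[x]`, `x = j^Q - j` -/
theorem t2gr_GR1 {Q : ℕ} (hQ : 2 ≤ Q) (hpQ : 𝔓.p ∣ Q) {t : ↥(tbBarF 𝔓 N)}
    (ht : IsIntegral ↥(Algebra.adjoin (IsLocalRing.ResidueField ↥𝔓.P)
      {tbBarJ 𝔓 N ^ Q - tbBarJ 𝔓 N}) t) :
    ∃ f, ∃ hf : f ∈ (t2iBaseFix 𝔓 H N hN).Ov,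
      IsIntegral ↥(Algebra.adjoin ↥(tbFix 𝔓 H) {tbLevJ 𝔓 N H ^ Q - tbLevJ 𝔓 N H}) f ∧
        (t2iBaseFix 𝔓 H N hN).res ⟨f, hf⟩ = t :=
  (t2grBaseH 𝔓 H N hN).GR1 (tbq_levelOK 𝔓 N H hN) hN h49 hQ hpQ ht

/-- **(GR2)**: every `t ∈ F̄_N` integral over `κ[x̄⁻¹]` is the residue of an `f` in the Gauss ring
integral over `L_H[x⁻¹]` -/
theorem t2gr_GR2 {Q : ℕ} (hQ : 2 ≤ Q) (hpQ : 𝔓.p ∣ Q) {t : ↥(tbBarF 𝔓 N)}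
    (ht : IsIntegral ↥(Algebra.adjoin (IsLocalRing.ResidueField ↥𝔓.P)
      {(tbBarJ 𝔓 N ^ Q - tbBarJ 𝔓 N)⁻¹}) t) :
    ∃ f, ∃ hf : f ∈ (t2iBaseFix 𝔓 H N hN).Ov,
      IsIntegral ↥(Algebra.adjoin ↥(tbFix 𝔓 H) {(tbLevJ 𝔓 N H ^ Q - tbLevJ 𝔓 N H)⁻¹}) f ∧
        (t2iBaseFix 𝔓 H N hN).res ⟨f, hf⟩ = t :=
  (t2grBaseH 𝔓 H N hN).GR2 (tbq_levelOK 𝔓 N H hN) hN h49 hQ hpQ ht

end Fermat.Agent.T2
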