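/-
T2-C leaf SF (helper8): **the special fibre chart `X̄ = (ξ, ξ)`, `ξ = (j̄^(q²) - j̄)^(q+1)`**.

`E` a function field over an algebraically closed field `k`, `j` a separating generator,
`ξ := (j ^ Q - j) ^ m` (`2 ≤ Q`, `0 < m`), `X̄ := (ξ, ξ) : E × E`, `X̄⁻¹ := (ξ⁻¹, ξ⁻¹)`.

* `t2sf_finrank` : `[E : k(ξ)] = m * Q * [E : k(j)]`;
* `t2sf_exists_indep` : a family of `2 * [E : k(ξ)]` elements of `E × E` independent over `k[X̄]`
  (and `t2sf_exists_indep_inv` over `k[X̄⁻¹]`);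
* `t2sf_finiteDimensional_t2Lt` : `t2Lt X̄ X̄⁻¹ a` is finite-dimensional;
* `t2sf_transcendental`, `t2sf_transcendental_inv` : `X̄`, `X̄⁻¹` are transcendental over `k`.

Instance: `E = TaBar k N'` (`k` algebraically closed of characteristic `q`, `N' ≠ 0` in `k`),
`j = taBarJ k N'`, `Q = q * q`, `m = q + 1` : `t2sfXi`, `t2sf_bar_*`.
-/
import Fermat.Agent.Lib.T2.Inst.Degree
import Fermat.Agent.Lib.T2.Inst.NodeFrob
import Fermat.Agent.Lib.T2.Core.Sing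
import Fermat.Agent.Lib.T1.Core.Twist
import Fermat.Agent.Lib.T1.GoodRed.BarDegree
import Fermat.Agent.Lib.T2.Inst.KronH

set_option autoImplicit false
set_option linter.unusedSectionVars false
set_option linter.style.haveILetI false

noncomputable section

namespace Fermat.Agent.T2

open AlgebraicCurve IntermediateField Polynomial Module Fermat.Agent.Curve Fermat.Agent.Curve.PlaceAux
  Fermat.Agent.T1

section Ord

variable {k E : Type*} [Field k] [Field E] [Algebra k E]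

/-- `ord_v (j^Q - j) = Q ord_v j` at a pole of `j` -/
theorem t2sf_ord_pow_sub (v : Place k E) {j : E} {Q : ℕ} (hQ : 2 ≤ Q) (hv : v.ord j < 0) :
    v.ord (j ^ Q - j) = Q * v.ord j := by
  have hj0 : j ≠ 0 := by
    rintro rfl
    rw [v.ord_zero] at hv
    exact lt_irrefl _ hv
  have h1 : v.ord (j ^ Q) = Q * v.ord j := by
    rw [← zpow_natCast, v.ord_zpow]
  rw [sub_eq_add_neg, ord_add_of_lt v (pow_ne_zero Q hj0), h1]
  rw [h1, ord_neg]
  have : (2 : ℤ) ≤ (Q : ℤ) := by exact_mod_cast hQ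
  nlinarith

/-- `ord_v ((j^Q - j)^m) = m Q ord_v j` at a pole of `j` -/
theorem t2sf_ord_xi (v : Place k E) {j : E} {Q : ℕ} (hQ : 2 ≤ Q) (m : ℕ) (hv : v.ord j < 0) :
    v.ord ((j ^ Q - j) ^ m) = (m * Q : ℕ) * v.ord j := by
  rw [← zpow_natCast, v.ord_zpow, t2sf_ord_pow_sub v hQ hv]
  push_cast
  ring

/-- `(j^Q - j)^m` is regular where `j` is -/
theorem t2sf_ord_xi_nonneg (v : Place k E) {j : E} (Q m : ℕ) (hv : 0 ≤ v.ord j) :
    0 ≤ v.ord ((j ^ Q - j) ^ m) := by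
  have hmem : j ∈ v.toValuationSubring := mem_of_ord_nonneg v hv
  exact ord_nonneg_of_mem v (pow_mem (sub_mem (pow_mem hmem Q) hmem) m)

end Ord

/-! ### The spaces `t2Lt` -/

section Lt

variable {k E : Type*} [Field k] [IsAlgClosed k] [Field E] [Algebra k E] {j : E}
  (hj : IsFunctionFieldGen k E j) [Algebra.IsSeparable k⟮j⟯ E]

omit [IsAlgClosed k] in
theorem t2sf_xi_mem_adjoin (j : E) (Q m : ℕ) : (j ^ Q - j) ^ m ∈ Algebra.adjoin k {j} :=
  pow_mem (sub_mem (pow_mem (Algebra.self_mem_adjoin_singleton k j) Q)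
    (Algebra.self_mem_adjoin_singleton k j)) m

include hj in
omit [IsAlgClosed k] [Algebra.IsSeparable k⟮j⟯ E] in
theorem t2sf_xi_ne_zero {Q : ℕ} (hQ : 2 ≤ Q) (m : ℕ) : (j ^ Q - j) ^ m ≠ 0 := by
  apply pow_ne_zero
  intro h0
  apply hj.transcendental
  refine ⟨X ^ Q - X, FiniteField.X_pow_card_sub_X_ne_zero k (by omega), ?_⟩
  rw [map_sub, map_pow, aeval_X]
  exact h0

include hj in
/-- a function with poles of order `≤ a` along `ξ = ∞` has poles of order `≤ a m Q` along `j = ∞` -/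
theorem t2sf_mem_tbLbar {Q : ℕ} (hQ : 2 ≤ Q) (m a : ℕ) {t : E}
    (ht : t ∈ t2Lt (k := k) ((j ^ Q - j) ^ m) ((j ^ Q - j) ^ m)⁻¹ a) :
    t ∈ tbLbar (K := k) j (a * (m * Q)) 0 := by
  haveI := CurveP.isSeparable_adjoin_inv (K := k) j
  have hj0 : j ≠ 0 := fun h0 => hj.transcendental (h0 ▸ isAlgebraic_zero)
  have hξ0 : (j ^ Q - j) ^ m ≠ 0 := t2sf_xi_ne_zero hj hQ m
  rw [mem_tbLbar]
  refine ⟨?_, ?_⟩
  · rw [pow_zero, one_mul]
    exact t2c_isIntegral_of_mem_adjoin (t2sf_xi_mem_adjoin j Q m) (mem_t2Lt.mp ht).1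
  · rcases eq_or_ne t 0 with rfl | ht0
    · rw [mul_zero]
      exact isIntegral_zero
    refine ta_isIntegral_of_regular (CurveP.isFunctionFieldGen_inv hj) _ fun v hv => ?_
    rw [v.ord_inv] at hv
    rw [v.ord_mul (pow_ne_zero _ (inv_ne_zero hj0)) ht0, ← zpow_natCast, v.ord_zpow, v.ord_inv]
    rcases eq_or_lt_of_le (neg_nonneg.mp hv) with h0 | h0
    · have h1 := ta_ord_nonneg_of_isIntegral ht.1 v (t2sf_ord_xi_nonneg v Q m h0.ge)
      rw [h0]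
      simpa using h1
    · have hξ := t2sf_ord_xi v hQ m h0
      have h1 : 0 ≤ v.ord ((j ^ Q - j) ^ m)⁻¹ := by
        rw [v.ord_inv, hξ]
        have : (0 : ℤ) ≤ ((m * Q : ℕ) : ℤ) := Int.natCast_nonneg _
        nlinarith
      have h2 := ta_ord_nonneg_of_isIntegral ht.2 v h1
      rw [v.ord_mul (pow_ne_zero _ (inv_ne_zero hξ0)) ht0, ← zpow_natCast, v.ord_zpow, v.ord_inv,
        hξ] at h2
      push_cast at h2 ⊢
      linarith

include hj in
/-- **(SF2), one component** -/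
theorem t2sf_finiteDimensional_t2Lt_field {Q : ℕ} (hQ : 2 ≤ Q) (m a : ℕ) :
    FiniteDimensional k ↥(t2Lt (k := k) ((j ^ Q - j) ^ m) ((j ^ Q - j) ^ m)⁻¹ a) := by
  haveI := tw_finiteDimensional_tbLbar hj (a * (m * Q)) 0
  exact Submodule.finiteDimensional_of_le fun t ht => t2sf_mem_tbLbar hj hQ m a ht

omit [IsAlgClosed k] [Algebra.IsSeparable k⟮j⟯ E] in
/-- the components of an element of `t2Lt (ξ, ξ) (ξ⁻¹, ξ⁻¹) a` -/
theorem t2sf_t2Lt_prod_le {ξ ξi : E} (a : ℕ) {t : E × E}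
    (ht : t ∈ t2Lt (k := k) ((ξ, ξ) : E × E) (ξi, ξi) a) :
    t.1 ∈ t2Lt (k := k) ξ ξi a ∧ t.2 ∈ t2Lt (k := k) ξ ξi a := by
  have ht' := (mem_t2Lt (k := k) (xb := ((ξ, ξ) : E × E)) (xib := (ξi, ξi)) (a := a) (t := t)).mp ht
  obtain ⟨ht1, ht2⟩ := ht'
  have h1 := t2c_isIntegral_fst (k := k) (x := ((ξ, ξ) : E × E)) (t := t) ht1
  have h2 := t2c_isIntegral_snd (k := k) (x := ((ξ, ξ) : E × E)) (t := t) ht1
  have h3 := t2c_isIntegral_fst (k := k) (x := ((ξi, ξi) : E × E)) (t := (ξi, ξi) ^ a * t) ht2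
  have h4 := t2c_isIntegral_snd (k := k) (x := ((ξi, ξi) : E × E)) (t := (ξi, ξi) ^ a * t) ht2
  rw [Prod.fst_mul, Prod.pow_fst] at h3
  rw [Prod.snd_mul, Prod.pow_snd] at h4
  exact ⟨mem_t2Lt.mpr ⟨h1, h3⟩, mem_t2Lt.mpr ⟨h2, h4⟩⟩

include hj in
/-- **(SF2)** -/
theorem t2sf_finiteDimensional_t2Lt {Q : ℕ} (hQ : 2 ≤ Q) (m a : ℕ) :
    FiniteDimensional k ↥(t2Lt (k := k)
      (((j ^ Q - j) ^ m, (j ^ Q - j) ^ m) : E × E)
      (((j ^ Q - j) ^ m)⁻¹, ((j ^ Q - j) ^ m)⁻¹) a) := by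
  haveI := t2sf_finiteDimensional_t2Lt_field hj hQ m a
  set L := t2Lt (k := k) ((j ^ Q - j) ^ m) ((j ^ Q - j) ^ m)⁻¹ a with hL
  let φ : ↥(t2Lt (k := k) (((j ^ Q - j) ^ m, (j ^ Q - j) ^ m) : E × E)
      (((j ^ Q - j) ^ m)⁻¹, ((j ^ Q - j) ^ m)⁻¹) a) →ₗ[k] ↥L × ↥L :=
    { toFun := fun t => (⟨t.1.1, (t2sf_t2Lt_prod_le a t.2).1⟩, ⟨t.1.2, (t2sf_t2Lt_prod_le a t.2).2⟩)
      map_add' := fun s t => rfl
      map_smul' := fun c t => rfl }
  refine FiniteDimensional.of_injective φ fun s t hst => ?_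
  apply Subtype.ext
  apply Prod.ext
  · exact congrArg (fun z : ↥L × ↥L => (z.1 : E)) hst
  · exact congrArg (fun z : ↥L × ↥L => (z.2 : E)) hst

end Lt

/-! ### Transcendence and the independent family -/

section Indep

variable {k E : Type*} [Field k] [Field E] [Algebra k E]

/-- the diagonal of a transcendental element is transcendental -/
theorem t2sf_transcendental_diag {ξ : E} (hξ : Transcendental k ξ) :
    Transcendental k ((ξ, ξ) : E × E) := by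
  rintro ⟨p, hp0, hp⟩
  refine hξ ⟨p, hp0, ?_⟩
  have h1 := Polynomial.aeval_algHom_apply (AlgHom.fst k E E) ((ξ, ξ) : E × E) p
  rw [hp] at h1
  exact h1

/-- elements of `k[(ξ, ξ)]` are diagonal with entries in `k[ξ]` -/
theorem t2sf_mem_adjoin_diag {ξ : E} {c : E × E} (hc : c ∈ Algebra.adjoin k {((ξ, ξ) : E × E)}) :
    c.1 ∈ Algebra.adjoin k {ξ} ∧ c.2 = c.1 := by
  rw [Algebra.adjoin_singleton_eq_range_aeval] at hc
  obtain ⟨p, rfl⟩ := hc
  have h1 : (aeval ((ξ, ξ) : E × E) p).1 = aeval ξ p :=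
    (Polynomial.aeval_algHom_apply (AlgHom.fst k E E) ((ξ, ξ) : E × E) p).symm
  have h2 : (aeval ((ξ, ξ) : E × E) p).2 = aeval ξ p :=
    (Polynomial.aeval_algHom_apply (AlgHom.snd k E E) ((ξ, ξ) : E × E) p).symm
  refine ⟨?_, ?_⟩
  · show (aeval ((ξ, ξ) : E × E) p).1 ∈ _
    rw [h1, Algebra.adjoin_singleton_eq_range_aeval]
    exact ⟨p, rfl⟩
  · show (aeval ((ξ, ξ) : E × E) p).2 = (aeval ((ξ, ξ) : E × E) p).1
    rw [h1, h2]

/-- **(SF1), the independent family**: `2 [E : k(ξ)]` elements of `E × E` independent over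
`k[(ξ, ξ)]` -/
theorem t2sf_exists_indep (ξ : E) [FiniteDimensional ↥k⟮ξ⟯ E] {n' : ℕ}
    (hn' : n' = 2 * finrank ↥k⟮ξ⟯ E) :
    ∃ t : Fin n' → E × E, ∀ c : Fin n' → ↥(Algebra.adjoin k {((ξ, ξ) : E × E)}),
      ∑ i, ((c i : ↥(Algebra.adjoin k {((ξ, ξ) : E × E)})) : E × E) * t i = 0 → ∀ i, c i = 0 := by
  classical
  subst hn'
  set n := finrank ↥k⟮ξ⟯ E with hn
  let e : Basis (Fin n) ↥k⟮ξ⟯ E := Module.finBasis ↥k⟮ξ⟯ E
  let φ : Fin n ⊕ Fin n ≃ Fin (2 * n) := finSumFinEquiv.trans (finCongr (two_mul n).symm)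
  let t₀ : Fin n ⊕ Fin n → E × E := Sum.elim (fun a => (e a, 0)) (fun b => (0, e b))
  refine ⟨fun i => t₀ (φ.symm i), fun c hc => ?_⟩
  -- the coefficients as elements of `k(ξ)`
  have hmem : ∀ i, ((c i : ↥(Algebra.adjoin k {((ξ, ξ) : E × E)})) : E × E).1 ∈ k⟮ξ⟯ := fun i =>
    IntermediateField.algebra_adjoin_le_adjoin k _ (t2sf_mem_adjoin_diag (c i).2).1
  let γ : Fin (2 * n) → ↥k⟮ξ⟯ := fun i => ⟨_, hmem i⟩
  have hsum : ∑ s : Fin n ⊕ Fin n,
      ((c (φ s) : ↥(Algebra.adjoin k {((ξ, ξ) : E × E)})) : E × E) * t₀ s = 0 := by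
    rw [← hc]
    refine Fintype.sum_equiv φ _ _ fun s => ?_
    show _ = _ * t₀ (φ.symm (φ s))
    rw [Equiv.symm_apply_apply]
  rw [Fintype.sum_sum_type] at hsum
  have h1 := congrArg Prod.fst hsum
  have h2 := congrArg Prod.snd hsum
  simp only [Prod.fst_add, Prod.snd_add, Prod.fst_sum, Prod.snd_sum, Prod.fst_mul, Prod.snd_mul,
    t₀, Sum.elim_inl, Sum.elim_inr, mul_zero, Finset.sum_const_zero, add_zero, zero_add,
    Prod.fst_zero, Prod.snd_zero] at h1 h2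
  have hli := Fintype.linearIndependent_iff.mp e.linearIndependent
  have hl : ∀ a, γ (φ (Sum.inl a)) = 0 := by
    apply hli
    rw [← h1]
    refine Finset.sum_congr rfl fun a _ => ?_
    rw [IntermediateField.smul_def]
    rfl
  have hr : ∀ b, γ (φ (Sum.inr b)) = 0 := by
    apply hli
    rw [← h2]
    refine Finset.sum_congr rfl fun b _ => ?_
    rw [IntermediateField.smul_def, (t2sf_mem_adjoin_diag (c (φ (Sum.inr b))).2).2]
    rfl
  intro i
  have hγ : γ i = 0 := by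
    obtain ⟨s, rfl⟩ := φ.surjective i
    rcases s with a | b
    · exact hl a
    · exact hr b
  have h3 : ((c i : ↥(Algebra.adjoin k {((ξ, ξ) : E × E)})) : E × E).1 = 0 :=
    congrArg Subtype.val hγ
  apply Subtype.ext
  apply Prod.ext
  · exact h3
  · rw [(t2sf_mem_adjoin_diag (c i).2).2, h3]
    rfl

end Indep

/-! ### The abstract chart `ξ = (j^Q - j)^m` -/

section Chart

variable {k E : Type*} [Field k] [Field E] [Algebra k E] {j : E}
  (hj : IsFunctionFieldGen k E j)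

theorem t2sf_xi_eq_aeval (j : E) (Q m : ℕ) :
    (j ^ Q - j) ^ m = aeval j (((X : k[X]) ^ Q - X) ^ m) := by
  simp

theorem t2sf_natDegree {Q : ℕ} (hQ : 2 ≤ Q) (m : ℕ) :
    (((X : k[X]) ^ Q - X) ^ m).natDegree = m * Q := by
  rw [natDegree_pow, t2dg_natDegree_pow_sub hQ]

include hj in
/-- `ξ` is a generator of the function field -/
theorem t2sf_isFunctionFieldGen {Q : ℕ} (hQ : 2 ≤ Q) {m : ℕ} (hm : 0 < m) :
    IsFunctionFieldGen k E ((j ^ Q - j) ^ m) := by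
  rw [t2sf_xi_eq_aeval (k := k)]
  refine t2dg_isFunctionFieldGen_aeval hj ?_
  rw [t2sf_natDegree hQ]
  exact Nat.mul_pos hm (by omega)

include hj in
/-- **(SF1), the degree**: `[E : k(ξ)] = m Q [E : k(j)]` -/
theorem t2sf_finrank {Q : ℕ} (hQ : 2 ≤ Q) (m : ℕ) :
    finrank ↥k⟮(j ^ Q - j) ^ m⟯ E = m * Q * finrank ↥k⟮j⟯ E := by
  rw [t2sf_xi_eq_aeval (k := k), t2dg_finrank_aeval hj.transcendental, t2sf_natDegree hQ]

include hj in
/-- **(SF3)** -/
theorem t2sf_transcendental {Q : ℕ} (hQ : 2 ≤ Q) {m : ℕ} (hm : 0 < m) :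
    Transcendental k (((j ^ Q - j) ^ m, (j ^ Q - j) ^ m) : E × E) :=
  t2sf_transcendental_diag (t2sf_isFunctionFieldGen hj hQ hm).transcendental

include hj in
/-- **(SF3)** for the chart at infinity -/
theorem t2sf_transcendental_inv {Q : ℕ} (hQ : 2 ≤ Q) {m : ℕ} (hm : 0 < m) :
    Transcendental k ((((j ^ Q - j) ^ m)⁻¹, ((j ^ Q - j) ^ m)⁻¹) : E × E) :=
  t2sf_transcendental_diag
    (CurveP.isFunctionFieldGen_inv (t2sf_isFunctionFieldGen hj hQ hm)).transcendental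

include hj in
/-- **(SF1)**, the independent family over `k[(ξ, ξ)]` -/
theorem t2sf_exists_indep_xi {Q : ℕ} (hQ : 2 ≤ Q) {m : ℕ} (hm : 0 < m) {n' : ℕ}
    (hn' : n' = 2 * (m * Q * finrank ↥k⟮j⟯ E)) :
    ∃ t : Fin n' → E × E,
      ∀ c : Fin n' → ↥(Algebra.adjoin k {(((j ^ Q - j) ^ m, (j ^ Q - j) ^ m) : E × E)}),
        ∑ i, ((c i : ↥(Algebra.adjoin k {(((j ^ Q - j) ^ m, (j ^ Q - j) ^ m) : E × E)})) : E × E)
          * t i = 0 → ∀ i, c i = 0 := by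
  haveI := (t2sf_isFunctionFieldGen hj hQ hm).finite
  exact t2sf_exists_indep ((j ^ Q - j) ^ m) (by rw [hn', t2sf_finrank hj hQ m])

include hj in
/-- **(SF1)**, the independent family over `k[(ξ⁻¹, ξ⁻¹)]` -/
theorem t2sf_exists_indep_xi_inv {Q : ℕ} (hQ : 2 ≤ Q) {m : ℕ} (hm : 0 < m) {n' : ℕ}
    (hn' : n' = 2 * (m * Q * finrank ↥k⟮j⟯ E)) :
    ∃ t : Fin n' → E × E,
      ∀ c : Fin n' → ↥(Algebra.adjoin k {((((j ^ Q - j) ^ m)⁻¹, ((j ^ Q - j) ^ m)⁻¹) : E × E)}),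
        ∑ i, ((c i : ↥(Algebra.adjoin k
          {((((j ^ Q - j) ^ m)⁻¹, ((j ^ Q - j) ^ m)⁻¹) : E × E)})) : E × E) * t i = 0 →
        ∀ i, c i = 0 := by
  haveI := (CurveP.isFunctionFieldGen_inv (t2sf_isFunctionFieldGen hj hQ hm)).finite
  refine t2sf_exists_indep ((j ^ Q - j) ^ m)⁻¹ ?_
  rw [hn', CurveP.adjoin_simple_inv_eq, t2sf_finrank hj hQ m]

end Chart

/-! ### The instance `E = F̄_{N'}` -/

section Bar

variable (k : Type*) [Field k] [IsAlgClosed k] (q : ℕ) [hq : Fact q.Prime] [CharP k q]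
  (N' : ℕ) [NeZero N']

/-- `ξ = (j̄^(q²) - j̄)^(q+1)`, the reduction of `x_s = x · w x` on both components -/
def t2sfXi : TaBar k N' := t2cX k q N' ^ (q + 1)

theorem t2sfXi_eq : t2sfXi k q N' = (taBarJ k N' ^ (q * q) - taBarJ k N') ^ (q + 1) := rfl

/-- `X̄ = (ξ, ξ)` -/
def t2sfX : TaBar k N' × TaBar k N' := (t2sfXi k q N', t2sfXi k q N')

/-- `X̄⁻¹ = (ξ⁻¹, ξ⁻¹)` -/
def t2sfXinv : TaBar k N' × TaBar k N' := ((t2sfXi k q N')⁻¹, (t2sfXi k q N')⁻¹)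

omit [IsAlgClosed k] [CharP k q] in
theorem t2sf_two_le : 2 ≤ q * q := by
  have := hq.out.two_le
  nlinarith

omit [IsAlgClosed k] [CharP k q] in
theorem t2sfX_mul_inv : t2sfX k q N' * t2sfXinv k q N' = 1 := by
  have h0 : t2sfXi k q N' ≠ 0 :=
    t2sf_xi_ne_zero (ta_bar_isFunctionFieldGen k N') (t2sf_two_le q) (q + 1)
  rw [t2sfX, t2sfXinv, Prod.mk_mul_mk, mul_inv_cancel₀ h0]
  rfl

omit [IsAlgClosed k] [CharP k q] in
theorem t2sfXi_mem_adjoin : t2sfXi k q N' ∈ Algebra.adjoin k {taBarJ k N'} :=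
  t2sf_xi_mem_adjoin (taBarJ k N') (q * q) (q + 1)

omit [IsAlgClosed k] [CharP k q] in
/-- `X̄ = (x̄', x̄'^q) (x̄'^q, x̄')`: the reduction of `x_s = x · w x` -/
theorem t2sfX_eq_mul : t2sfX k q N' =
    (t2cX k q N', t2cX k q N' ^ q) * (t2cX k q N' ^ q, t2cX k q N') := by
  rw [Prod.mk_mul_mk, ← pow_succ', ← pow_succ]
  rfl

omit [IsAlgClosed k] in
/-- the same with the relative Frobenius `Φ = t2cPhi` -/
theorem t2sfX_eq_mul_phi [PerfectRing k q] : t2sfX k q N' =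
    (t2cX k q N', t2cPhi k q N' (t2cX k q N')) * (t2cPhi k q N' (t2cX k q N'), t2cX k q N') := by
  rw [t2cPhi_X, t2sfX_eq_mul]

omit [IsAlgClosed k] [CharP k q] in
/-- `ξ` generates `F̄_{N'}` as a function field -/
theorem t2sf_bar_isFunctionFieldGen : IsFunctionFieldGen k (TaBar k N') (t2sfXi k q N') :=
  t2sf_isFunctionFieldGen (ta_bar_isFunctionFieldGen k N') (t2sf_two_le q) (Nat.succ_pos q)

/-- **(SF1)**: `[F̄_{N'} : k(ξ)] = (q+1) q² ψ(N')` -/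
theorem t2sf_bar_finrank (hN' : (N' : k) ≠ 0) :
    finrank ↥k⟮t2sfXi k q N'⟯ (TaBar k N') =
      (q + 1) * q ^ 2 * ModularCurve.dedekindPsi N' := by
  rw [t2sfXi_eq, t2sf_finrank (ta_bar_isFunctionFieldGen k N') (t2sf_two_le q),
    ta_bar_finrank k N' hN', sq]

/-- `(q+1) q² ψ(N') = q² ψ(N' q)` -/
theorem t2sf_bar_finrank' (hN' : (N' : k) ≠ 0) :
    finrank ↥k⟮t2sfXi k q N'⟯ (TaBar k N') = q ^ 2 * ModularCurve.dedekindPsi (N' * q) := by
  rw [t2sf_bar_finrank k q N' hN', t2i_dedekindPsi (k := k) N' q hN']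
  ring

/-- **(SF1)**, the independent family over `k[X̄]` -/
theorem t2sf_bar_exists_indep (hN' : (N' : k) ≠ 0) :
    ∃ t : Fin (2 * (q ^ 2 * ModularCurve.dedekindPsi (N' * q))) → TaBar k N' × TaBar k N',
      ∀ c : Fin (2 * (q ^ 2 * ModularCurve.dedekindPsi (N' * q))) →
          ↥(Algebra.adjoin k {t2sfX k q N'}),
        ∑ i, ((c i : ↥(Algebra.adjoin k {t2sfX k q N'})) : TaBar k N' × TaBar k N') * t i = 0 →
          ∀ i, c i = 0 := by
  haveI := (t2sf_bar_isFunctionFieldGen k q N').finite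
  exact t2sf_exists_indep (t2sfXi k q N') (by rw [t2sf_bar_finrank' k q N' hN'])

/-- **(SF1)**, the independent family over `k[X̄⁻¹]` -/
theorem t2sf_bar_exists_indep_inv (hN' : (N' : k) ≠ 0) :
    ∃ t : Fin (2 * (q ^ 2 * ModularCurve.dedekindPsi (N' * q))) → TaBar k N' × TaBar k N',
      ∀ c : Fin (2 * (q ^ 2 * ModularCurve.dedekindPsi (N' * q))) →
          ↥(Algebra.adjoin k {t2sfXinv k q N'}),
        ∑ i, ((c i : ↥(Algebra.adjoin k {t2sfXinv k q N'})) : TaBar k N' × TaBar k N') * t i = 0 →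
          ∀ i, c i = 0 := by
  haveI := (CurveP.isFunctionFieldGen_inv (t2sf_bar_isFunctionFieldGen k q N')).finite
  refine t2sf_exists_indep (t2sfXi k q N')⁻¹ ?_
  rw [CurveP.adjoin_simple_inv_eq, t2sf_bar_finrank' k q N' hN']

/-- **(SF2)** -/
theorem t2sf_bar_finiteDimensional_t2Lt (hN' : (N' : k) ≠ 0) (a : ℕ) :
    FiniteDimensional k ↥(t2Lt (k := k) (t2sfX k q N') (t2sfXinv k q N') a) := by
  haveI := ta_bar_isSeparable k N' hN'
  exact t2sf_finiteDimensional_t2Lt (ta_bar_isFunctionFieldGen k N') (t2sf_two_le q) (q + 1) a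

omit [IsAlgClosed k] [CharP k q] in
/-- **(SF3)** -/
theorem t2sf_bar_transcendental : Transcendental k (t2sfX k q N') :=
  t2sf_transcendental_diag (t2sf_bar_isFunctionFieldGen k q N').transcendental

omit [IsAlgClosed k] [CharP k q] in
/-- **(SF3)** for the chart at infinity -/
theorem t2sf_bar_transcendental_inv : Transcendental k (t2sfXinv k q N') :=
  t2sf_transcendental_diag
    (CurveP.isFunctionFieldGen_inv (t2sf_bar_isFunctionFieldGen k q N')).transcendental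

end Bar

end Fermat.Agent.T2
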