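/-
T2-C leaf SF (helper8), part 2: **the fields `sf1`, `sf1'`, `sf2`, `sf3`, `sf3'` of `T2iHyp`**, in the
exact shape of `Lib/T2/Inst/SetupH.lean`: `ξ := t2iXb k N' q ^ (q + 1)`,
`t2iXb k N' q = t2iJb k N' ^ (q ^ 2) - t2iJb k N'`, `t2iJb k N' = taBarJ k N'` (by `rfl`).
-/
import Fermat.Agent.Lib.T2.Inst.SpecialFibre
import Fermat.Agent.Lib.T2.Inst.ChartH

set_option autoImplicit false
set_option linter.unusedSectionVars false
set_option linter.style.haveILetI false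

noncomputable section

namespace Fermat.Agent.T2

open AlgebraicCurve IntermediateField Polynomial Module ModularCurve Fermat.Agent.Curve
  Fermat.Agent.T1

variable (k : Type*) [Field k] [IsAlgClosed k] (q : ℕ) [hq : Fact q.Prime] [CharP k q]
  (N' : ℕ) [NeZero N']

omit [IsAlgClosed k] [CharP k q] in
theorem t2sf_two_le_sq : 2 ≤ q ^ 2 := by
  have := hq.out.two_le
  nlinarith

omit [IsAlgClosed k] [CharP k q] in
theorem t2iXb_eq : t2iXb k N' q = taBarJ k N' ^ (q ^ 2) - taBarJ k N' := rfl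

/-- `[E : k(ξ)] = q² ψ(N' q)` -/
theorem t2sf_hyp_finrank (hN' : (N' : k) ≠ 0) :
    finrank ↥k⟮t2iXb k N' q ^ (q + 1)⟯ ↥(modularFunctionFieldFullC k N') =
      q ^ 2 * dedekindPsi (N' * q) := by
  rw [t2iXb_eq, t2sf_finrank (ta_bar_isFunctionFieldGen k N') (t2sf_two_le_sq q),
    ta_bar_finrank k N' hN', t2i_dedekindPsi (k := k) N' q hN']
  ring

/-- **`T2iHyp.sf1`** -/
theorem t2sf_hyp_sf1 (hN' : (N' : k) ≠ 0) {nn : ℕ} (hnn : nn = 2 * q ^ 2 * dedekindPsi (N' * q)) :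
    ∃ t : Fin nn → (TaBar k N' × TaBar k N'),
      ∀ c : Fin nn → ↥(Algebra.adjoin k
          {((t2iXb k N' q ^ (q + 1), t2iXb k N' q ^ (q + 1)) : (TaBar k N' × TaBar k N'))}),
        ∑ i, ((c i : (TaBar k N' × TaBar k N'))) * t i = 0 → ∀ i, c i = 0 := by
  have hgen : IsFunctionFieldGen k (TaBar k N') (t2iXb k N' q ^ (q + 1)) :=
    t2sf_isFunctionFieldGen (ta_bar_isFunctionFieldGen k N') (t2sf_two_le_sq q) (Nat.succ_pos q)
  haveI := hgen.finite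
  refine t2sf_exists_indep (t2iXb k N' q ^ (q + 1)) ?_
  rw [hnn, t2sf_hyp_finrank k q N' hN', mul_assoc]

/-- **`T2iHyp.sf1'`** -/
theorem t2sf_hyp_sf1' (hN' : (N' : k) ≠ 0) {nn : ℕ}
    (hnn : nn = 2 * q ^ 2 * dedekindPsi (N' * q)) :
    ∃ t : Fin nn → (TaBar k N' × TaBar k N'),
      ∀ c : Fin nn → ↥(Algebra.adjoin k
          {(((t2iXb k N' q ^ (q + 1))⁻¹, (t2iXb k N' q ^ (q + 1))⁻¹) : (TaBar k N' × TaBar k N'))}),
        ∑ i, ((c i : (TaBar k N' × TaBar k N'))) * t i = 0 → ∀ i, c i = 0 := by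
  have hgen : IsFunctionFieldGen k (TaBar k N') (t2iXb k N' q ^ (q + 1)) :=
    t2sf_isFunctionFieldGen (ta_bar_isFunctionFieldGen k N') (t2sf_two_le_sq q) (Nat.succ_pos q)
  haveI := (CurveP.isFunctionFieldGen_inv hgen).finite
  refine t2sf_exists_indep (t2iXb k N' q ^ (q + 1))⁻¹ ?_
  rw [hnn, CurveP.adjoin_simple_inv_eq, t2sf_hyp_finrank k q N' hN', mul_assoc]

/-- **`T2iHyp.sf2`** -/
theorem t2sf_hyp_sf2 (hN' : (N' : k) ≠ 0) (a : ℕ) :
    FiniteDimensional k ↥(t2Lt (k := k)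
      ((t2iXb k N' q ^ (q + 1), t2iXb k N' q ^ (q + 1)) : (TaBar k N' × TaBar k N'))
      ((t2iXb k N' q ^ (q + 1))⁻¹, (t2iXb k N' q ^ (q + 1))⁻¹) a) := by
  haveI := ta_bar_isSeparable k N' hN'
  exact t2sf_finiteDimensional_t2Lt (ta_bar_isFunctionFieldGen k N') (t2sf_two_le_sq q) (q + 1) a

omit [IsAlgClosed k] [CharP k q] in
/-- **`T2iHyp.sf3`** -/
theorem t2sf_hyp_sf3 :
    Transcendental k ((t2iXb k N' q ^ (q + 1), t2iXb k N' q ^ (q + 1)) : (TaBar k N' × TaBar k N')) :=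
  t2sf_transcendental (ta_bar_isFunctionFieldGen k N') (t2sf_two_le_sq q) (Nat.succ_pos q)

omit [IsAlgClosed k] [CharP k q] in
/-- **`T2iHyp.sf3'`** -/
theorem t2sf_hyp_sf3' :
    Transcendental k (((t2iXb k N' q ^ (q + 1))⁻¹, (t2iXb k N' q ^ (q + 1))⁻¹) : (TaBar k N' × TaBar k N')) :=
  t2sf_transcendental_inv (ta_bar_isFunctionFieldGen k N') (t2sf_two_le_sq q) (Nat.succ_pos q)

end Fermat.Agent.T2
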