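/-
T2-C (helper9): **the export of T2-C for S34**: the leaves (GR) (helper2, `GoodRedH.lean`) and (SF)
(helper8, `SpecialFibreH.lean`) are plugged into `t2i_export_of_leaves`:
`t2i_export_g : T2gExport`, hence `t2i_unip : T2zUnip` (helper4's `t2ga_unip`).
-/
import Fermat.Agent.Lib.T2.Inst.FinalH
import Fermat.Agent.Lib.T2.Inst.GoodRedH
import Fermat.Agent.Lib.T2.Inst.SpecialFibreH

set_option autoImplicit false
set_option linter.unusedSectionVars false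
set_option linter.unusedVariables false
set_option linter.style.haveILetI false
set_option synthInstance.maxHeartbeats 400000
set_option maxHeartbeats 1000000

open HahnSeries ModularCurve Fermat.Agent.T1 Fermat.Agent.TW Fermat.Agent.S24Lib IntermediateField
  AlgebraicCurve Fermat.Agent.Curve Module

noncomputable section

namespace Fermat.Agent.T2

attribute [local instance] t2i_dvr t2i_isAlgClosed t2i_charP t2i_fact t2iAlgebra t2i_isScalarTower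

section Fix

variable (𝔓 : FFPlace) (H : Subgroup 𝔓.I) [H.FiniteIndex] (N' : ℕ) [NeZero N'] (h : ¬ 𝔓.p ∣ N')

/-- the leaf (GR) (helper2) -/
theorem t2i_leafGR (h49 : 4 ∣ N' ∨ 9 ∣ N') : T2iLeafGR 𝔓 H N' h where
  gr1 := fun t ht => t2gr_GR1_j 𝔓 H N' h h49 ht
  gr2 := fun t ht => t2gr_GR2 𝔓 H N' h h49 (t2ca_two_le 𝔓.p) (dvd_pow_self 𝔓.p two_ne_zero) ht

include h in
/-- the leaf (SF) (helper8) -/
theorem t2i_leafSF : T2iLeafSF (IsLocalRing.ResidueField ↥𝔓.P) N' 𝔓.p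
    (2 * 𝔓.p ^ 2 * dedekindPsi (N' * 𝔓.p)) where
  sf1 := t2sf_hyp_sf1 (IsLocalRing.ResidueField ↥𝔓.P) 𝔓.p N' (t2i_natCast_ne_zero 𝔓 h) rfl
  sf1' := t2sf_hyp_sf1' (IsLocalRing.ResidueField ↥𝔓.P) 𝔓.p N' (t2i_natCast_ne_zero 𝔓 h) rfl
  sf2 := t2sf_hyp_sf2 (IsLocalRing.ResidueField ↥𝔓.P) 𝔓.p N' (t2i_natCast_ne_zero 𝔓 h)
  sf3 := t2sf_hyp_sf3 (IsLocalRing.ResidueField ↥𝔓.P) 𝔓.p N'
  sf3' := t2sf_hyp_sf3' (IsLocalRing.ResidueField ↥𝔓.P) 𝔓.p N'

end Fix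

/-- **the export of T2-C** -/
theorem t2i_export_g : T2gExport :=
  t2i_export_of_leaves (fun 𝔓 H _ N' _ h h49 => t2i_leafGR 𝔓 H N' h h49)
    (fun 𝔓 N' _ h => t2i_leafSF 𝔓 N' h)

/-- **S34 in the shape `T2zUnip`** -/
theorem t2i_unip : T2zUnip := t2ga_unip t2i_export_g

end Fermat.Agent.T2
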