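/-
T2-C (helper9), for T2-F (F3): the `T2Setup` of `SetupFin.lean` **with the Frobenius compatibility
(FR) of the node evaluation**: `ev (Fr² r) = (ev r) ^ (q²)` for the coefficientwise Frobenius `Fr`
(helper4's `t2fd_node_prod`, `Lib/T2/F/NodeKer.lean`, in place of helper5's `t2fe_node_prod`).
-/
import Fermat.Agent.Lib.T2.Inst.SetupFin
import Fermat.Agent.Lib.T2.F.NodeKer

set_option autoImplicit false
set_option linter.unusedSectionVars false
set_option linter.unusedVariables false
set_option linter.style.haveILetI false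
set_option synthInstance.maxHeartbeats 400000
set_option maxHeartbeats 1000000

open HahnSeries ModularCurve Fermat.Agent.T1 IntermediateField

noncomputable section

namespace Fermat.Agent.T2

variable {L : Type*} [Field L] [Algebra ℚ L] {O : ValuationSubring L} {k : Type*} [Field k]
  {π : ↥O →+* k} [IsDiscreteValuationRing ↥O] {hπ : Function.Surjective π} [IsAlgClosed k]
  {N' q : ℕ} [NeZero N'] [hq : Fact q.Prime] [CharP k q] {hN' : (N' : k) ≠ 0}
  {W : T2iAL L N' q} (Fr : T2iFrob k N' q)

attribute [local instance] t2iAlgebra t2i_isScalarTower t2i_dvr_A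

section Hyp

variable {nn : ℕ} (Hy : T2iHyp O π hπ hN' W nn)

include Hy

/-- **the node data** `ev`, `hJ`, with the Frobenius compatibility -/
theorem t2i_node_fr :
    ∃ (n : ℕ) (ev : ↥(t2R (k := k) ((t2iBase2 O π hπ hN' W Fr).res
        ⟨t2iXs W, t2i_Xs_mem O π hπ hN' W Fr⟩)) →ₐ[k] (Fin n → k)),
      (∀ r, ev r = 0 →
        (r : ↥(modularFunctionFieldFullC k N') × ↥(modularFunctionFieldFullC k N')) ∈
          (t2iBase2 O π hπ hN' W Fr).resIntAlg (t2iXs W)) ∧
      ∀ r r' : ↥(t2R (k := k) ((t2iBase2 O π hπ hN' W Fr).res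
          ⟨t2iXs W, t2i_Xs_mem O π hπ hN' W Fr⟩)),
        (((r' : ↥(modularFunctionFieldFullC k N') × ↥(modularFunctionFieldFullC k N')).1 :
            ↥(modularFunctionFieldFullC k N')) : LaurentSeries k) =
          coeffMap (frobenius k q) (coeffMap (frobenius k q)
            (((r : ↥(modularFunctionFieldFullC k N') × ↥(modularFunctionFieldFullC k N')).1 :
              ↥(modularFunctionFieldFullC k N')) : LaurentSeries k)) →
        (((r' : ↥(modularFunctionFieldFullC k N') × ↥(modularFunctionFieldFullC k N')).2 :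
            ↥(modularFunctionFieldFullC k N')) : LaurentSeries k) =
          coeffMap (frobenius k q) (coeffMap (frobenius k q)
            (((r : ↥(modularFunctionFieldFullC k N') × ↥(modularFunctionFieldFullC k N')).2 :
              ↥(modularFunctionFieldFullC k N')) : LaurentSeries k)) →
        ev r' = ev r ^ (q ^ 2) := by
  have key : ∀ xb : ↥(modularFunctionFieldFullC k N') × ↥(modularFunctionFieldFullC k N'),
      xb = (t2iXb k N' q ^ (q + 1), t2iXb k N' q ^ (q + 1)) →
      ∃ (n : ℕ) (ev : ↥(t2R (k := k) xb) →ₐ[k] (Fin n → k)),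
        (∀ r, ev r = 0 →
          (r : ↥(modularFunctionFieldFullC k N') × ↥(modularFunctionFieldFullC k N')) ∈
            (t2iBase2 O π hπ hN' W Fr).resIntAlg (t2iXs W)) ∧
        ∀ r r' : ↥(t2R (k := k) xb),
          (((r' : ↥(modularFunctionFieldFullC k N') × ↥(modularFunctionFieldFullC k N')).1 :
              ↥(modularFunctionFieldFullC k N')) : LaurentSeries k) =
            coeffMap (frobenius k q) (coeffMap (frobenius k q)
              (((r : ↥(modularFunctionFieldFullC k N') × ↥(modularFunctionFieldFullC k N')).1 :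
                ↥(modularFunctionFieldFullC k N')) : LaurentSeries k)) →
          (((r' : ↥(modularFunctionFieldFullC k N') × ↥(modularFunctionFieldFullC k N')).2 :
              ↥(modularFunctionFieldFullC k N')) : LaurentSeries k) =
            coeffMap (frobenius k q) (coeffMap (frobenius k q)
              (((r : ↥(modularFunctionFieldFullC k N') × ↥(modularFunctionFieldFullC k N')).2 :
                ↥(modularFunctionFieldFullC k N')) : LaurentSeries k)) →
          ev r' = ev r ^ (q ^ 2) := by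
    intro xb hxb
    subst hxb
    obtain ⟨n, ev, h, hF⟩ := t2fd_node_prod k q N' hN' (t2iXb k N' q ^ (q + 1))
      (t2iXb k N' q ^ (q + 1)) t2i_xi_mem t2i_xi_mem
    exact ⟨n, ev, h ((t2iBase2 O π hπ hN' W Fr).resIntAlg (t2iXs W))
      (fun f hf => (t2i_alpha_mem_resIntAlg Fr Hy f hf).1)
      (fun f hf => (t2i_alpha_mem_resIntAlg Fr Hy f hf).2), hF⟩
  exact key _ (t2i_res_Xs O π hπ hN' W Fr)

/-- **the `T2Setup` for the two-valuation base and the symmetric chart `x_s`, with (FR)** -/
theorem t2i_exists_setup_fr (hqA : ((q : ℕ) : L) ∈ O.nonunits) (m : ℕ) (hm : Nat.Coprime m q)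
    (n₀ : ℕ) (c₀ : ℤ) (a₀ : ℕ)
    (finL0 : ∀ a b : ℕ, FiniteDimensional L ↥(tbLbar (K := L) (t2iXs W) a b))
    (dim0 : ∀ a b : ℕ, a₀ ≤ a + b →
      (Module.finrank L ↥(tbLbar (K := L) (t2iXs W) a b) : ℤ) = ((a + b : ℕ) : ℤ) * n₀ + c₀) :
    ∃ (n : ℕ) (su : T2Setup (t2iBase2 O π hπ hN' W Fr) (Fin n)),
      su.x = t2iXs W ∧ su.m = m ∧ su.ℓ = q ∧ su.n = n₀ ∧ su.c = c₀ ∧ su.a0 = a₀ ∧
      ∀ r r' : ↥(t2R (k := k) su.xb),
        (((r' : ↥(modularFunctionFieldFullC k N') × ↥(modularFunctionFieldFullC k N')).1 :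
            ↥(modularFunctionFieldFullC k N')) : LaurentSeries k) =
          coeffMap (frobenius k q) (coeffMap (frobenius k q)
            (((r : ↥(modularFunctionFieldFullC k N') × ↥(modularFunctionFieldFullC k N')).1 :
              ↥(modularFunctionFieldFullC k N')) : LaurentSeries k)) →
        (((r' : ↥(modularFunctionFieldFullC k N') × ↥(modularFunctionFieldFullC k N')).2 :
            ↥(modularFunctionFieldFullC k N')) : LaurentSeries k) =
          coeffMap (frobenius k q) (coeffMap (frobenius k q)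
            (((r : ↥(modularFunctionFieldFullC k N') × ↥(modularFunctionFieldFullC k N')).2 :
              ↥(modularFunctionFieldFullC k N')) : LaurentSeries k)) →
        su.ev r' = su.ev r ^ (q ^ 2) := by
  obtain ⟨e, he⟩ := t2i_fin1 Fr Hy
  obtain ⟨n, ev, hev, hfr⟩ := t2i_node_fr Fr Hy
  haveI : CharZero L := algebraRat.charZero L
  refine ⟨n,
    { ℓ := q
      hℓ := hq.out
      hℓA := hqA
      hℓ0 := Nat.cast_ne_zero.mpr hq.out.ne_zero
      m := m
      hm := hm
      x := t2iXs W
      hx0 := t2i_Xs_ne_zero W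
      hx := t2i_Xs_mem O π hπ hN' W Fr
      hxi := t2i_Xs_inv_mem O π hπ hN' W Fr
      int1 := t2i_int1 Fr Hy
      int2 := t2i_int2 Fr Hy
      e := e
      fin1 := he
      ex2 := fun f hf => t2_exists_pow_mul_mem_t2Int (t2i_Xs_ne_zero W) hf
      sm2 := t2i_sm2 Fr Hy
      exb := fun t ht => t2_isIntegral_inv_pow_mul
        (t2f_res_mul_inv (t2iBase2 O π hπ hN' W Fr) (t2i_Xs_ne_zero W)
          (t2i_Xs_mem O π hπ hN' W Fr) (t2i_Xs_inv_mem O π hπ hN' W Fr)) ht
      finLt := fun a => by
        rw [t2i_res_Xs, t2i_res_Xs_inv]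
        exact Hy.sf2 a
      ev := ev
      hJ := hev
      n := n₀
      c := c₀
      a0 := a₀
      finL0 := finL0
      dim0 := dim0 }, rfl, rfl, rfl, rfl, rfl, rfl, hfr⟩

end Hyp

end Fermat.Agent.T2
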