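/-
T2-C (helper9), for T2-F (F3): **the export of T2-C with the Frobenius compatibility (FR)**:
`t2i_export : T2fExport` (helper4's `Lib/T2/F/ToricDefs.lean`).
-/
import Fermat.Agent.Lib.T2.Inst.ExportH
import Fermat.Agent.Lib.T2.Inst.SetupFR
import Fermat.Agent.Lib.T2.F.ToricDefs

set_option autoImplicit false
set_option linter.unusedSectionVars false
set_option linter.unusedVariables false
set_option linter.style.haveILetI false
set_option synthInstance.maxHeartbeats 400000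
set_option maxHeartbeats 1000000

open HahnSeries ModularCurve Fermat.Agent.T1 Fermat.Agent.TW Fermat.Agent.S24Lib IntermediateField
  AlgebraicCurve Fermat.Agent.Curve Module

noncomputable section

namespace Fermat.Agent.T2

local notation "Qb" => AlgebraicClosure ℚ

attribute [local instance] t2i_dvr t2i_isAlgClosed t2i_charP t2i_fact t2iAlgebra t2i_isScalarTower

section Fix

variable (𝔓 : FFPlace) (H : Subgroup 𝔓.I) [H.FiniteIndex] (N' : ℕ) [NeZero N'] (h : ¬ 𝔓.p ∣ N')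

/-- **the `T2Setup` at the level `H` with (FR)**, in the shape of helper4's `T2fExport` -/
theorem t2i_exists_setup_fix_fr (h49 : 4 ∣ N' ∨ 9 ∣ N') (m : ℕ) (hm : Nat.Coprime m 𝔓.p) :
    ∃ (n : ℕ) (su : T2Setup (t2iBase2Fix 𝔓 H N' h) (Fin n)),
      su.m = m ∧ su.x = t2gaX 𝔓 H N' h (𝔓.p ^ 2) ∧
      (su.n : ℤ) = finrank ↥Qb⟮tbPhiF 𝔓 (N' * 𝔓.p) H su.x⟯
        ↥(modularFunctionFieldBar (N' * 𝔓.p)) ∧
      su.c = 1 - CurveP.genusR Qb ↥(modularFunctionFieldBar (N' * 𝔓.p)) ∧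
      ∀ r r' : ↥(t2R (k := IsLocalRing.ResidueField ↥𝔓.P) su.xb),
        (((r' : ↥(tbBarF 𝔓 N') × ↥(tbBarF 𝔓 N')).1 : ↥(tbBarF 𝔓 N')) :
            LaurentSeries (IsLocalRing.ResidueField ↥𝔓.P)) =
          coeffMap (frobenius (IsLocalRing.ResidueField ↥𝔓.P) 𝔓.p)
            (coeffMap (frobenius (IsLocalRing.ResidueField ↥𝔓.P) 𝔓.p)
              (((r : ↥(tbBarF 𝔓 N') × ↥(tbBarF 𝔓 N')).1 : ↥(tbBarF 𝔓 N')) :
                LaurentSeries (IsLocalRing.ResidueField ↥𝔓.P))) →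
        (((r' : ↥(tbBarF 𝔓 N') × ↥(tbBarF 𝔓 N')).2 : ↥(tbBarF 𝔓 N')) :
            LaurentSeries (IsLocalRing.ResidueField ↥𝔓.P)) =
          coeffMap (frobenius (IsLocalRing.ResidueField ↥𝔓.P) 𝔓.p)
            (coeffMap (frobenius (IsLocalRing.ResidueField ↥𝔓.P) 𝔓.p)
              (((r : ↥(tbBarF 𝔓 N') × ↥(tbBarF 𝔓 N')).2 : ↥(tbBarF 𝔓 N')) :
                LaurentSeries (IsLocalRing.ResidueField ↥𝔓.P))) →
        su.ev r' = su.ev r ^ (𝔓.p ^ 2) := by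
  have hX := t2i_gen_Xs 𝔓 H N' h
  obtain ⟨n, su, hx, hm', -, hn, hc, -, hfr⟩ :=
    t2i_exists_setup_fr (t2iFrobFix 𝔓 N')
      (t2i_hyp_fix 𝔓 H N' h (t2i_leafGR 𝔓 H N' h h49) (t2i_leafSF 𝔓 N' h))
      (t2i_p_mem_nonunits 𝔓 H) m hm
      (finrank ↥Qb⟮tbPhiF 𝔓 (N' * 𝔓.p) H (t2iXs (t2iALFix 𝔓 H N' h))⟯
        ↥(modularFunctionFieldBar (N' * 𝔓.p)))
      (1 - CurveP.genusR Qb ↥(modularFunctionFieldBar (N' * 𝔓.p)))
      (2 * CurveP.genusR Qb ↥(modularFunctionFieldBar (N' * 𝔓.p)))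
      (t2d_finiteDimensional_tbLbar_mod 𝔓 (N' * 𝔓.p) H hX)
      (fun a b hab => t2d_dim0_mod 𝔓 (N' * 𝔓.p) H hX a b (by omega))
  refine ⟨n, su, hm', hx, ?_, hc, hfr⟩
  rw [hn, hx]

end Fix

/-- **the export of T2-C with (FR)** -/
theorem t2i_export : T2fExport := by
  intro 𝔓 N' _ h h49 m hm
  refine ⟨𝔓.p ^ 2, t2ca_two_le 𝔓.p, ?_⟩
  intro H _ _
  exact t2i_exists_setup_fix_fr 𝔓 H N' h h49 m hm

end Fermat.Agent.T2
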