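/-
T2-C LEAF GR (helper2), part 2: **the fields `gr1`, `gr2` of `T2iHyp`** (`Lib/T2/Inst/SetupH.lean`)
in their exact shape, at `(O, π, hπ, hN') := (tbFixO 𝔓 H, tbFixRes 𝔓 H, tbFixRes_surjective 𝔓 H,
t2i_natCast_ne_zero 𝔓 hN)`, `q := 𝔓.p`.
-/
import Fermat.Agent.Lib.T2.Inst.GoodRedH
import Fermat.Agent.Lib.T2.Inst.SetupH

set_option autoImplicit false
set_option linter.style.haveILetI false
set_option linter.unusedSectionVars false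
set_option synthInstance.maxHeartbeats 400000

open HahnSeries ModularCurve Fermat.Agent.TW Fermat.Agent.S05Lib AlgebraicCurve
  Fermat.Agent.Curve IntermediateField Fermat.Agent.T1

noncomputable section

namespace Fermat.Agent.T2

open scoped Fermat.Agent.T2.T2grInst

attribute [local instance] t2i_dvr t2i_isAlgClosed t2i_charP t2i_fact

variable (𝔓 : FFPlace) (H : Subgroup 𝔓.I) [H.FiniteIndex] (N' : ℕ) [NeZero N']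
  (hN : ¬ 𝔓.p ∣ N') (h49 : 4 ∣ N' ∨ 9 ∣ N')

theorem t2gr_two_le_sq : 2 ≤ 𝔓.p ^ 2 := by
  have := 𝔓.hp.two_le
  nlinarith

include hN h49

/-- **`T2iHyp.gr1`** -/
theorem t2gr_hyp_gr1 :
    ∀ t : ↥(modularFunctionFieldFullC (IsLocalRing.ResidueField ↥𝔓.P) N'),
      IsIntegral ↥(Algebra.adjoin (IsLocalRing.ResidueField ↥𝔓.P)
        {t2iJb (IsLocalRing.ResidueField ↥𝔓.P) N'}) t →
      ∃ (f : ↥(TaF ↥(tbFix 𝔓 H) N'))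
        (hf : f ∈ (t2iBase (tbFixO 𝔓 H) (tbFixRes 𝔓 H) (tbFixRes_surjective 𝔓 H) N'
          (t2i_natCast_ne_zero 𝔓 hN)).Ov),
        IsIntegral ↥(Algebra.adjoin ↥(tbFix 𝔓 H) {taJ (L := ↥(tbFix 𝔓 H)) N'}) f ∧
          (t2iBase (tbFixO 𝔓 H) (tbFixRes 𝔓 H) (tbFixRes_surjective 𝔓 H) N'
            (t2i_natCast_ne_zero 𝔓 hN)).res ⟨f, hf⟩ = t :=
  fun _ ht => t2gr_GR1_j 𝔓 H N' hN h49 ht

/-- **`T2iHyp.gr2`** -/
theorem t2gr_hyp_gr2 :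
    ∀ t : ↥(modularFunctionFieldFullC (IsLocalRing.ResidueField ↥𝔓.P) N'),
      IsIntegral ↥(Algebra.adjoin (IsLocalRing.ResidueField ↥𝔓.P)
        {(t2iXb (IsLocalRing.ResidueField ↥𝔓.P) N' 𝔓.p)⁻¹}) t →
      ∃ (f : ↥(TaF ↥(tbFix 𝔓 H) N'))
        (hf : f ∈ (t2iBase (tbFixO 𝔓 H) (tbFixRes 𝔓 H) (tbFixRes_surjective 𝔓 H) N'
          (t2i_natCast_ne_zero 𝔓 hN)).Ov),
        IsIntegral ↥(Algebra.adjoin ↥(tbFix 𝔓 H) {(t2iX' ↥(tbFix 𝔓 H) N' 𝔓.p)⁻¹}) f ∧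
          (t2iBase (tbFixO 𝔓 H) (tbFixRes 𝔓 H) (tbFixRes_surjective 𝔓 H) N'
            (t2i_natCast_ne_zero 𝔓 hN)).res ⟨f, hf⟩ = t :=
  fun _ ht => t2gr_GR2 𝔓 H N' hN h49 (t2gr_two_le_sq 𝔓) (dvd_pow_self 𝔓.p two_ne_zero) ht

end Fermat.Agent.T2
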